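import Fermat.Agent.LT.Tower.Gens

/-!
# Existence of the tower of fields attached to `ρ`
-/

set_option autoImplicit false

namespace Fermat.Agent.LT.Tower

open NumberField Fermat.Agent.Frob Grp
open Psi (galU coe_galU)
open scoped Pointwise IntermediateField

local notation "Qbar" => AlgebraicClosure ℚ
local notation "G3" => Matrix.GeneralLinearGroup (Fin 2) (ZMod 3)

variable {ρ : GQ →* G3}

theorem exists_towerFields (hρ : Continuous ρ) (hsurj : Function.Surjective ρ)
    (hdet : ∀ σ : GQ, Matrix.GeneralLinearGroup.det (ρ σ) =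
      WeierstrassCurve.modThreeCyclotomicChar σ) : Nonempty (TowerFields ρ) := by
  obtain ⟨K, iK, nK, jK, ζ, hζ, hfrK, hcyc, htcK, hfixK⟩ := stageK hdet
  have hω : IsPrimitiveRoot (jK ζ) 3 := hζ.map_of_injective jK.injective
  have hfixω := fix_omega_iff hdet hω
  obtain ⟨G⟩ := exists_gens hρ hsurj hdet hω
  have hω3 : (jK ζ) ^ 3 = 1 := hω.pow_eq_one
  -- `L`
  obtain ⟨c₃, L, iL, nL, aKL, jL, γ, hjL, hγ, hγ3, hγtop, hc3i, hc3n, hfrL, hgalL, hfixL, hc3x⟩ :=
    stage (P := fun g => g.1.det = 1) (Q := fun g => g ∈ QQ) hfixK Nat.prime_three hζ G.int_x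
      G.x_ne
      (fun g hg => by
        rcases (G.act_x hω (fun g h => (hfixω g).mpr h) hg).2 with h | h | h
        · rw [h]
        · rw [h, mul_pow, hω3, one_mul]
        · rw [h, mul_pow, mul_pow, hω3, one_mul, one_mul])
      (fun g => by
        constructor
        · intro h
          exact ⟨det_of_mem_QQ h, G.fix_x g h⟩
        · rintro ⟨h1, h2⟩
          exact (G.act_x hω (fun g h => (hfixω g).mpr h) h1).1.mp h2)
      ⟨G.st, by rw [G.hst]; exact det_gt, fun h => by
        have h1 := (G.act_x hω (fun g h => (hfixω g).mpr h)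
          (g := G.st) (by rw [G.hst]; exact det_gt)).1.mp h
        rw [G.hst] at h1
        exact gt_not_mem h1⟩
  have hnegL : IsPrimitiveRoot (-1 : L) 2 := IsPrimitiveRoot.neg_one 0 (by norm_num)
  have sqy : ∀ g : GQ, ρ g ∈ QQ → (g G.y) ^ 2 = G.y ^ 2 := fun g hg => by
    rcases (G.act_y hg).2 with h | h
    · rw [h]
    · rw [h, neg_sq]
  have sqz : ∀ g : GQ, ρ g ∈ QQ → (g G.z) ^ 2 = G.z ^ 2 := fun g hg => by
    rcases (G.act_z hg).2 with h | h
    · rw [h]
    · rw [h, neg_sq]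
  have hsjy : G.sj G.y ≠ G.y := fun h => by
    have h1 := (G.act_y (g := G.sj) (by rw [G.hsj]; exact gj_mem_QQ)).1.mp h
    rw [G.hsj] at h1
    exact gj_not_mem h1
  have hsiz : G.si G.z ≠ G.z := fun h => by
    have h1 := (G.act_z (g := G.si) (by rw [G.hsi]; exact gi_mem_QQ)).1.mp h
    rw [G.hsi] at h1
    exact gi_not_mem h1
  -- `E`
  obtain ⟨a, E, iE, nE, aLE, jE, α, hjE, hα, hα2, hαtop, hai, han, hfrE, hgalE, hfixE, hax⟩ :=
    stage (P := fun g => g ∈ QQ) (Q := fun g => g ∈ CI) hfixL Nat.prime_two hnegL G.int_y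
      G.y_ne sqy
      (fun g => by
        constructor
        · intro h
          exact ⟨CI_le h, G.fix_y g h⟩
        · rintro ⟨h1, h2⟩
          exact (G.act_y h1).1.mp h2)
      ⟨G.sj, by rw [G.hsj]; exact gj_mem_QQ, hsjy⟩
  -- `b`
  obtain ⟨b, -, -, -, -, -, -, -, -, -, -, hbi, hbn, -, -, -, hbx⟩ :=
    stage (P := fun g => g ∈ QQ) (Q := fun g => g ∈ CJ) hfixL Nat.prime_two hnegL G.int_z
      G.z_ne sqz
      (fun g => by
        constructor
        · intro h
          exact ⟨CJ_le h, G.fix_z g h⟩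
        · rintro ⟨h1, h2⟩
          exact (G.act_z h1).1.mp h2)
      ⟨G.si, by rw [G.hsi]; exact gi_mem_QQ, hsiz⟩
  -- `M`
  have hnegE : IsPrimitiveRoot (-1 : E) 2 := IsPrimitiveRoot.neg_one 0 (by norm_num)
  obtain ⟨b', M, iM, nM, aEM, jM, β, hjM, hβ, hβ2, hβtop, -, -, hfrM, hgalM, hfixM, hbx'⟩ :=
    stage (P := fun g => g ∈ CI) (Q := fun g => g ∈ CI ∧ g ∈ CJ) hfixE Nat.prime_two hnegE
      G.int_z G.z_ne (fun g hg => sqz g (CI_le hg))
      (fun g => by
        constructor
        · rintro ⟨h, h'⟩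
          exact ⟨h, G.fix_z g h'⟩
        · rintro ⟨h1, h2⟩
          exact ⟨h1, (G.act_z (CI_le h1)).1.mp h2⟩)
      ⟨G.si, by rw [G.hsi]; exact gi_mem, hsiz⟩
  have hpm : ∀ g : G3, (g ∈ CI ∧ g ∈ CJ) ↔ (g = 1 ∨ g = -1) := by
    intro g
    constructor
    · rintro ⟨h, h'⟩
      exact eq_of_mem_CI_CJ h h'
    · rintro (rfl | rfl)
      · exact ⟨one_mem _, one_mem _⟩
      · exact ⟨neg_one_mem_CI, neg_one_mem_CJ⟩
  have hfixM' : ∀ g : GQ, (∀ x : M, g (jM x) = jM x) ↔ (ρ g = 1 ∨ ρ g = -1) := fun g => by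
    rw [hfixM, hpm]
  -- `d`
  have hnegM : IsPrimitiveRoot (-1 : M) 2 := IsPrimitiveRoot.neg_one 0 (by norm_num)
  obtain ⟨d, -, -, -, -, -, -, -, -, -, -, hdi, -, -, -, -, hdx⟩ :=
    stage (P := fun g => g = 1 ∨ g = -1) (Q := fun g => g = 1) hfixM' Nat.prime_two hnegM G.int_t
      G.t_ne
      (fun g hg => by
        rcases (G.act_t hg).2 with h | h
        · rw [h]
        · rw [h, neg_sq])
      (fun g => by
        constructor
        · intro h
          exact ⟨Or.inl h, G.fix_t g (Subgroup.mem_bot.mpr h)⟩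
        · rintro ⟨h1, h2⟩
          exact (G.act_t h1).1.mp h2)
      ⟨G.sm, Or.inr G.hsm, fun h => by
        have h1 := (G.act_t (Or.inr G.hsm)).1.mp h
        rw [G.hsm] at h1
        exact absurd h1 (by decide)⟩
  let aLM : Algebra L M := ((algebraMap E M).comp (algebraMap L E)).toAlgebra
  have tLEM : IsScalarTower L E M := IsScalarTower.of_algebraMap_eq' rfl
  have hjLM : ∀ x : L, jM (algebraMap L M x) = jL x := by
    intro x
    rw [IsScalarTower.algebraMap_apply L E M, hjM, hjE]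
  -- stability
  have stabL : ∀ s : GQ, (∀ h ∈ QQ, (ρ s)⁻¹ * h * ρ s ∈ QQ) → ∀ x : L, ∃ y : L, jL y = s (jL x) :=
    fun s hs => stable_of_normal hfixL hs
  have stabE : ∀ s : GQ, (∀ h ∈ CI, (ρ s)⁻¹ * h * ρ s ∈ CI) → ∀ x : E, ∃ y : E, jE y = s (jE x) :=
    fun s hs => stable_of_normal hfixE hs
  let Z : Subgroup G3 := CI ⊓ CJ
  have hZ : ∀ g : G3, g ∈ Z ↔ (g = 1 ∨ g = -1) := fun g => by
    rw [← hpm]
    exact Subgroup.mem_inf
  have hfixZ : ∀ g : GQ, (∀ x : M, g (jM x) = jM x) ↔ ρ g ∈ Z := fun g => by rw [hfixM', hZ]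
  have conjZ : ∀ s : G3, ∀ h ∈ Z, s⁻¹ * h * s ∈ Z := by
    intro s h hh
    rw [hZ] at hh ⊢
    rcases hh with rfl | rfl
    · left; group
    · right
      rw [mul_neg, mul_one, neg_mul, inv_mul_cancel]
  have stabM : ∀ s : GQ, ∀ x : M, ∃ y : M, jM y = s (jM x) :=
    fun s => stable_of_normal hfixZ (conjZ (ρ s))
  -- the automorphisms
  have gK : ∀ x : K, G.st (jL (algebraMap K L x)) = jL (algebraMap K L x) := fun x => by
    rw [hjL]
    exact (hfixK G.st).mpr (by rw [G.hst]; exact det_gt) x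
  obtain ⟨θ, hθ⟩ := exists_restrict gK
    (stabL G.st (fun h hh => by rw [G.hst]; exact conj_QQ hh))
  have gjL : ∀ x : L, G.sj (jL x) = jL x := (hfixL G.sj).mpr (by rw [G.hsj]; exact gj_mem_QQ)
  have giL : ∀ x : L, G.si (jL x) = jL x := (hfixL G.si).mpr (by rw [G.hsi]; exact gi_mem_QQ)
  obtain ⟨c, hc⟩ := exists_restrict (F := L) (j := jE) (g := G.sj)
    (fun x => by rw [hjE]; exact gjL x)
    (stabE G.sj (fun h hh => by rw [G.hsj]; exact conj_CI hh))
  obtain ⟨τ, hτ⟩ := exists_restrict (F := L) (j := jM) (g := G.sj)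
    (fun x => by rw [hjLM]; exact gjL x) (stabM G.sj)
  obtain ⟨σ, hσ⟩ := exists_restrict (F := E) (j := jM) (g := G.si)
    (fun x => by
      rw [hjM]
      exact (hfixE G.si).mpr (by rw [G.hsi]; exact gi_mem) x) (stabM G.si)
  have hgalLM : IsGalois L M := isGalois_of_stable jM fun g _ => stabM g
  have htcL : IsTotallyComplex L := isTotallyComplex_of_algebra K L
  have htcE : IsTotallyComplex E := isTotallyComplex_of_algebra L E
  have htcM : IsTotallyComplex M := isTotallyComplex_of_algebra E M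
  have hθγ : θ γ = algebraMap K L ζ * γ := by
    apply jL.injective
    rw [hθ, hγ, G.st_x, map_mul, hjL, hγ]
  have hθo : orderOf θ = 3 := by
    have : Fact (Nat.Prime 3) := ⟨Nat.prime_three⟩
    have h1 : θ ^ 3 = 1 := by
      have h1 := pow_card_eq_one' (G := L ≃ₐ[K] L) (x := θ)
      rwa [IsGalois.card_aut_eq_finrank, hfrL] at h1
    refine orderOf_eq_prime h1 fun h => ?_
    rw [h, AlgEquiv.one_apply] at hθγ
    have hγ0 : γ ≠ 0 := by
      rintro rfl
      rw [map_zero] at hγ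
      exact G.x_ne hγ.symm
    have h2 : algebraMap K L ζ = 1 := mul_right_cancel₀ hγ0 (by rw [← hθγ, one_mul])
    exact hζ.ne_one (by norm_num) ((algebraMap K L).injective (by rw [h2, map_one]))
  have hcα : c α = -α := by
    apply jE.injective
    rw [hc, hα, G.sj_y, map_neg, hα, neg_one_mul]
  have hσβ : σ β = -β := by
    apply jM.injective
    rw [hσ, hβ, G.si_z, map_neg, hβ, neg_one_mul]
  have hτβ : τ β = β := by
    apply jM.injective
    rw [hτ, hβ]
    exact G.fix_z _ (by rw [G.hsj]; exact gj_mem)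
  have hτα : ∀ x : E, τ (algebraMap E M x) = algebraMap E M (c x) := by
    intro x
    apply jM.injective
    rw [hτ, hjM, hjM, hc]
  have hsqβ : β ^ 2 = algebraMap L M b := by
    apply jM.injective
    rw [map_pow, hβ, hjLM, hbx]
  have ha_ne : ∀ x : Lˣ, x ^ 2 ≠ a := fun x h => han x (by rw [← h]; rfl)
  have hb_ne : ∀ x : Lˣ, x ^ 2 ≠ b := fun x h => hbn x (by rw [← h]; rfl)
  have hab_ne : ∀ x : Lˣ, x ^ 2 ≠ a * b := by
    intro x h
    have h1 : (jL x) ^ 2 = (G.y * G.z) ^ 2 := by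
      rw [mul_pow, ← hax, ← hbx, ← map_pow, ← map_mul]
      exact congrArg (fun u : Lˣ => jL (u : L)) h
    have h2 : G.sj (G.y * G.z) = G.y * G.z := by
      rcases sq_eq_sq_iff_eq_or_eq_neg.mp h1 with h3 | h3
      · rw [← h3]
        exact gjL _
      · have h4 : G.y * G.z = jL (-(x : L)) := by rw [map_neg, h3, neg_neg]
        rw [h4]
        exact gjL _
    have h3 : G.sj (G.y * G.z) = -(G.y * G.z) := by
      rw [map_mul, G.sj_y, G.fix_z _ (by rw [G.hsj]; exact gj_mem), neg_one_mul, neg_mul]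
    rw [h2] at h3
    exact mul_ne_zero G.y_ne G.z_ne (self_eq_neg.mp h3)
  have hc3_ne : ∀ x : Kˣ, x ^ 3 ≠ c₃ := fun x h => hc3n x (by rw [← h]; rfl)
  have hquat : ∀ g : M ≃ₐ[L] M, g ≠ 1 → Psi.QuatCond g d := by
    intro g hg
    obtain ⟨h, hh⟩ := exists_extend jM (jM.comp (g : M →+* M))
    have hh' : ∀ x : M, h (jM x) = jM (g x) := hh
    have hL : ∀ x : L, h (jL x) = jL x := fun x => by
      rw [← hjLM, hh', AlgEquiv.commutes]
    have hQ : ρ h ∈ QQ := (hfixL h).mp hL
    have hne : ¬ (ρ h = 1 ∨ ρ h = -1) := by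
      intro h1
      apply hg
      have h2 := (hfixM' h).mpr h1
      apply AlgEquiv.ext
      intro x
      apply jM.injective
      rw [← hh', h2, AlgEquiv.one_apply]
    push Not at hne
    have hsq := sq_of_mem_QQ hQ hne.1 hne.2
    -- `h (h t) = - t`
    have hhh : ρ (h * h) = -1 := by rw [map_mul, hsq]
    have h2 : h (h G.t) = -G.t := by
      have h3 := G.act_t (Or.inr hhh)
      rcases h3.2 with h4 | h4
      · have h5 := h3.1.mp h4
        rw [hhh] at h5
        exact absurd h5 (by decide)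
      · exact h4
    -- `e = t * h t ∈ M`
    obtain ⟨e, he⟩ := mem_range_of_fixed jM (x := G.t * h G.t) (by
      intro u hu
      have hu' := (hfixM' u).mp hu
      have hconj : ρ (h⁻¹ * u * h) = ρ u := by
        rw [map_mul, map_mul, map_inv]
        rcases hu' with h3 | h3
        · rw [h3]; group
        · rw [h3, mul_neg, mul_one, neg_mul, inv_mul_cancel]
      have h3 : u (h G.t) = h ((h⁻¹ * u * h) G.t) := by
        have : u * h = h * (h⁻¹ * u * h) := by group
        exact congrArg (fun s : GQ => s G.t) this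
      have h4 := G.act_t hu'
      have h5 := G.act_t (g := h⁻¹ * u * h) (by rwa [hconj])
      rw [map_mul, h3]
      rcases h4.2 with h6 | h6
      · rw [h5.1.mpr (by rw [hconj]; exact h4.1.mp h6), h6]
      · have h7 : (h⁻¹ * u * h) G.t = -G.t := by
          rcases h5.2 with h8 | h8
          · exfalso
            have h9 := h4.1.mpr (by rw [← hconj]; exact h5.1.mp h8)
            rw [h9] at h6
            exact G.t_ne (self_eq_neg.mp h6)
          · exact h8
        rw [h7, h6, map_neg, neg_mul_neg])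
    have ht0 : h G.t ≠ 0 := (map_ne_zero h).mpr G.t_ne
    have he0 : e ≠ 0 := by
      rintro rfl
      rw [map_zero] at he
      exact mul_ne_zero G.t_ne ht0 he.symm
    refine ⟨Units.mk0 e he0, ?_, ?_⟩
    · apply Units.ext
      apply jM.injective
      rw [Units.val_mul, coe_galU, map_mul, Units.val_pow_eq_pow_val, Units.val_mk0, map_pow, he,
        ← hh', hdx, map_pow, mul_pow]
    · apply jM.injective
      rw [Units.val_mk0, ← hh', he, map_mul, h2, map_neg, he]
      ring
  exact ⟨{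
    K := K
    L := L
    E := E
    M := M
    i := jM
    finrank_K := hfrK
    ζ := ζ
    hζ := hζ
    γ := γ
    c₃ := c₃
    γ_pow := hγ3
    int_c₃ := hc3i
    c₃_ne := hc3_ne
    adjoin_γ := hγtop
    finrank_KL := hfrL
    θ := θ
    θ_γ := hθγ
    orderOf_θ := hθo
    a := a
    b := b
    α := α
    β := β
    d := d
    sq_α := hα2
    sq_β := hsqβ
    int_a := hai
    int_b := hbi
    int_d := hdi
    a_ne := ha_ne
    b_ne := hb_ne
    ab_ne := hab_ne
    finrank_LE := hfrE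
    finrank_EM := hfrM
    adjoin_α := hαtop
    adjoin_β := hβtop
    σ := σ
    τ := τ
    c := c
    c_α := hcα
    σ_β := hσβ
    τ_α := hτα
    τ_β := hτβ
    quat := hquat
    δ := G.t
    δ_sq := hdx.symm
    fix_K := fun g => by
      rw [← hfixK]
      simp only [hjLM, hjL]
    fix_L := fun g => by
      rw [← mem_QQ_iff, ← hfixL]
      simp only [hjLM]
    fix_M := hfixM'
    fix_δ := fun g hg => (G.act_t hg).1 }⟩

end Fermat.Agent.LT.Tower
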