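import Fermat.Agent.LT.Tower.Local
import Fermat.Agent.CFT.Global.KummerExt
import Mathlib.NumberTheory.NumberField.Cyclotomic.Basic
import Mathlib.NumberTheory.NumberField.InfinitePlace.TotallyRealComplex

/-!
# Galois theory of number fields inside `ℚ̄`
-/

set_option autoImplicit false

namespace Fermat.Agent.LT.Tower

open NumberField Fermat.Agent.Frob
open scoped Pointwise IntermediateField

local notation "Qbar" => AlgebraicClosure ℚ

section Descent

variable {F : Type*} [Field F] [CharZero F]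

/-- an element fixed by all automorphisms which fix `F` comes from `F` -/
theorem mem_range_of_fixed (ι : F →+* Qbar) {x : Qbar}
    (hx : ∀ g : GQ, (∀ y : F, g (ι y) = ι y) → g x = x) : ∃ y : F, ι y = x := by
  let i : F →ₐ[ℚ] Qbar := ι.toRatAlgHom
  have h1 : x ∈ IntermediateField.fixedField (i.fieldRange.fixingSubgroup) := by
    rw [IntermediateField.mem_fixedField_iff]
    intro g hg
    refine hx g fun y => ?_
    rw [IntermediateField.mem_fixingSubgroup_iff] at hg
    exact hg (ι y) ⟨y, rfl⟩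
  rw [InfiniteGalois.fixedField_fixingSubgroup] at h1
  obtain ⟨y, hy⟩ := h1
  exact ⟨y, hy⟩

end Descent

section Sub

variable {G : Type*} [Group G] [TopologicalSpace G] {ρ : GQ →* G} (hρ : Continuous ρ)

include hρ in
/-- elements outside `ρ⁻¹(H)` move some element fixed by `ρ⁻¹(H)` -/
theorem exists_moved (H : Subgroup G) (hH : IsClosed (H : Set G)) {σ : GQ} (hσ : ρ σ ∉ H) :
    ∃ y : Qbar, (∀ g : GQ, ρ g ∈ H → g y = y) ∧ σ y ≠ y := by
  let U : ClosedSubgroup GQ := ⟨H.comap ρ, hH.preimage hρ⟩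
  have h1 := InfiniteGalois.fixingSubgroup_fixedField U
  by_contra hcon
  push Not at hcon
  apply hσ
  have h2 : σ ∈ (IntermediateField.fixedField U.1).fixingSubgroup := by
    rw [IntermediateField.mem_fixingSubgroup_iff]
    intro y hy
    refine hcon y fun g hg => ?_
    rw [IntermediateField.mem_fixedField_iff] at hy
    exact hy g hg
  rw [h1] at h2
  exact h2

include hρ in
/-- **Kummer generators**: if `s` normalises `H`, `ρ s ∉ H`, `(ρ s) ^ p ∈ H`, there is `x ≠ 0` fixed
by `ρ⁻¹(H)` with `s x = ζ x`. -/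
theorem exists_resolvent (H : Subgroup G) (hH : IsClosed (H : Set G)) {p : ℕ} (hp : p.Prime)
    {s : GQ} (hs : ρ s ∉ H) (hsp : ρ s ^ p ∈ H) (hn : ∀ g ∈ H, (ρ s)⁻¹ * g * ρ s ∈ H) {ζ : Qbar}
    (hζ : IsPrimitiveRoot ζ p) (hsζ : s ζ = ζ) (hHζ : ∀ g : GQ, ρ g ∈ H → g ζ = ζ) :
    ∃ x : Qbar, x ≠ 0 ∧ s x = ζ * x ∧ ∀ g : GQ, ρ g ∈ H → g x = x := by
  have hζ0 : ζ ≠ 0 := hζ.ne_zero hp.ne_zero
  let E : IntermediateField ℚ Qbar := IntermediateField.fixedField (H.comap ρ)
  have hE : ∀ y : E, ∀ g : GQ, ρ g ∈ H → g (y : Qbar) = y := fun y g hg =>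
    (IntermediateField.mem_fixedField_iff _ _).mp y.2 g hg
  let f : Fin p → (E →* Qbar) := fun i => ((s ^ (i : ℕ) : GQ) : Qbar →* Qbar).comp
    (algebraMap E Qbar : E →* Qbar)
  have hf : ∀ i (y : E), f i y = (s ^ (i : ℕ)) (y : Qbar) := fun i y => rfl
  have hinj : Function.Injective f := by
    have key : ∀ k : ℕ, 0 < k → k < p → ∃ y : E, (s ^ k) (y : Qbar) ≠ y := by
      intro k hk hkp
      have hk' : ρ (s ^ k) ∉ H := by
        intro h
        rw [map_pow] at h
        apply hs
        have hcop : Nat.Coprime k p := (Nat.Coprime.symm ((Nat.Prime.coprime_iff_not_dvd hp).mpr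
          (Nat.not_dvd_of_pos_of_lt hk hkp)))
        have h1 : (1 : ℤ) = k * Nat.gcdA k p + p * Nat.gcdB k p := by
          have := Nat.gcd_eq_gcd_ab k p
          rw [hcop] at this
          exact_mod_cast this
        have h2 : ρ s = (ρ s ^ k) ^ (Nat.gcdA k p) * (ρ s ^ p) ^ (Nat.gcdB k p) := by
          rw [← zpow_natCast, ← zpow_natCast, ← zpow_mul, ← zpow_mul, ← zpow_add, ← h1, zpow_one]
        rw [h2]
        exact mul_mem (zpow_mem h _) (zpow_mem hsp _)
      obtain ⟨y, hy1, hy2⟩ := exists_moved hρ H hH hk'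
      refine ⟨⟨y, ?_⟩, hy2⟩
      rw [IntermediateField.mem_fixedField_iff]
      exact fun g hg => hy1 g hg
    have key2 : ∀ i j : Fin p, i < j → f i ≠ f j := by
      intro i j hij h
      obtain ⟨y, hy⟩ := key (j - i) (Nat.sub_pos_of_lt hij) (lt_of_le_of_lt (Nat.sub_le _ _) j.2)
      apply hy
      have h1 := DFunLike.congr_fun h y
      rw [hf, hf] at h1
      have h2 : (s ^ (j : ℕ) : GQ) = s ^ (i : ℕ) * s ^ ((j : ℕ) - i) := by
        rw [← pow_add, Nat.add_sub_cancel' hij.le]
      rw [h2] at h1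
      exact ((s ^ (i : ℕ)).injective h1).symm
    intro i j hij
    rcases lt_trichotomy i j with h | h | h
    · exact absurd hij (key2 i j h)
    · exact h
    · exact absurd hij.symm (key2 j i h)
  have hli := (linearIndependent_monoidHom E Qbar).comp f hinj
  rw [Fintype.linearIndependent_iff] at hli
  have hpos : 0 < p := hp.pos
  obtain ⟨y, hy⟩ : ∃ y : E, ∑ i : Fin p, (ζ⁻¹) ^ (i : ℕ) * (s ^ (i : ℕ)) (y : Qbar) ≠ 0 := by
    by_contra hcon
    push Not at hcon
    have := hli (fun i => (ζ⁻¹) ^ (i : ℕ)) (by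
      ext y
      rw [Finset.sum_apply]
      exact hcon y) ⟨0, hpos⟩
    simp at this
  have hsum : ∑ i : Fin p, (ζ⁻¹) ^ (i : ℕ) * (s ^ (i : ℕ)) (y : Qbar) =
      ∑ i ∈ Finset.range p, (ζ⁻¹) ^ i * (s ^ i) (y : Qbar) :=
    Fin.sum_univ_eq_sum_range (fun i => (ζ⁻¹) ^ i * (s ^ i) (y : Qbar)) p
  rw [hsum] at hy
  refine ⟨_, hy, ?_, ?_⟩
  · rw [map_sum, Finset.mul_sum]
    have h1 : ∀ i, s ((ζ⁻¹) ^ i * (s ^ i) (y : Qbar)) =
        ζ * ((ζ⁻¹) ^ (i + 1) * (s ^ (i + 1)) (y : Qbar)) := by
      intro i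
      rw [map_mul, map_pow, map_inv₀, hsζ, pow_succ' s, pow_succ]
      change ζ⁻¹ ^ i * s ((s ^ i) y) = ζ * (ζ⁻¹ ^ i * ζ⁻¹ * s ((s ^ i) y))
      field_simp
    rw [Finset.sum_congr rfl fun i _ => h1 i, ← Finset.mul_sum, ← Finset.mul_sum]
    congr 1
    have h2 := Finset.sum_range_succ' (fun i => (ζ⁻¹) ^ i * (s ^ i) (y : Qbar)) p
    rw [Finset.sum_range_succ] at h2
    have h3 : (ζ⁻¹) ^ p * (s ^ p) (y : Qbar) = (ζ⁻¹) ^ 0 * (s ^ 0) (y : Qbar) := by
      rw [inv_pow, hζ.pow_eq_one, inv_one, one_mul, hE y _ (by rw [map_pow]; exact hsp), pow_zero,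
        one_mul, pow_zero]
      rfl
    rw [h3] at h2
    exact (add_right_cancel h2).symm
  · intro g hg
    rw [map_sum]
    refine Finset.sum_congr rfl fun i _ => ?_
    rw [map_mul, map_pow, map_inv₀, hHζ g hg]
    congr 1
    have h1 : ∀ k : ℕ, ∀ g ∈ H, (ρ s ^ k)⁻¹ * g * ρ s ^ k ∈ H := by
      intro k
      induction k with
      | zero => intro g hg; simpa using hg
      | succ k ih =>
        intro g hg
        have := hn _ (ih g hg)
        have e : (ρ s ^ (k + 1))⁻¹ * g * ρ s ^ (k + 1) =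
            (ρ s)⁻¹ * ((ρ s ^ k)⁻¹ * g * ρ s ^ k) * ρ s := by
          rw [pow_succ]; group
        rw [e]
        exact this
    have h2 : ((s ^ i)⁻¹ * g * s ^ i) (y : Qbar) = y := by
      apply hE
      rw [map_mul, map_mul, map_inv, map_pow]
      exact h1 i _ hg
    have h3 : g * s ^ i = s ^ i * ((s ^ i)⁻¹ * g * s ^ i) := by group
    calc g ((s ^ i) y) = (g * s ^ i) y := rfl
      _ = (s ^ i * ((s ^ i)⁻¹ * g * s ^ i)) y := by rw [← h3]
      _ = (s ^ i) (((s ^ i)⁻¹ * g * s ^ i) y) := rfl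
      _ = (s ^ i) y := by rw [h2]

end Sub

/-- integral multiples -/
theorem exists_int_mul (x : Qbar) : ∃ m : ℤ, m ≠ 0 ∧ IsIntegral ℤ ((m : Qbar) * x) := by
  have hx : IsAlgebraic ℤ x := by
    have : IsAlgebraic ℚ x := Algebra.IsAlgebraic.isAlgebraic x
    exact (IsFractionRing.isAlgebraic_iff ℤ ℚ Qbar).mpr this
  obtain ⟨y, hy0, hy⟩ := hx.exists_integral_multiple
  refine ⟨y, hy0, ?_⟩
  rwa [Algebra.smul_def, eq_intCast] at hy

section Stage

/-- adjoining a `p`-th root, as an abstract field -/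
theorem exists_kummer_field {F : Type} [Field F] [NumberField F] (ι : F →+* Qbar) {p : ℕ}
    (hp : p.Prime) {s : Qbar} {a : F} (hs : s ^ p = ι a) :
    ∃ (E : Type) (_ : Field E) (_ : NumberField E) (_ : Algebra F E) (j : E →+* Qbar) (α : E),
      (∀ x : F, j (algebraMap F E x) = ι x) ∧ j α = s ∧ α ^ p = algebraMap F E a ∧ F⟮α⟯ = ⊤ := by
  let _ : Algebra F Qbar := ι.toAlgebra
  have hint : IsIntegral F s := by
    refine IsIntegral.of_pow hp.pos ?_
    rw [hs]
    exact isIntegral_algebraMap (R := F) (x := a)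
  have hfd : FiniteDimensional F F⟮s⟯ := IntermediateField.adjoin.finiteDimensional hint
  have hnf : NumberField F⟮s⟯ := NumberField.of_module_finite F F⟮s⟯
  refine ⟨F⟮s⟯, inferInstance, hnf, inferInstance, algebraMap F⟮s⟯ Qbar,
    IntermediateField.AdjoinSimple.gen F s, fun x => rfl, rfl, ?_, ?_⟩
  · apply Subtype.ext
    exact hs
  · rw [eq_top_iff]
    rintro x -
    have h1 : (x : Qbar) ∈ (F⟮IntermediateField.AdjoinSimple.gen F s⟯).map F⟮s⟯.val := by
      rw [IntermediateField.adjoin_map, Set.image_singleton]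
      exact x.2
    obtain ⟨y, hy, hxy⟩ := h1
    have : y = x := Subtype.ext hxy
    rw [← this]
    exact hy

/-- `g` fixes `F(α)` if it fixes `F` and `α` -/
theorem fix_of_fix_gen {F E : Type} [Field F] [Field E] [Algebra F E] {j : E →+* Qbar} {α : E}
    (hα : F⟮α⟯ = ⊤) (hint : IsIntegral F α) {g : GQ}
    (hF : ∀ x : F, g (j (algebraMap F E x)) = j (algebraMap F E x)) (hg : g (j α) = j α) (x : E) :
    g (j x) = j x := by
  have hx : x ∈ F⟮α⟯ := by rw [hα]; trivial
  rw [← IntermediateField.mem_toSubalgebra,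
    IntermediateField.adjoin_simple_toSubalgebra_of_isAlgebraic hint.isAlgebraic,
    Algebra.adjoin_singleton_eq_range_aeval] at hx
  obtain ⟨P, rfl⟩ := hx
  induction P using Polynomial.induction_on' with
  | add p q hp hq =>
    rw [map_add, map_add, map_add, hp, hq]
  | monomial n a =>
    change g (j (Polynomial.aeval α (Polynomial.monomial n a))) =
      j (Polynomial.aeval α (Polynomial.monomial n a))
    rw [Polynomial.aeval_monomial, map_mul, map_mul, hF, map_pow, map_pow, hg]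

/-- an automorphism of `ℚ̄` which stabilises `E` and fixes `F` gives an automorphism of `E / F` -/
theorem exists_restrict {F E : Type} [Field F] [Field E] [NumberField E] [CharZero F] [Algebra F E]
    {j : E →+* Qbar} {g : GQ}
    (hF : ∀ x : F, g (j (algebraMap F E x)) = j (algebraMap F E x))
    (hE : ∀ x : E, ∃ y : E, j y = g (j x)) : ∃ f : E ≃ₐ[F] E, ∀ x, j (f x) = g (j x) := by
  choose f hf using hE
  let f' : E →ₐ[F] E :=
    { toFun := f
      map_one' := j.injective (by rw [hf, map_one, map_one])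
      map_mul' := fun x y => j.injective (by rw [hf, map_mul, map_mul, map_mul, hf, hf])
      map_zero' := j.injective (by rw [hf, map_zero, map_zero])
      map_add' := fun x y => j.injective (by rw [hf, map_add, map_add, map_add, hf, hf])
      commutes' := fun x => j.injective (by rw [hf, hF]) }
  have hq : IsScalarTower ℚ F E := IsScalarTower.of_algebraMap_eq' (RingHom.ext_rat _ _)
  have : Algebra.IsAlgebraic F E := Algebra.IsAlgebraic.tower_top (K := ℚ) F
  exact ⟨AlgEquiv.ofBijective f' (Algebra.IsAlgebraic.algHom_bijective f'), hf⟩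

/-- if `E` is stable under all automorphisms of `ℚ̄` which fix `F`, then `E / F` is Galois -/
theorem isGalois_of_stable {F E : Type} [Field F] [Field E] [NumberField E] [CharZero F]
    [Algebra F E] (j : E →+* Qbar)
    (h : ∀ g : GQ, (∀ x : F, g (j (algebraMap F E x)) = j (algebraMap F E x)) →
      ∀ x : E, ∃ y : E, j y = g (j x)) : IsGalois F E := by
  have hq : IsScalarTower ℚ F E := IsScalarTower.of_algebraMap_eq' (RingHom.ext_rat _ _)
  have : FiniteDimensional F E := Module.Finite.of_restrictScalars_finite ℚ F E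
  apply IsGalois.of_fixedField_eq_bot
  rw [eq_bot_iff]
  intro x hx
  rw [IntermediateField.mem_fixedField_iff] at hx
  obtain ⟨y, hy⟩ := mem_range_of_fixed (j.comp (algebraMap F E)) (x := j x) (fun g hg => by
    obtain ⟨f, hf⟩ := exists_restrict (F := F) (j := j) (g := g) hg (h g hg)
    rw [← hf, hx f trivial])
  rw [IntermediateField.mem_bot]
  exact ⟨y, j.injective hy⟩

end Stage

end Fermat.Agent.LT.Tower
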