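import Mathlib

/-!
# The subgroups `SL₂(𝔽₃) ⊃ Q₈ ⊃ C₄ ⊃ {±1}` of `GL₂(𝔽₃)`
-/

set_option autoImplicit false

namespace Fermat.Agent.LT.Tower

local notation "G3" => Matrix.GeneralLinearGroup (Fin 2) (ZMod 3)

namespace Grp

/-- the element `i` -/
def gi : G3 := ⟨!![0, -1; 1, 0], !![0, 1; -1, 0], by decide, by decide⟩

/-- the element `j` -/
def gj : G3 := ⟨!![1, 1; 1, -1], !![-1, -1; -1, 1], by decide, by decide⟩

/-- an element of order three -/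
def gt : G3 := ⟨!![1, 1; 0, 1], !![1, -1; 0, 1], by decide, by decide⟩

lemma ext4 {g h : G3} (h00 : g.1 0 0 = h.1 0 0) (h01 : g.1 0 1 = h.1 0 1)
    (h10 : g.1 1 0 = h.1 1 0) (h11 : g.1 1 1 = h.1 1 1) : g = h := by
  apply Units.ext
  ext a b
  fin_cases a <;> fin_cases b
  · exact h00
  · exact h01
  · exact h10
  · exact h11

lemma mul_00 (g h : G3) : (g * h).1 0 0 = g.1 0 0 * h.1 0 0 + g.1 0 1 * h.1 1 0 := by
  rw [Units.val_mul, Matrix.mul_apply, Fin.sum_univ_two]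

lemma mul_01 (g h : G3) : (g * h).1 0 1 = g.1 0 0 * h.1 0 1 + g.1 0 1 * h.1 1 1 := by
  rw [Units.val_mul, Matrix.mul_apply, Fin.sum_univ_two]

lemma mul_10 (g h : G3) : (g * h).1 1 0 = g.1 1 0 * h.1 0 0 + g.1 1 1 * h.1 1 0 := by
  rw [Units.val_mul, Matrix.mul_apply, Fin.sum_univ_two]

lemma mul_11 (g h : G3) : (g * h).1 1 1 = g.1 1 0 * h.1 0 1 + g.1 1 1 * h.1 1 1 := by
  rw [Units.val_mul, Matrix.mul_apply, Fin.sum_univ_two]

lemma det_eq (g : G3) : g.1.det = g.1 0 0 * g.1 1 1 - g.1 0 1 * g.1 1 0 := Matrix.det_fin_two _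

/-- a subgroup from a condition on the entries -/
def mkSub (P : ZMod 3 → ZMod 3 → ZMod 3 → ZMod 3 → Bool) (h1 : P 1 0 0 1 = true)
    (hmul : ∀ a b c d, P a b c d = true → ∀ a' b' c' d', P a' b' c' d' = true →
      P (a * a' + b * c') (a * b' + b * d') (c * a' + d * c') (c * b' + d * d') = true) :
    Subgroup G3 where
  carrier := {g | P (g.1 0 0) (g.1 0 1) (g.1 1 0) (g.1 1 1) = true}
  one_mem' := h1
  mul_mem' {g h} hg hh := by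
    change P _ _ _ _ = true
    rw [mul_00, mul_01, mul_10, mul_11]
    exact hmul _ _ _ _ hg _ _ _ _ hh
  inv_mem' {g} hg := by
    have key : ∀ n : ℕ, P ((g ^ n).1 0 0) ((g ^ n).1 0 1) ((g ^ n).1 1 0) ((g ^ n).1 1 1) =
        true := by
      intro n
      induction n with
      | zero => exact h1
      | succ n ih =>
        rw [pow_succ, mul_00, mul_01, mul_10, mul_11]
        exact hmul _ _ _ _ ih _ _ _ _ hg
    have h2 : g⁻¹ = g ^ (orderOf g - 1) := by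
      rw [inv_eq_iff_mul_eq_one, ← pow_succ', Nat.sub_add_cancel (orderOf_pos g),
        pow_orderOf_eq_one]
    change P _ _ _ _ = true
    rw [h2]
    exact key _

lemma mem_mkSub {P : ZMod 3 → ZMod 3 → ZMod 3 → ZMod 3 → Bool} {h1 hmul} {g : G3} :
    g ∈ mkSub P h1 hmul ↔ P (g.1 0 0) (g.1 0 1) (g.1 1 0) (g.1 1 1) = true := Iff.rfl

/-- the condition for `Q₈` on entries -/
def inQ (a b c d : ZMod 3) : Bool :=
  (a * d - b * c = 1) && ((a + d = 0) || (b = 0 && c = 0))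

/-- the condition for `⟨i⟩` -/
def inI (a b c d : ZMod 3) : Bool := (a * d - b * c = 1) && (a = d && b + c = 0)

/-- the condition for `⟨j⟩` -/
def inJ (a b c d : ZMod 3) : Bool := (a * d - b * c = 1) && (b = c && a - b = d + b)

/-- `Q₈` -/
def QQ : Subgroup G3 := mkSub inQ (by decide) (by decide)

/-- `⟨i⟩` -/
def CI : Subgroup G3 := mkSub inI (by decide) (by decide)

/-- `⟨j⟩` -/
def CJ : Subgroup G3 := mkSub inJ (by decide) (by decide)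

lemma mem_QQ {g : G3} : g ∈ QQ ↔ inQ (g.1 0 0) (g.1 0 1) (g.1 1 0) (g.1 1 1) = true := Iff.rfl
lemma mem_CI {g : G3} : g ∈ CI ↔ inI (g.1 0 0) (g.1 0 1) (g.1 1 0) (g.1 1 1) = true := Iff.rfl
lemma mem_CJ {g : G3} : g ∈ CJ ↔ inJ (g.1 0 0) (g.1 0 1) (g.1 1 0) (g.1 1 1) = true := Iff.rfl

lemma gi_inv : (gi⁻¹).1 = !![0, 1; -1, 0] := rfl
lemma gj_inv : (gj⁻¹).1 = !![-1, -1; -1, 1] := rfl
lemma gt_inv : (gt⁻¹).1 = !![1, -1; 0, 1] := rfl

lemma gi_not_mem : gi ∉ CJ := by rw [mem_CJ]; decide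
lemma gj_not_mem : gj ∉ CI := by rw [mem_CI]; decide
lemma gt_not_mem : gt ∉ QQ := by rw [mem_QQ]; decide
lemma gi_mem : gi ∈ CI := by rw [mem_CI]; decide
lemma gj_mem : gj ∈ CJ := by rw [mem_CJ]; decide
lemma gi_mem_QQ : gi ∈ QQ := by rw [mem_QQ]; decide
lemma gj_mem_QQ : gj ∈ QQ := by rw [mem_QQ]; decide
lemma gi_sq : gi ^ 2 = -1 := by decide
lemma gj_sq : gj ^ 2 = -1 := by decide
lemma gt_cube : gt ^ 3 = 1 := by decide
lemma det_gt : gt.1.det = 1 := by decide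

lemma det_of_mem_QQ {g : G3} (h : g ∈ QQ) : g.1.det = 1 := by
  rw [mem_QQ] at h
  rw [det_eq]
  generalize g.1 0 0 = a, g.1 0 1 = b, g.1 1 0 = c, g.1 1 1 = d at h
  revert a b c d
  decide

lemma CI_le : CI ≤ QQ := by
  intro g h
  rw [mem_CI] at h
  rw [mem_QQ]
  generalize g.1 0 0 = a, g.1 0 1 = b, g.1 1 0 = c, g.1 1 1 = d at h
  revert a b c d
  decide

lemma CJ_le : CJ ≤ QQ := by
  intro g h
  rw [mem_CJ] at h
  rw [mem_QQ]
  generalize g.1 0 0 = a, g.1 0 1 = b, g.1 1 0 = c, g.1 1 1 = d at h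
  revert a b c d
  decide

lemma neg_one_mem_CI : (-1 : G3) ∈ CI := by rw [mem_CI]; decide
lemma neg_one_mem_CJ : (-1 : G3) ∈ CJ := by rw [mem_CJ]; decide

lemma eq_of_mem_CI_CJ {g : G3} (h : g ∈ CI) (h' : g ∈ CJ) : g = 1 ∨ g = -1 := by
  rw [mem_CI] at h
  rw [mem_CJ] at h'
  have key : ∀ a b c d : ZMod 3, inI a b c d = true → inJ a b c d = true →
      (a = 1 ∧ b = 0 ∧ c = 0 ∧ d = 1) ∨ (a = -1 ∧ b = 0 ∧ c = 0 ∧ d = -1) := by decide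
  rcases key _ _ _ _ h h' with ⟨h1, h2, h3, h4⟩ | ⟨h1, h2, h3, h4⟩
  · left
    exact ext4 (by rw [h1]; rfl) (by rw [h2]; rfl) (by rw [h3]; rfl) (by rw [h4]; rfl)
  · right
    exact ext4 (by rw [h1]; rfl) (by rw [h2]; rfl) (by rw [h3]; rfl) (by rw [h4]; rfl)

lemma conj_CI {g : G3} (h : g ∈ CI) : gj⁻¹ * g * gj ∈ CI := by
  rw [mem_CI] at h ⊢
  simp only [mul_00, mul_01, mul_10, mul_11, gj_inv]
  generalize g.1 0 0 = a, g.1 0 1 = b, g.1 1 0 = c, g.1 1 1 = d at h ⊢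
  revert a b c d
  decide

lemma conj_CJ {g : G3} (h : g ∈ CJ) : gi⁻¹ * g * gi ∈ CJ := by
  rw [mem_CJ] at h ⊢
  simp only [mul_00, mul_01, mul_10, mul_11, gi_inv]
  generalize g.1 0 0 = a, g.1 0 1 = b, g.1 1 0 = c, g.1 1 1 = d at h ⊢
  revert a b c d
  decide

lemma conj_QQ {g : G3} (h : g ∈ QQ) : gt⁻¹ * g * gt ∈ QQ := by
  rw [mem_QQ] at h ⊢
  simp only [mul_00, mul_01, mul_10, mul_11, gt_inv]
  generalize g.1 0 0 = a, g.1 0 1 = b, g.1 1 0 = c, g.1 1 1 = d at h ⊢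
  revert a b c d
  decide

lemma cover_CI {g : G3} (h : g ∈ QQ) : g ∈ CI ∨ gj⁻¹ * g ∈ CI := by
  rw [mem_QQ] at h
  rw [mem_CI, mem_CI]
  simp only [mul_00, mul_01, mul_10, mul_11, gj_inv]
  generalize g.1 0 0 = a, g.1 0 1 = b, g.1 1 0 = c, g.1 1 1 = d at h ⊢
  revert a b c d
  decide

lemma cover_CJ {g : G3} (h : g ∈ QQ) : g ∈ CJ ∨ gi⁻¹ * g ∈ CJ := by
  rw [mem_QQ] at h
  rw [mem_CJ, mem_CJ]
  simp only [mul_00, mul_01, mul_10, mul_11, gi_inv]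
  generalize g.1 0 0 = a, g.1 0 1 = b, g.1 1 0 = c, g.1 1 1 = d at h ⊢
  revert a b c d
  decide

lemma cover_QQ {g : G3} (h : g.1.det = 1) :
    g ∈ QQ ∨ gt⁻¹ * g ∈ QQ ∨ gt⁻¹ * (gt⁻¹ * g) ∈ QQ := by
  rw [det_eq] at h
  rw [mem_QQ, mem_QQ, mem_QQ]
  simp only [mul_00, mul_01, mul_10, mul_11, gt_inv]
  generalize g.1 0 0 = a, g.1 0 1 = b, g.1 1 0 = c, g.1 1 1 = d at h ⊢
  revert a b c d
  decide

lemma sq_of_mem_QQ {g : G3} (h : g ∈ QQ) (h1 : g ≠ 1) (h2 : g ≠ -1) : g * g = -1 := by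
  rw [mem_QQ] at h
  have key : ∀ a b c d : ZMod 3, inQ a b c d = true →
      (a = 1 ∧ b = 0 ∧ c = 0 ∧ d = 1) ∨ (a = -1 ∧ b = 0 ∧ c = 0 ∧ d = -1) ∨
      (a * a + b * c = -1 ∧ a * b + b * d = 0 ∧ c * a + d * c = 0 ∧ c * b + d * d = -1) := by
    decide
  rcases key _ _ _ _ h with ⟨h3, h4, h5, h6⟩ | ⟨h3, h4, h5, h6⟩ | ⟨h3, h4, h5, h6⟩
  · exact absurd (ext4 (by rw [h3]; rfl) (by rw [h4]; rfl) (by rw [h5]; rfl) (by rw [h6]; rfl)) h1
  · exact absurd (ext4 (by rw [h3]; rfl) (by rw [h4]; rfl) (by rw [h5]; rfl) (by rw [h6]; rfl)) h2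
  · exact ext4 (by rw [mul_00, h3]; rfl) (by rw [mul_01, h4]; rfl) (by rw [mul_10, h5]; rfl)
      (by rw [mul_11, h6]; rfl)

lemma mem_QQ_iff {g : G3} : g ∈ QQ ↔ g.1.det = 1 ∧ g ^ 4 = 1 := by
  rw [mem_QQ, det_eq]
  have key : ∀ a b c d : ZMod 3, inQ a b c d = true ↔
      (a * d - b * c = 1 ∧ (!![a, b; c, d] : Matrix (Fin 2) (Fin 2) (ZMod 3)) ^ 4 = 1) := by
    decide
  rw [key]
  refine and_congr_right fun _ => ?_
  rw [← Matrix.eta_fin_two g.1, ← Units.val_pow_eq_pow_val, ← Units.val_one]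
  exact ⟨fun h => Units.ext h, fun h => congrArg Units.val h⟩

end Grp

end Fermat.Agent.LT.Tower
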