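import Fermat.Agent.LT.Tower.Fields
import Fermat.Agent.LT.Tower.Galois
import Fermat.Agent.LT.Tower.Group
import Fermat.Agent.ECFrob.DetCyc
import Fermat.Prelude.Def_GaloisRep_ModThreeCyclotomic

/-!
# Existence of the tower of fields attached to `ρ`
-/

set_option autoImplicit false

namespace Fermat.Agent.LT.Tower

open NumberField Fermat.Agent.Frob Grp
open scoped Pointwise IntermediateField

local notation "Qbar" => AlgebraicClosure ℚ
local notation "G3" => Matrix.GeneralLinearGroup (Fin 2) (ZMod 3)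

section Aux

variable {ρ : GQ →* G3}

/-- quadratic Kummer generators -/
lemma quad_step {x : Qbar} {s : GQ} {H : Subgroup G3} (hx0 : x ≠ 0) (hs : s x = -1 * x)
    (hfix : ∀ g : GQ, ρ g ∈ H → g x = x) {g : GQ}
    (hcov : ρ g ∈ H ∨ (ρ s)⁻¹ * ρ g ∈ H) : (g x = x ↔ ρ g ∈ H) ∧ (g x = x ∨ g x = -x) := by
  rcases hcov with h | h
  · exact ⟨⟨fun _ => h, fun _ => hfix g h⟩, Or.inl (hfix g h)⟩
  · have h1 : (s⁻¹ * g) x = x := hfix _ (by rw [map_mul, map_inv]; exact h)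
    have h2 : g x = -x := by
      have h3 : g = s * (s⁻¹ * g) := by group
      rw [h3]
      change s ((s⁻¹ * g) x) = -x
      rw [h1, hs, neg_one_mul]
    have h3 : g x ≠ x := by
      rw [h2]
      intro h
      exact hx0 (self_eq_neg.mp h.symm)
    refine ⟨⟨fun h4 => absurd h4 h3, fun h4 => absurd (hfix g h4) h3⟩, Or.inr h2⟩

/-- a field whose fixing group is `ρ⁻¹(H)` is stable under the normaliser -/
lemma stable_of_normal {F : Type} [Field F] [CharZero F] {j : F →+* Qbar} {H : Subgroup G3}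
    (hfix : ∀ g : GQ, (∀ x : F, g (j x) = j x) ↔ ρ g ∈ H) {s : GQ}
    (hn : ∀ h ∈ H, (ρ s)⁻¹ * h * ρ s ∈ H) (x : F) : ∃ y : F, j y = s (j x) := by
  apply mem_range_of_fixed
  intro g hg
  have h1 : ρ (s⁻¹ * g * s) ∈ H := by
    rw [map_mul, map_mul, map_inv]
    exact hn _ ((hfix g).mp hg)
  have h2 := (hfix _).mpr h1 x
  have h3 : g * s = s * (s⁻¹ * g * s) := by group
  calc g (s (j x)) = (g * s) (j x) := rfl
    _ = (s * (s⁻¹ * g * s)) (j x) := by rw [← h3]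
    _ = s ((s⁻¹ * g * s) (j x)) := rfl
    _ = s (j x) := by rw [h2]

variable (hρ : Continuous ρ)

include hρ in
lemma exists_gen (H : Subgroup G3) {p : ℕ} (hp : p.Prime)
    {s : GQ} (hs : ρ s ∉ H) (hsp : ρ s ^ p ∈ H) (hn : ∀ g ∈ H, (ρ s)⁻¹ * g * ρ s ∈ H) {ζ : Qbar}
    (hζ : IsPrimitiveRoot ζ p) (hsζ : s ζ = ζ) (hHζ : ∀ g : GQ, ρ g ∈ H → g ζ = ζ) :
    ∃ x : Qbar, x ≠ 0 ∧ IsIntegral ℤ x ∧ s x = ζ * x ∧ ∀ g : GQ, ρ g ∈ H → g x = x := by
  obtain ⟨x, hx0, hx1, hx2⟩ := exists_resolvent hρ H (isClosed_discrete _) hp hs hsp hn hζ hsζ hHζ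
  obtain ⟨m, hm0, hm⟩ := exists_int_mul x
  have hm0' : (m : Qbar) ≠ 0 := by exact_mod_cast hm0
  refine ⟨(m : Qbar) * x, mul_ne_zero hm0' hx0, hm, ?_, fun g hg => ?_⟩
  · rw [map_mul, hx1, map_intCast]; ring
  · rw [map_mul, hx2 g hg, map_intCast]

lemma isIntegral_of_map {F : Type} [Field F] (j : F →+* Qbar) {x : F} (h : IsIntegral ℤ (j x)) :
    IsIntegral ℤ x :=
  (isIntegral_algHom_iff (R := ℤ) j.toIntAlgHom j.injective).mp h

lemma fix_omega_iff (hdet : ∀ σ : GQ, Matrix.GeneralLinearGroup.det (ρ σ) =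
      WeierstrassCurve.modThreeCyclotomicChar σ) {ω : Qbar} (hω : IsPrimitiveRoot ω 3) (g : GQ) :
    g ω = ω ↔ (ρ g).1.det = 1 := by
  have h1 : (ρ g).1.det = Fermat.Agent.ECFrob.cycMod 3 g := congrArg Units.val (hdet g)
  have h2 := Fermat.Agent.ECFrob.cycMod_spec 3 g hω.pow_eq_one
  rw [h1, h2]
  constructor
  · intro h
    have h3 : ω ^ (Fermat.Agent.ECFrob.cycMod 3 g).val = ω ^ 1 := by rw [h, pow_one]
    have h4 := hω.pow_inj (ZMod.val_lt _) (by norm_num) h3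
    have h5 := ZMod.natCast_zmod_val (Fermat.Agent.ECFrob.cycMod 3 g)
    rw [h4, Nat.cast_one] at h5
    exact h5.symm
  · intro h
    rw [h]
    exact pow_one ω

end Aux

/-! ### The stages -/

section Stages

variable {ρ : GQ →* G3}

/-- a field containing a primitive cube root of unity is totally complex -/
lemma isTotallyComplex_of_cubeRoot {K : Type} [Field K] {ζ : K} (hζ : IsPrimitiveRoot ζ 3) :
    IsTotallyComplex K := by
  refine ⟨fun v => ?_⟩
  rw [← InfinitePlace.not_isReal_iff_isComplex]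
  intro hv
  have h1 := InfinitePlace.isReal_iff.mp hv
  have h2 : IsPrimitiveRoot (h1.embedding ζ) 3 := hζ.map_of_injective h1.embedding.injective
  have h3 : (h1.embedding ζ) ^ 3 = 1 := h2.pow_eq_one
  have h4 : h1.embedding ζ = 1 := by
    have : (h1.embedding ζ) ^ 3 = 1 ^ 3 := by rw [h3, one_pow]
    exact (Odd.strictMono_pow (by decide : Odd 3)).injective this
  exact h2.ne_one (by norm_num) h4

theorem stageK (hdet : ∀ σ : GQ, Matrix.GeneralLinearGroup.det (ρ σ) =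
      WeierstrassCurve.modThreeCyclotomicChar σ) :
    ∃ (K : Type) (_ : Field K) (_ : NumberField K) (j : K →+* Qbar) (ζ : K),
      IsPrimitiveRoot ζ 3 ∧ Module.finrank ℚ K = 2 ∧ IsCyclotomicExtension {3} ℚ K ∧
      IsTotallyComplex K ∧ ∀ g : GQ, (∀ x : K, g (j x) = j x) ↔ (ρ g).1.det = 1 := by
  have hne : NeZero ((3 : ℕ) : ℚ) := ⟨by norm_num⟩
  have hcyc : IsCyclotomicExtension {3} ℚ (CyclotomicField 3 ℚ) :=
    CyclotomicField.isCyclotomicExtension 3 ℚ
  let K := CyclotomicField 3 ℚ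
  let j : K →+* Qbar := (IsAlgClosed.lift : K →ₐ[ℚ] Qbar)
  let ζ : K := IsCyclotomicExtension.zeta 3 ℚ K
  have hζ : IsPrimitiveRoot ζ 3 := IsCyclotomicExtension.zeta_spec 3 ℚ K
  refine ⟨K, inferInstance, inferInstance, j, ζ, hζ, ?_, hcyc, isTotallyComplex_of_cubeRoot hζ,
    fun g => ?_⟩
  · rw [IsCyclotomicExtension.Rat.finrank 3 K]
    rfl
  · have hω : IsPrimitiveRoot (j ζ) 3 := hζ.map_of_injective j.injective
    rw [← fix_omega_iff hdet hω g]
    refine ⟨fun h => h ζ, fun h => ?_⟩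
    refine fix_of_fix_gen (F := ℚ) (E := K) (j := j) (α := ζ)
      (IntermediateField.adjoin_eq_top_of_algebra ℚ {ζ}
        (IsCyclotomicExtension.adjoin_primitive_root_eq_top hζ))
      (hζ.isIntegral (by norm_num)).tower_top (fun x => ?_) h
    have : j (algebraMap ℚ K x) = algebraMap ℚ Qbar x := by
      rw [eq_ratCast, eq_ratCast, map_ratCast]
    rw [this, AlgEquiv.commutes]

/-- one Kummer stage: `F` with fixing group `ρ⁻¹(H)`, a generator `x` with
`x ^ p ∈ F`, and the fixing group of `F(x)` is `ρ⁻¹(H')` -/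
theorem stage {F : Type} [Field F] [NumberField F] {ι : F →+* Qbar} {P Q : G3 → Prop}
    (hF : ∀ g : GQ, (∀ x : F, g (ι x) = ι x) ↔ P (ρ g)) {p : ℕ} (hp : p.Prime) {ζ : F}
    (hζ : IsPrimitiveRoot ζ p) {x : Qbar} (hx : IsIntegral ℤ x) (hx0 : x ≠ 0)
    (h1 : ∀ g : GQ, P (ρ g) → (g x) ^ p = x ^ p)
    (h2 : ∀ g : GQ, Q (ρ g) ↔ P (ρ g) ∧ g x = x) (h3 : ∃ g : GQ, P (ρ g) ∧ g x ≠ x) :
    ∃ (a : Fˣ) (E : Type) (_ : Field E) (_ : NumberField E) (_ : Algebra F E) (j : E →+* Qbar)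
      (α : E), (∀ x : F, j (algebraMap F E x) = ι x) ∧ j α = x ∧ α ^ p = algebraMap F E a ∧
        F⟮α⟯ = ⊤ ∧ IsIntegral ℤ (a : F) ∧ (∀ b : F, b ^ p ≠ a) ∧ Module.finrank F E = p ∧
        IsGalois F E ∧ (∀ g : GQ, (∀ y : E, g (j y) = j y) ↔ Q (ρ g)) ∧ ι a = x ^ p := by
  obtain ⟨a, ha⟩ := mem_range_of_fixed ι (x := x ^ p) (fun g hg => by
    rw [map_pow]
    exact h1 g ((hF g).mp hg))
  have ha0 : a ≠ 0 := by
    rintro rfl
    rw [map_zero] at ha
    exact pow_ne_zero p hx0 ha.symm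
  have hnp : ∀ b : F, b ^ p ≠ a := by
    intro b hb
    obtain ⟨g, hg1, hg2⟩ := h3
    have hfix := (hF g).mpr hg1
    apply hg2
    have hb0 : b ≠ 0 := by
      rintro rfl
      rw [zero_pow hp.ne_zero] at hb
      exact ha0 hb.symm
    have hib : ι b ≠ 0 := (map_ne_zero ι).mpr hb0
    have h4 : (x / ι b) ^ p = 1 := by
      rw [div_pow, ← map_pow, hb, ha, div_self (pow_ne_zero p hx0)]
    have : NeZero p := ⟨hp.ne_zero⟩
    obtain ⟨k, -, hk⟩ := (hζ.map_of_injective ι.injective).eq_pow_of_pow_eq_one h4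
    have h5 : x = ι (ζ ^ k * b) := by
      rw [map_mul, map_pow, hk, div_mul_cancel₀ _ hib]
    rw [h5]
    exact hfix _
  obtain ⟨E, iE, nE, aFE, j, α, hj, hα, hαp, htop⟩ := exists_kummer_field ι hp ha.symm
  have hfr := Fermat.Agent.CFT.KummerExt.finrank_eq hp hnp hαp htop
  have hgal := (Fermat.Agent.CFT.KummerExt.exists_gen hp hζ hnp hαp htop).1
  refine ⟨Units.mk0 a ha0, E, iE, nE, aFE, j, α, hj, hα, hαp, htop, ?_, hnp, hfr, hgal, ?_, ha⟩
  · apply isIntegral_of_map ι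
    change IsIntegral ℤ (ι a)
    rw [ha]
    exact hx.pow p
  · intro g
    rw [h2, ← hF]
    constructor
    · intro h
      refine ⟨fun y => ?_, ?_⟩
      · rw [← hj]
        exact h _
      · rw [← hα]
        exact h _
    · rintro ⟨h4, h5⟩
      refine fix_of_fix_gen htop ?_ (fun y => ?_) ?_
      · exact IsIntegral.of_pow hp.pos (by rw [hαp]; exact isIntegral_algebraMap)
      · rw [hj]
        exact h4 y
      · rw [hα]
        exact h5

end Stages

end Fermat.Agent.LT.Tower
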