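import Fermat.Agent.LT.Tower.Frob
import Fermat.Agent.CFT.Global.Approx

/-!
# Kummer theory and Frobenius elements

`fix_iff_mem_locPow`: if `α ^ ℓ = a` in `ℚ̄`, `a` a unit at `v ∤ ℓ`, `ζ_ℓ ∈ F`, then the Frobenius at
`v` fixes `α` if and only if `a` is an `ℓ`-th power in `F_v`.
-/

set_option autoImplicit false

namespace Fermat.Agent.LT.Tower.Fr

open NumberField IsDedekindDomain Fermat.Agent.Frob Fermat.Agent.FrobDensity WithZero
open Fermat.Agent.CFT.SUnits (ord ord_mul ord_inv ord_pow ord_div ord_eq_zero_iff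
  valuation_eq_exp_neg_ord)
open Fermat.Agent.CFT.Global (locPow mem_locPow cong mem_cong locPow_eq_of_not_mem pow_mem_locPow
  cong_zero_le_locPow)
open scoped Pointwise

variable {F : Type*} [Field F] [NumberField F] {i : F →+* AlgebraicClosure ℚ}
  {A : ValuationSubring (AlgebraicClosure ℚ)} {v : HeightOneSpectrum (𝓞 F)}

lemma ord_eq_zero_of_notMem {x : 𝓞 F} {u : Fˣ} (hu : (u : F) = x) (hx : x ∉ v.asIdeal) :
    ord v u = 0 := by
  rw [ord_eq_zero_iff, hu]
  exact (v.valuation_eq_one_iff_notMem (K := F)).mpr hx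

/-- a unit at `v` is a quotient of integers prime to `v` -/
lemma exists_frac_of_ord_eq_zero {u : Fˣ} (hu : ord v u = 0) :
    ∃ n d : 𝓞 F, n ∉ v.asIdeal ∧ d ∉ v.asIdeal ∧ (u : F) * d = n := by
  rw [ord_eq_zero_iff] at hu
  obtain ⟨n, ⟨d, hd⟩, h⟩ := v.exists_primeCompl_mul_eq_of_integer (K := F) (u : F) hu.le
  refine ⟨n, d, ?_, hd, h⟩
  rw [← v.valuation_eq_one_iff_notMem (K := F)]
  have h1 : v.valuation F (algebraMap (𝓞 F) F d) = 1 :=
    (v.valuation_eq_one_iff_notMem (K := F)).mpr hd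
  rw [← h, map_mul, hu, h1, one_mul]

lemma Over.redτ_ne_zero (h : Over i A v) {x : 𝓞 F} (hx : x ∉ v.asIdeal) : redτ A i x ≠ 0 :=
  fun h0 => hx ((h.mem_iff x).mpr h0)

/-- The roots of unity of order prime to the residue characteristic are distinct. -/
lemma Over.isPrimitiveRoot_redτ {ℓ : ℕ} (hℓ : ℓ.Prime) {ζ : 𝓞 F} (hζ : IsPrimitiveRoot ζ ℓ)
    (hv : (ℓ : 𝓞 F) ∉ v.asIdeal) (h : Over i A v) : IsPrimitiveRoot (redτ A i ζ) ℓ := by
  have : Fact ℓ.Prime := ⟨hℓ⟩
  have h1 : redτ A i ζ ^ ℓ = 1 := by rw [← map_pow, hζ.pow_eq_one, map_one]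
  have h2 : redτ A i ζ ≠ 1 := by
    intro h2
    have h3 := congrArg (redτ A i) (hζ.geom_sum_eq_zero hℓ.one_lt)
    rw [map_sum, map_zero] at h3
    simp only [map_pow, h2, one_pow, Finset.sum_const, Finset.card_range, nsmul_eq_mul,
      mul_one] at h3
    rw [← map_natCast (redτ A i)] at h3
    exact h.redτ_ne_zero hv h3
  have h3 := IsPrimitiveRoot.orderOf (redτ A i ζ)
  rwa [orderOf_eq_prime h1 h2] at h3

lemma mem_cong_zero_of_sub_mem {u x : Fˣ} {b c : 𝓞 F} (hu : (u : F) = b) (hx : (x : F) = c)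
    (hc : c ∉ v.asIdeal) (hbc : b - c ∈ v.asIdeal) : u / x ∈ cong v 0 := by
  rw [mem_cong, Units.val_div_eq_div_val, hu, hx]
  have hc0 : (c : F) ≠ 0 := by
    intro h0
    apply hc
    rw [show c = 0 from RingOfIntegers.ext h0]
    exact v.asIdeal.zero_mem
  rw [div_sub_one hc0, map_div₀]
  have h1 : v.valuation F (c : F) = 1 := (v.valuation_eq_one_iff_notMem (K := F)).mpr hc
  rw [h1, div_one]
  have h2 : v.valuation F (algebraMap (𝓞 F) F (b - c)) ≤ exp (-(1 : ℤ)) := by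
    rw [v.valuation_of_algebraMap]
    have h3 := (v.intValuation_le_pow_iff_mem (b - c) 1).mpr (by rwa [pow_one])
    simpa using h3
  simpa using h2

/-- the integral case -/
theorem fix_iff_of_integral {ℓ : ℕ} (hℓ : ℓ.Prime) {ζ : 𝓞 F} (hζ : IsPrimitiveRoot ζ ℓ)
    (hv : (ℓ : 𝓞 F) ∉ v.asIdeal) {b : 𝓞 F} (hb : b ∉ v.asIdeal) {u : Fˣ} (hu : (u : F) = b)
    {β : AlgebraicClosure ℚ} (hβ : β ^ ℓ = i b) (h : Over i A v) {φ : GQ}
    (hφ : ∀ x, φ (i x) = i x) (hF : A.IsFrobeniusAt φ (Ideal.absNorm v.asIdeal)) :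
    φ β = β ↔ u ∈ locPow ℓ v := by
  have : NeZero ℓ := ⟨hℓ.ne_zero⟩
  have hint : IsIntegral ℤ β := by
    apply IsIntegral.of_pow hℓ.pos
    rw [hβ]
    exact (toZbar i b).2
  set B : Zbar := ⟨β, hint⟩ with hB
  set y := redA A B with hy
  have hyℓ : y ^ ℓ = redτ A i b := by
    rw [hy, ← map_pow]
    exact congrArg (redA A) (Subtype.ext hβ)
  have hz := h.isPrimitiveRoot_redτ hℓ hζ hv
  have hy0 : y ≠ 0 := by
    intro h0
    rw [h0, zero_pow hℓ.ne_zero] at hyℓ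
    exact h.redτ_ne_zero hb hyℓ.symm
  have hb0 : (b : F) ≠ 0 := by
    intro h0
    apply hb
    rw [show b = 0 from RingOfIntegers.ext h0]
    exact v.asIdeal.zero_mem
  have hβ0 : β ≠ 0 := by
    intro h0
    rw [h0, zero_pow hℓ.ne_zero] at hβ
    exact hb0 (i.injective (by rw [← hβ, map_zero]))
  have hfr : redA A (φ • B) = y ^ Ideal.absNorm v.asIdeal := redA_frob hF B
  constructor
  · intro hfix
    have h1 : φ • B = B := Subtype.ext hfix
    rw [h1] at hfr
    obtain ⟨x, hx⟩ := h.exists_redτ_eq hfr.symm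
    have hxb : b - x ^ ℓ ∈ v.asIdeal := by
      rw [h.mem_iff, map_sub, map_pow, hx, ← hyℓ, hy, sub_self]
    have hx0 : x ∉ v.asIdeal := by
      intro h0
      apply h.redτ_ne_zero hb
      rw [← hyℓ, ← hx, (h.mem_iff x).mp h0, zero_pow hℓ.ne_zero]
    have hxF : (x : F) ≠ 0 := by
      intro h0
      apply hx0
      rw [show x = 0 from RingOfIntegers.ext h0]
      exact v.asIdeal.zero_mem
    have h2 : u / (Units.mk0 (x : F) hxF) ^ ℓ ∈ cong v 0 := by
      refine mem_cong_zero_of_sub_mem (c := x ^ ℓ) hu ?_ ?_ hxb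
      · rw [Units.val_pow_eq_pow_val, Units.val_mk0]
        exact (map_pow (algebraMap (𝓞 F) F) x ℓ).symm
      · exact fun h0 => hx0 (v.isPrime.mem_of_pow_mem _ h0)
    have h3 := mul_mem (cong_zero_le_locPow ℓ hℓ.ne_zero v hv h2)
      (pow_mem_locPow ℓ v (Units.mk0 (x : F) hxF))
    rwa [div_mul_cancel] at h3
  · intro hloc
    have hy2 : y ^ Ideal.absNorm v.asIdeal = y := by
      obtain ⟨x, hx⟩ := mem_locPow.mp hloc 0
      have hou : ord v u = 0 := ord_eq_zero_of_notMem hu hb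
      have hlt : v.valuation F ((u / x ^ ℓ : Fˣ) - 1 : F) < 1 := by
        refine lt_of_le_of_lt hx ?_
        rw [← exp_zero, exp_lt_exp]
        norm_num
      have hox : ord v x = 0 := by
        have h1 : v.valuation F ((u / x ^ ℓ : Fˣ) : F) = 1 := by
          have e : ((u / x ^ ℓ : Fˣ) : F) = ((u / x ^ ℓ : Fˣ) - 1) + 1 := by ring
          rw [e, Valuation.map_add_eq_of_lt_right _ (by simpa using hlt), map_one]
        rw [← ord_eq_zero_iff, ord_div, ord_pow, hou] at h1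
        have h2 : (ℓ : ℤ) ≠ 0 := by exact_mod_cast hℓ.ne_zero
        have h3 : (ℓ : ℤ) * ord v x = 0 := by linarith
        exact (mul_eq_zero.mp h3).resolve_left h2
      obtain ⟨n, d, hn, hd, hnd⟩ := exists_frac_of_ord_eq_zero hox
      have hmem : b * d ^ ℓ - n ^ ℓ ∈ v.asIdeal := by
        have hnd' : (x : F) * algebraMap (𝓞 F) F d = algebraMap (𝓞 F) F n := hnd
        have hu' : (u : F) = algebraMap (𝓞 F) F b := hu
        have e : algebraMap (𝓞 F) F (b * d ^ ℓ - n ^ ℓ) =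
            (((u / x ^ ℓ : Fˣ) : F) - 1) * algebraMap (𝓞 F) F n ^ ℓ := by
          have hx0 : (x : F) ≠ 0 := x.ne_zero
          rw [map_sub, map_mul, map_pow, map_pow, ← hnd', Units.val_div_eq_div_val,
            Units.val_pow_eq_pow_val, hu', mul_pow]
          field_simp
        have h1 : v.valuation F (algebraMap (𝓞 F) F (b * d ^ ℓ - n ^ ℓ)) < 1 := by
          rw [e, map_mul, map_pow, (v.valuation_eq_one_iff_notMem (K := F)).mpr hn, one_pow, mul_one]
          exact hlt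
        exact (v.valuation_lt_one_iff_mem (K := F) _).mp h1
      have h5 : (y * redτ A i d / redτ A i n) ^ ℓ = 1 := by
        rw [div_pow, mul_pow, hyℓ, div_eq_one_iff_eq (pow_ne_zero _ (h.redτ_ne_zero hn)),
          ← sub_eq_zero, ← map_pow, ← map_pow, ← map_mul, ← map_sub]
        exact (h.mem_iff _).mp hmem
      obtain ⟨m, -, hm⟩ := hz.eq_pow_of_pow_eq_one h5
      have h6 : y = redτ A i (ζ ^ m) * redτ A i n / redτ A i d := by
        rw [map_pow, hm]
        field_simp [h.redτ_ne_zero hn, h.redτ_ne_zero hd]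
      rw [h6, div_pow, mul_pow, h.redτ_pow_absNorm, h.redτ_pow_absNorm, h.redτ_pow_absNorm]
    have h7 : (φ β / β) ^ ℓ = 1 := by
      rw [div_pow, ← map_pow, hβ, hφ, div_self]
      exact fun h0 => hb0 (i.injective (by rw [h0, map_zero]))
    have hζ' : IsPrimitiveRoot (i (ζ : F)) ℓ :=
      (hζ.map_of_injective (f := algebraMap (𝓞 F) F) RingOfIntegers.coe_injective).map_of_injective
        i.injective
    obtain ⟨j, hj, hjφ⟩ := hζ'.eq_pow_of_pow_eq_one h7
    have h8 : φ β = i (algebraMap (𝓞 F) F (ζ ^ j)) * β := by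
      rw [map_pow, map_pow]
      exact (eq_div_iff hβ0).mp hjφ |>.symm
    have h9 : φ • B = toZbar i (ζ ^ j) * B := Subtype.ext h8
    have h10 : redτ A i ζ ^ j * y = y := by
      rw [← map_pow]
      have := congrArg (redA A) h9
      rw [hfr, hy2, map_mul] at this
      exact this.symm
    have h11 : redτ A i ζ ^ j = 1 := (mul_eq_right₀ hy0).mp h10
    have h12 : ℓ ∣ j := hz.dvd_of_pow_eq_one j h11
    have h13 : j = 0 := Nat.eq_zero_of_dvd_of_lt h12 hj
    rw [h8, h13, pow_zero, map_one, map_one, one_mul]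

/-- **Kummer criterion**: the Frobenius at `v` fixes `α`, `α ^ ℓ = a`, if and only if `a` is an
`ℓ`-th power in the completion at `v`. -/
theorem fix_iff_mem_locPow {ℓ : ℕ} (hℓ : ℓ.Prime) {ζ : 𝓞 F} (hζ : IsPrimitiveRoot ζ ℓ)
    (hv : (ℓ : 𝓞 F) ∉ v.asIdeal) {a : Fˣ} (ha : ord v a = 0)
    {α : AlgebraicClosure ℚ} (hα : α ^ ℓ = i a) (h : Over i A v) {φ : GQ}
    (hφ : ∀ x, φ (i x) = i x) (hF : A.IsFrobeniusAt φ (Ideal.absNorm v.asIdeal)) :
    φ α = α ↔ a ∈ locPow ℓ v := by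
  obtain ⟨n, d, hn, hd, hnd⟩ := exists_frac_of_ord_eq_zero ha
  have hdF : (d : F) ≠ 0 := by
    intro h0
    apply hd
    rw [show d = 0 from RingOfIntegers.ext h0]
    exact v.asIdeal.zero_mem
  set du : Fˣ := Units.mk0 (d : F) hdF with hdu
  have hid : i (d : F) ≠ 0 := fun h0 => hdF (i.injective (by rw [h0, map_zero]))
  have h1 : (a * du ^ ℓ : Fˣ) ∈ locPow ℓ v ↔ a ∈ locPow ℓ v :=
    Subgroup.mul_mem_cancel_right _ (pow_mem_locPow ℓ v du)
  obtain ⟨m, hm⟩ : ∃ m, ℓ = m + 1 := ⟨ℓ - 1, (Nat.succ_pred_eq_of_pos hℓ.pos).symm⟩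
  have h2 : ((a * du ^ ℓ : Fˣ) : F) = ((n * d ^ m : 𝓞 F) : F) := by
    have hnd' : (a : F) * algebraMap (𝓞 F) F d = algebraMap (𝓞 F) F n := hnd
    have e : ((n * d ^ m : 𝓞 F) : F) = algebraMap (𝓞 F) F n * algebraMap (𝓞 F) F d ^ m := by
      rw [← map_pow, ← map_mul]
    rw [e, ← hnd', Units.val_mul, Units.val_pow_eq_pow_val, hdu, Units.val_mk0, hm, pow_succ']
    ring
  have h3 : n * d ^ m ∉ v.asIdeal := by
    intro h0
    rcases v.isPrime.mem_or_mem h0 with h0 | h0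
    · exact hn h0
    · exact hd (v.isPrime.mem_of_pow_mem _ h0)
  have h4 : (α * i (d : F)) ^ ℓ = i ((n * d ^ m : 𝓞 F) : F) := by
    rw [← h2, mul_pow, hα, Units.val_mul, Units.val_pow_eq_pow_val, hdu, Units.val_mk0, map_mul,
      map_pow]
  rw [← h1, ← fix_iff_of_integral hℓ hζ hv h3 h2 h4 h hφ hF, map_mul, hφ, mul_left_inj' hid]

end Fermat.Agent.LT.Tower.Fr
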