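import Fermat.Agent.Frob.Density
import Fermat.Agent.CFT.Global.Approx
import Fermat.Agent.CFT.Global.LocalCount

/-!
# Local powers and Frobenius elements

`F` a number field with an embedding `ι : F → ℚ̄`, `A` a valuation subring of `ℚ̄` above `ℓ`,
`w` the place of `F` induced by `A` and `ι`. For an element `g` of the Galois group which acts on
the residue field of `A` as `z ↦ z ^ q`, where `q = #k_w`: an integral unit `a` at `w` with
`s ^ n = a`, `g s = s` is an `n`-th power in `F_w`; for `n = 2` the converse also holds.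
-/

set_option autoImplicit false

namespace Fermat.Agent.LT.Tower

open NumberField IsDedekindDomain WithZero
open Fermat.Agent.Frob Fermat.Agent.FrobDensity Fermat.Agent.CFT.Global
open scoped Pointwise

variable {F : Type*} [Field F] [NumberField F]

local notation "Qbar" => AlgebraicClosure ℚ

/-- `g` acts on the residue field of `A` (through algebraic integers) as `z ↦ z ^ q` -/
def ActsPow (A : ValuationSubring Qbar) (g : GQ) (q : ℕ) : Prop :=
  ∀ x : Zbar, redA A (g • x) = redA A x ^ q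

lemma ActsPow.of_frob {A : ValuationSubring Qbar} {g : GQ} {ℓ : ℕ} (h : A.IsFrobeniusAt g ℓ) :
    ActsPow A g ℓ := fun x => redA_frob h x

lemma ActsPow.mul {A : ValuationSubring Qbar} {g h : GQ} {q r : ℕ} (hg : ActsPow A g q)
    (hh : ActsPow A h r) : ActsPow A (g * h) (r * q) := by
  intro x
  rw [mul_smul, hg, hh, pow_mul]

/-- the place of `F` induced by `A` and `ι` is `w` -/
def Induces (A : ValuationSubring Qbar) (ι : F →+* Qbar) (w : HeightOneSpectrum (𝓞 F)) : Prop :=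
  RingHom.ker (redτ A ι) = w.asIdeal

lemma Induces.mem_iff {A : ValuationSubring Qbar} {ι : F →+* Qbar} {w : HeightOneSpectrum (𝓞 F)}
    (h : Induces A ι w) (x : 𝓞 F) : redτ A ι x = 0 ↔ x ∈ w.asIdeal := by
  rw [← h, RingHom.mem_ker]

/-- two embeddings differ by an automorphism -/
lemma exists_extend (ι τ : F →+* Qbar) : ∃ h : GQ, ∀ x : F, h (ι x) = τ x := by
  let i : F →ₐ[ℚ] Qbar := ι.toRatAlgHom
  let t : F →ₐ[ℚ] Qbar := τ.toRatAlgHom
  let E : IntermediateField ℚ Qbar := i.fieldRange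
  let e : F ≃ₐ[ℚ] E := AlgEquiv.ofInjectiveField i
  let f : E →ₐ[ℚ] Qbar := t.comp (e.symm : E →ₐ[ℚ] F)
  let φ : Qbar →ₐ[ℚ] Qbar := f.liftNormal Qbar
  refine ⟨AlgEquiv.ofBijective φ (Algebra.IsAlgebraic.algHom_bijective φ), fun x => ?_⟩
  have h1 := f.liftNormal_commutes Qbar (e x)
  have h2 : f (e x) = τ x := by
    change t (e.symm (e x)) = τ x
    rw [AlgEquiv.symm_apply_apply]
    rfl
  rw [h2] at h1
  exact h1

/-- every place above `ℓ` is induced by some `A` (for a fixed embedding) -/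
theorem exists_induces {A : ValuationSubring Qbar} {ℓ : ℕ} (hℓ : ℓ.Prime)
    (hA : A.LiesOverPrime ℓ) (ι : F →+* Qbar) {w : HeightOneSpectrum (𝓞 F)}
    (hw : (ℓ : 𝓞 F) ∈ w.asIdeal) :
    ∃ g : GQ, (g • A).LiesOverPrime ℓ ∧ Induces (g • A) ι w := by
  have := w.isPrime
  obtain ⟨τ, hτ⟩ := exists_redτ hℓ hA hw
  obtain ⟨h, hh⟩ := exists_extend ι τ
  refine ⟨h⁻¹, liesOverPrime_smul hA, ?_⟩
  ext x
  rw [RingHom.mem_ker, ← hτ, RingHom.mem_ker]
  change redA (h⁻¹ • A) (toZbar ι x) = 0 ↔ redA A (toZbar τ x) = 0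
  rw [redA_eq_zero_iff, redA_eq_zero_iff, mem_centre_iff, mem_centre_iff, coe_toZbar, coe_toZbar,
    ← hh x, ← mem_nonunits_smul_iff (A := A) (g := h⁻¹)]
  have : h⁻¹ (h (ι x)) = ι x := h.symm_apply_apply _
  rw [this]

section Kummer

variable {A : ValuationSubring Qbar} {ι : F →+* Qbar} {w : HeightOneSpectrum (𝓞 F)}
  (hw : Induces A ι w) {g : GQ} {q : ℕ} (hg : ActsPow A g q)
  (hk : ∀ z : IsLocalRing.ResidueField A, z ^ q = z → ∃ y : 𝓞 F, redτ A ι y = z)

include hw hg hk in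
/-- a root fixed by `g`: the element is a local power -/
theorem mem_locPow_of_fixed {n : ℕ} (hn : n ≠ 0) (hnw : (n : 𝓞 F) ∉ w.asIdeal) {a : Fˣ}
    {a₀ : 𝓞 F} (ha : (a : F) = a₀) (ha₀ : a₀ ∉ w.asIdeal) {s : Qbar} (hs : s ^ n = ι a)
    (h : g s = s) : a ∈ locPow n w := by
  have hsint : IsIntegral ℤ s := by
    apply IsIntegral.of_pow (Nat.pos_of_ne_zero hn)
    rw [hs, ha]
    exact (toZbar ι a₀).2
  let s' : Zbar := ⟨s, hsint⟩
  have hs' : s' ^ n = toZbar ι a₀ := Subtype.ext (by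
    change s ^ n = ι a₀
    rw [hs, ha])
  have h1 : g • s' = s' := Subtype.ext h
  have h2 := hg s'
  rw [h1] at h2
  obtain ⟨y, hy⟩ := hk _ h2.symm
  have h3 : redτ A ι (y ^ n) = redτ A ι a₀ := by
    rw [map_pow, hy, ← map_pow, hs']
    rfl
  have h4 : a₀ - y ^ n ∈ w.asIdeal := by
    rw [← hw.mem_iff, map_sub, h3, sub_self]
  have hyw : y ∉ w.asIdeal := by
    intro hyw
    apply ha₀
    have := Ideal.add_mem _ h4 (Ideal.pow_mem_of_mem _ hyw n (Nat.pos_of_ne_zero hn))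
    rwa [sub_add_cancel] at this
  have hy0 : (y : F) ≠ 0 := by
    intro h0
    apply hyw
    have : y = 0 := RingOfIntegers.ext h0
    rw [this]
    exact zero_mem _
  rw [locPow_eq_of_not_mem n hn w hnw, Subgroup.mem_sup]
  refine ⟨(Units.mk0 (y : F) hy0) ^ n, ⟨_, rfl⟩, a / (Units.mk0 (y : F) hy0) ^ n, ?_,
    mul_div_cancel _ _⟩
  rw [mem_cong]
  have h5 : (((a / (Units.mk0 (y : F) hy0) ^ n : Fˣ) : F) - 1) =
      algebraMap (𝓞 F) F (a₀ - y ^ n) / (algebraMap (𝓞 F) F y) ^ n := by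
    have hy0' : (algebraMap (𝓞 F) F y) ≠ 0 := hy0
    rw [Units.val_div_eq_div_val, Units.val_pow_eq_pow_val, Units.val_mk0, ha, map_sub, map_pow]
    change (algebraMap (𝓞 F) F a₀) / (algebraMap (𝓞 F) F y) ^ n - 1 = _
    field_simp
  have h6 : w.valuation F (algebraMap (𝓞 F) F y) = 1 := by
    refine le_antisymm (w.valuation_le_one y) (not_lt.mp ?_)
    rwa [w.valuation_lt_one_iff_mem]
  rw [h5, map_div₀, map_pow, h6, one_pow, div_one]
  have h7 : w.valuation F (algebraMap (𝓞 F) F (a₀ - y ^ n)) < 1 :=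
    (w.valuation_lt_one_iff_mem _).mpr h4
  rw [← exp_zero] at h7
  rw [← lt_mul_exp_iff_le exp_ne_zero, ← exp_add]
  simpa using h7

omit hk in
include hw hg in
/-- for `n = 2` the converse holds -/
theorem fixed_of_mem_locPow {a : Fˣ} {a₀ : 𝓞 F} (ha : (a : F) = a₀) (ha₀ : a₀ ∉ w.asIdeal)
    (h2w : (2 : 𝓞 F) ∉ w.asIdeal) {s : Qbar} (hs : s ^ 2 = ι a) (hgι : ∀ x : F, g (ι x) = ι x)
    (h : a ∈ locPow 2 w) : g s = s := by
  rw [locPow_eq_of_not_mem 2 two_ne_zero w (by exact_mod_cast h2w), Subgroup.mem_sup] at h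
  obtain ⟨_, ⟨z, rfl⟩, u, hu, hzu⟩ := h
  rw [powMonoidHom_apply] at hzu
  have hva : w.valuation F (a : F) = 1 := by
    rw [ha]
    refine le_antisymm (w.valuation_le_one a₀) (not_lt.mp ?_)
    rwa [w.valuation_lt_one_iff_mem]
  have hvu : w.valuation F (u : F) = 1 := by
    have := ord_eq_zero_of_mem_cong hu
    rwa [Fermat.Agent.CFT.SUnits.ord_eq_zero_iff] at this
  have hvz : w.valuation F (z : F) = 1 := by
    have h1 : w.valuation F (z : F) ^ 2 = 1 := by
      have := congrArg (fun x : Fˣ => w.valuation F (x : F)) hzu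
      simp only [Units.val_mul, Units.val_pow_eq_pow_val, map_mul, map_pow, hva, hvu,
        mul_one] at this
      exact this
    exact (pow_eq_one_iff_of_nonneg zero_le two_ne_zero).mp h1
  obtain ⟨y, hy⟩ := Fermat.Agent.CFT.LocalCount.exists_int_approx w (x := (z : F)) hvz.le 1
  have hlt : (exp (-1 : ℤ) : ℤᵐ⁰) < 1 := by
    rw [← exp_zero, exp_lt_exp]
    norm_num
  have hyz : w.valuation F (algebraMap (𝓞 F) F y - z) < 1 := lt_of_le_of_lt hy hlt
  have hvy : w.valuation F (algebraMap (𝓞 F) F y) ≤ 1 := w.valuation_le_one y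
  have h4 : a₀ - y ^ 2 ∈ w.asIdeal := by
    have e : algebraMap (𝓞 F) F (a₀ - y ^ 2) =
        (z : F) ^ 2 * ((u : F) - 1) - (algebraMap (𝓞 F) F y - z) * (algebraMap (𝓞 F) F y + z) := by
      have h1 : (a : F) = (z : F) ^ 2 * u := by
        rw [← hzu, Units.val_mul, Units.val_pow_eq_pow_val]
      have h2 : algebraMap (𝓞 F) F a₀ = (a : F) := ha.symm
      rw [map_sub, map_pow, h2, h1]
      ring
    rw [← w.valuation_lt_one_iff_mem (K := F)]
    change w.valuation F (algebraMap (𝓞 F) F (a₀ - y ^ 2)) < 1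
    rw [e]
    refine (Valuation.map_sub _ _ _).trans_lt (max_lt ?_ ?_)
    · rw [map_mul, map_pow, hvz, one_pow, one_mul]
      exact lt_of_le_of_lt (mem_cong.mp hu) (by simpa using hlt)
    · rw [map_mul]
      refine mul_lt_one_of_lt_of_le hyz ?_
      exact (Valuation.map_add _ _ _).trans (max_le hvy hvz.le)
  have hsint : IsIntegral ℤ s := by
    apply IsIntegral.of_pow (n := 2) (by norm_num)
    rw [hs, ha]
    exact (toZbar ι a₀).2
  let s' : Zbar := ⟨s, hsint⟩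
  have hs' : s' ^ 2 = toZbar ι a₀ := Subtype.ext (by
    change s ^ 2 = ι a₀
    rw [hs, ha])
  have h5 : redA A s' ^ 2 = redτ A ι y ^ 2 := by
    rw [← map_pow, hs', ← map_pow, ← sub_eq_zero]
    change redτ A ι a₀ - _ = 0
    rw [← map_sub, hw.mem_iff]
    exact h4
  have hfix : ∀ t : 𝓞 F, redτ A ι t ^ q = redτ A ι t := by
    intro t
    have h6 := hg (toZbar ι t)
    have h7 : g • toZbar ι t = toZbar ι t := Subtype.ext (hgι t)
    rw [h7] at h6
    exact h6.symm
  have h8 : redA A s' ^ q = redA A s' := by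
    rcases sq_eq_sq_iff_eq_or_eq_neg.mp h5 with h | h
    · rw [h, hfix]
    · rw [h, ← map_neg, hfix]
  have h9 : redA A (g • s') = redA A s' := by rw [hg, h8]
  have h10 : (g s) ^ 2 = s ^ 2 := by rw [← map_pow, hs, hgι]
  rcases sq_eq_sq_iff_eq_or_eq_neg.mp h10 with h | h
  · exact h
  · exfalso
    have h11 : g • s' = -s' := Subtype.ext h
    rw [h11, map_neg, neg_eq_iff_add_eq_zero, ← two_mul, mul_eq_zero] at h9
    rcases h9 with h | h
    · apply h2w
      rw [← hw.mem_iff, map_ofNat]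
      exact h
    · apply ha₀
      rw [← hw.mem_iff]
      change redA A (toZbar ι a₀) = 0
      rw [← hs', map_pow, h, zero_pow two_ne_zero]

end Kummer

/-! ### The size of the residue field -/

/-- `q = ℓ` -/
theorem surj_prime {A : ValuationSubring Qbar} {ℓ : ℕ} (hℓ : ℓ.Prime) (hA : A.LiesOverPrime ℓ)
    (ι : F →+* Qbar) (z : IsLocalRing.ResidueField A) (hz : z ^ ℓ = z) :
    ∃ y : 𝓞 F, redτ A ι y = z := by
  obtain ⟨n, rfl⟩ := exists_int_of_pow hℓ hA hz
  exact ⟨n, map_intCast _ _⟩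

/-- `q = ℓ ^ 2` for `ℓ = 2` mod `3`, in the presence of a cube root of unity -/
theorem surj_prime_sq {A : ValuationSubring Qbar} {ℓ : ℕ} (hℓ : ℓ.Prime)
    (hA : A.LiesOverPrime ℓ) (hℓ2 : ℓ ≠ 2) (hℓ3 : ℓ % 3 = 2) (ι : F →+* Qbar) {ζ : 𝓞 F}
    (hζ : ζ ^ 2 + ζ + 1 = 0) (z : IsLocalRing.ResidueField A) (hz : z ^ (ℓ * ℓ) = z) :
    ∃ y : 𝓞 F, redτ A ι y = z := by
  have hch := charP_residue hℓ hA
  have : Fact ℓ.Prime := ⟨hℓ⟩
  set ω := redτ A ι ζ with hω
  have hω1 : ω ^ 2 + ω + 1 = 0 := by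
    rw [hω, ← map_pow, ← map_add, ← map_one (redτ A ι), ← map_add, hζ, map_zero]
  have hω3 : ω ^ 3 = 1 := by linear_combination (ω - 1) * hω1
  have hωℓ : ω ^ ℓ = -1 - ω := by
    obtain ⟨k, hk⟩ : ∃ k, ℓ = 3 * k + 2 := ⟨ℓ / 3, by omega⟩
    rw [hk, pow_add, pow_mul, hω3, one_pow, one_mul]
    linear_combination hω1
  have h2 : (2 : IsLocalRing.ResidueField A) ≠ 0 := by
    intro h
    have h1 : ((2 : ℕ) : IsLocalRing.ResidueField A) = 0 := by exact_mod_cast h
    rw [CharP.cast_eq_zero_iff _ ℓ] at h1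
    exact hℓ2 ((Nat.prime_dvd_prime_iff_eq hℓ Nat.prime_two).mp h1)
  have h3 : (3 : IsLocalRing.ResidueField A) ≠ 0 := by
    intro h
    have h1 : ((3 : ℕ) : IsLocalRing.ResidueField A) = 0 := by exact_mod_cast h
    rw [CharP.cast_eq_zero_iff _ ℓ] at h1
    have := (Nat.prime_dvd_prime_iff_eq hℓ Nat.prime_three).mp h1
    omega
  have hd : 2 * ω + 1 ≠ 0 := by
    intro h
    apply h3
    have : (2 * ω + 1) ^ 2 = -3 := by linear_combination 4 * hω1
    rw [h] at this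
    linear_combination this
  have hfrob : ∀ x y : IsLocalRing.ResidueField A, (x + y) ^ ℓ = x ^ ℓ + y ^ ℓ :=
    fun x y => add_pow_char _ _ _
  have hfrob' : ∀ x y : IsLocalRing.ResidueField A, (x - y) ^ ℓ = x ^ ℓ - y ^ ℓ :=
    fun x y => sub_pow_char x y
  have hzz : (z ^ ℓ) ^ ℓ = z := by rw [← pow_mul]; exact hz
  obtain ⟨m, hm⟩ := exists_int_of_pow hℓ hA (y := z + z ^ ℓ) (by
    rw [hfrob, hzz, add_comm])
  have hdℓ : (2 * ω + 1) ^ ℓ = -(2 * ω + 1) := by
    have h2ℓ : (2 : IsLocalRing.ResidueField A) ^ ℓ = 2 := by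
      have := hfrob 1 1
      rw [one_pow] at this
      norm_num at this
      exact this
    rw [hfrob, mul_pow, h2ℓ, hωℓ, one_pow]
    ring
  obtain ⟨n, hn⟩ := exists_int_of_pow hℓ hA (y := (z - z ^ ℓ) / (2 * ω + 1)) (by
    rw [div_pow, hfrob', hzz, hdℓ, ← neg_sub z, neg_div_neg_eq])
  have h4 : 2 * z = m + n * (2 * ω + 1) := by
    rw [← hm, ← hn, div_mul_cancel₀ _ hd]
    ring
  obtain ⟨k, hk⟩ := exists_int_of_pow hℓ hA (y := (2 : IsLocalRing.ResidueField A)⁻¹) (by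
    have h2ℓ : (2 : IsLocalRing.ResidueField A) ^ ℓ = 2 := by
      have := hfrob 1 1
      rw [one_pow] at this
      norm_num at this
      exact this
    rw [inv_pow, h2ℓ])
  refine ⟨(k : 𝓞 F) * (m + n * (2 * ζ + 1)), ?_⟩
  rw [map_mul, map_add, map_mul, map_add, map_mul, map_intCast, map_intCast, map_intCast,
    map_one, map_ofNat, ← hω, ← h4, ← hk, inv_mul_cancel_left₀ h2]

end Fermat.Agent.LT.Tower
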