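import Fermat.Agent.LT.Psi.Main
import Fermat.Agent.LT.Tower.Local

/-!
# The tower of fields attached to `ρ : G_ℚ → GL₂(𝔽₃)`

`K = ℚ(√-3) ⊂ L ⊂ E ⊂ M`: the fixed fields of `SL₂(𝔽₃) ⊃ Q₈ ⊃ C₄ ⊃ {±1}`, and `M(√d)` is the
fixed field of `ker ρ`.
-/

set_option autoImplicit false

namespace Fermat.Agent.LT.Tower

open NumberField IsDedekindDomain Fermat.Agent.Frob
open Fermat.Agent.CFT.Global (E ClTrivial AboveP above locPow mem_above mem_E)

local notation "Qbar" => AlgebraicClosure ℚ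
local notation "G3" => Matrix.GeneralLinearGroup (Fin 2) (ZMod 3)

/-- The tower of fields attached to `ρ`. -/
structure TowerFields (ρ : GQ →* G3) : Type 1 where
  /-- `ℚ(√-3)` -/
  K : Type
  /-- cyclic cubic over `K`, fixed by `ρ⁻¹(Q₈)` -/
  L : Type
  /-- fixed by `ρ⁻¹(C₄)` -/
  E : Type
  /-- fixed by `ρ⁻¹{±1}` -/
  M : Type
  [fK : Field K]
  [fL : Field L]
  [fE : Field E]
  [fM : Field M]
  [nK : NumberField K]
  [cycK : IsCyclotomicExtension {3} ℚ K]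
  [nL : NumberField L]
  [nE : NumberField E]
  [nM : NumberField M]
  [aKL : Algebra K L]
  [aLE : Algebra L E]
  [aEM : Algebra E M]
  [aLM : Algebra L M]
  [tLEM : IsScalarTower L E M]
  [tcK : IsTotallyComplex K]
  [tcL : IsTotallyComplex L]
  [tcE : IsTotallyComplex E]
  [tcM : IsTotallyComplex M]
  [galKL : IsGalois K L]
  [galLE : IsGalois L E]
  [galEM : IsGalois E M]
  [galLM : IsGalois L M]
  /-- everything is embedded in `ℚ̄` -/
  i : M →+* Qbar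
  finrank_K : Module.finrank ℚ K = 2
  /-- the cube root of unity -/
  ζ : K
  hζ : IsPrimitiveRoot ζ 3
  /-- the cube root generating `L / K` -/
  γ : L
  /-- its cube -/
  c₃ : Kˣ
  γ_pow : γ ^ 3 = algebraMap K L c₃
  int_c₃ : IsIntegral ℤ (c₃ : K)
  c₃_ne : ∀ x : Kˣ, x ^ 3 ≠ c₃
  adjoin_γ : IntermediateField.adjoin K {γ} = ⊤
  finrank_KL : Module.finrank K L = 3
  /-- the generator of `Gal(L/K)` -/
  θ : L ≃ₐ[K] L
  θ_γ : θ γ = algebraMap K L ζ * γ
  orderOf_θ : orderOf θ = 3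
  /-- `E = L(√a)` -/
  a : Lˣ
  /-- `M = E(√b)` -/
  b : Lˣ
  /-- `√a` -/
  α : E
  /-- `√b` -/
  β : M
  /-- the quaternion extension is `M(√d)` -/
  d : Mˣ
  sq_α : α ^ 2 = algebraMap L E a
  sq_β : β ^ 2 = algebraMap L M b
  int_a : IsIntegral ℤ (a : L)
  int_b : IsIntegral ℤ (b : L)
  int_d : IsIntegral ℤ (d : M)
  a_ne : ∀ x : Lˣ, x ^ 2 ≠ a
  b_ne : ∀ x : Lˣ, x ^ 2 ≠ b
  ab_ne : ∀ x : Lˣ, x ^ 2 ≠ a * b
  finrank_LE : Module.finrank L E = 2
  finrank_EM : Module.finrank E M = 2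
  adjoin_α : IntermediateField.adjoin L {α} = ⊤
  adjoin_β : IntermediateField.adjoin E {β} = ⊤
  /-- the generator of `Gal(M/E)` -/
  σ : M ≃ₐ[E] M
  /-- an element of `Gal(M/L)` not in `Gal(M/E)` -/
  τ : M ≃ₐ[L] M
  /-- the generator of `Gal(E/L)` -/
  c : E ≃ₐ[L] E
  c_α : c α = -α
  σ_β : σ β = -β
  τ_α : ∀ x : E, τ (algebraMap E M x) = algebraMap E M (c x)
  τ_β : τ β = β
  quat : ∀ g : M ≃ₐ[L] M, g ≠ 1 → Psi.QuatCond g d
  /-- `√d` -/
  δ : Qbar
  δ_sq : δ ^ 2 = i (d : M)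
  fix_K : ∀ g : GQ, (∀ x : K, g (i (algebraMap L M (algebraMap K L x))) =
    i (algebraMap L M (algebraMap K L x))) ↔ (ρ g).1.det = 1
  fix_L : ∀ g : GQ, (∀ x : L, g (i (algebraMap L M x)) = i (algebraMap L M x)) ↔
    (ρ g).1.det = 1 ∧ ρ g ^ 4 = 1
  fix_M : ∀ g : GQ, (∀ x : M, g (i x) = i x) ↔ (ρ g = 1 ∨ ρ g = -1)
  fix_δ : ∀ g : GQ, (ρ g = 1 ∨ ρ g = -1) → (g δ = δ ↔ ρ g = 1)

attribute [instance] TowerFields.fK TowerFields.fL TowerFields.fE TowerFields.fM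
  TowerFields.nK TowerFields.cycK TowerFields.nL TowerFields.nE TowerFields.nM TowerFields.aKL TowerFields.aLE
  TowerFields.aEM TowerFields.aLM TowerFields.tLEM TowerFields.tcK TowerFields.tcL
  TowerFields.tcE TowerFields.tcM TowerFields.galKL TowerFields.galLE TowerFields.galEM
  TowerFields.galLM

namespace TowerFields

variable {ρ : GQ →* G3} (T : TowerFields ρ)

/-- the embedding of `E` -/
noncomputable def iE : T.E →+* Qbar := T.i.comp (algebraMap T.E T.M)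

/-- the embedding of `L` -/
noncomputable def iL : T.L →+* Qbar := T.i.comp (algebraMap T.L T.M)

/-- the embedding of `K` -/
noncomputable def iK : T.K →+* Qbar := T.iL.comp (algebraMap T.K T.L)

end TowerFields

/-- the places dividing `N` -/
noncomputable def SN (F : Type*) [Field F] [NumberField F] (N : ℕ) :
    Finset (HeightOneSpectrum (𝓞 F)) :=
  open Classical in
  if h : {v : HeightOneSpectrum (𝓞 F) | (N : 𝓞 F) ∈ v.asIdeal}.Finite then h.toFinset else ∅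

end Fermat.Agent.LT.Tower
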