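import Fermat.Agent.LT.Psi.Q8
import Fermat.Agent.LT.Tower.Fields

/-!
# Good integers for the tower: `S`-class groups, `S`-units, `TowerData`
-/

set_option autoImplicit false

namespace Fermat.Agent.LT.Tower

open NumberField IsDedekindDomain Fermat.Agent.Frob
open Fermat.Agent.CFT.Global (E ClTrivial AboveP above locPow mem_above mem_E)
open Fermat.Agent.CFT.SUnits (ord finite_ord_ne_zero exists_clTrivial)

local notation "G3" => Matrix.GeneralLinearGroup (Fin 2) (ZMod 3)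

section SN

variable {F : Type*} [Field F] [NumberField F]

lemma finite_natCast {N : ℕ} (hN : N ≠ 0) :
    {v : HeightOneSpectrum (𝓞 F) | (N : 𝓞 F) ∈ v.asIdeal}.Finite := by
  have hN0 : Ideal.span {(N : 𝓞 F)} ≠ ⊥ := by
    rw [Ne, Ideal.span_singleton_eq_bot]
    exact_mod_cast hN
  refine (Ideal.finite_factors hN0).subset fun v hv => ?_
  exact Ideal.dvd_span_singleton.mpr hv

lemma mem_SN {N : ℕ} (hN : N ≠ 0) {v : HeightOneSpectrum (𝓞 F)} :
    v ∈ SN F N ↔ (N : 𝓞 F) ∈ v.asIdeal := by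
  rw [SN, dif_pos (finite_natCast hN), Set.Finite.mem_toFinset]
  exact Iff.rfl

omit [NumberField F] in
lemma natCast_mem_of_dvd {m N : ℕ} (h : m ∣ N) {v : HeightOneSpectrum (𝓞 F)}
    (hm : (m : 𝓞 F) ∈ v.asIdeal) : (N : 𝓞 F) ∈ v.asIdeal := by
  obtain ⟨k, rfl⟩ := h
  rw [Nat.cast_mul]
  exact Ideal.mul_mem_right _ _ hm

lemma SN_mono {m N : ℕ} (hN : N ≠ 0) (h : m ∣ N) : SN F m ⊆ SN F N := by
  have hm : m ≠ 0 := by
    rintro rfl
    exact hN (zero_dvd_iff.mp h)
  intro v hv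
  rw [mem_SN hm] at hv
  rw [mem_SN hN]
  exact natCast_mem_of_dvd h hv

lemma aboveP_SN {p N : ℕ} (hN : N ≠ 0) (h : p ∣ N) : AboveP p (SN F N) := fun v hv => by
  rw [mem_SN hN]
  exact natCast_mem_of_dvd h hv

lemma above_SN {F' : Type*} [Field F'] [NumberField F'] [Algebra F F'] {N : ℕ} (hN : N ≠ 0) :
    above F' (SN F N) = SN F' N := by
  ext w
  rw [mem_above, mem_SN hN, mem_SN hN]
  change algebraMap (𝓞 F) (𝓞 F') ((N : ℕ) : 𝓞 F) ∈ w.asIdeal ↔ _
  rw [map_natCast]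

lemma exists_mem_E_SN (a : Fˣ) : ∃ m : ℕ, m ≠ 0 ∧ ∀ N : ℕ, N ≠ 0 → m ∣ N → a ∈ E (SN F N) := by
  classical
  obtain ⟨m, hm, h⟩ := Psi.exists_natCast_mem (finite_ord_ne_zero F a (R := 𝓞 F)).toFinset
  refine ⟨m, hm, fun N hN hmN => mem_E.mpr fun v hv => ?_⟩
  by_contra hcon
  exact hv ((mem_SN hN).mpr (natCast_mem_of_dvd hmN (h v (by simpa using hcon))))

lemma exists_clTrivial_SN (F : Type*) [Field F] [NumberField F] :
    ∃ m : ℕ, m ≠ 0 ∧ ∀ N : ℕ, N ≠ 0 → m ∣ N → ClTrivial (SN F N) := by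
  classical
  obtain ⟨T, -, hT⟩ := exists_clTrivial (K := F) ∅
  obtain ⟨m, hm, h⟩ := Psi.exists_natCast_mem T
  refine ⟨m, hm, fun N hN hmN => ?_⟩
  refine ClTrivial.mono (S := T) (fun D => hT.exists_ord D) fun w hw => ?_
  exact (mem_SN hN).mpr (natCast_mem_of_dvd hmN (h w hw))

end SN

namespace TowerFields

variable {ρ : GQ →* G3} (T : TowerFields ρ)

lemma α_ne : T.α ≠ 0 := by
  intro h
  have h1 := T.sq_α
  rw [h, zero_pow two_ne_zero] at h1
  exact (map_ne_zero (algebraMap T.L T.E)).mpr T.a.ne_zero h1.symm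

lemma β_ne : T.β ≠ 0 := by
  intro h
  have h1 := T.sq_β
  rw [h, zero_pow two_ne_zero] at h1
  exact (map_ne_zero (algebraMap T.L T.M)).mpr T.b.ne_zero h1.symm

lemma c_ne_one : T.c ≠ 1 := by
  intro h
  have h1 := T.c_α
  rw [h, AlgEquiv.one_apply, self_eq_neg] at h1
  exact T.α_ne h1

lemma σ_ne_one : T.σ ≠ 1 := by
  intro h
  have h1 := T.σ_β
  rw [h, AlgEquiv.one_apply, self_eq_neg] at h1
  exact T.β_ne h1

lemma τ_algebraMap_α : T.τ (algebraMap T.E T.M T.α) = -algebraMap T.E T.M T.α := by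
  rw [T.τ_α, T.c_α, map_neg]

lemma τ_ne_one : T.τ ≠ 1 := by
  intro h
  have h1 := T.τ_algebraMap_α
  rw [h, AlgEquiv.one_apply, self_eq_neg] at h1
  exact (map_ne_zero (algebraMap T.E T.M)).mpr T.α_ne h1

lemma στ_ne_one : T.σ.restrictScalars T.L * T.τ ≠ 1 := by
  intro h
  have h1 : T.σ (T.τ (algebraMap T.E T.M T.α)) = algebraMap T.E T.M T.α :=
    DFunLike.congr_fun h (algebraMap T.E T.M T.α)
  rw [T.τ_algebraMap_α, map_neg, AlgEquiv.commutes, neg_eq_self] at h1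
  exact (map_ne_zero (algebraMap T.E T.M)).mpr T.α_ne h1

lemma σ'_ne_one : T.σ.restrictScalars T.L ≠ 1 := by
  intro h
  have h1 : T.σ T.β = T.β := DFunLike.congr_fun h T.β
  rw [T.σ_β, neg_eq_self] at h1
  exact T.β_ne h1

/-- two automorphisms of `E` over `L` which agree on `α` are equal -/
lemma ext_E {f g : T.E ≃ₐ[T.L] T.E} (h : f T.α = g T.α) : f = g := by
  have h1 : ∀ x : T.E, (f : T.E →ₐ[T.L] T.E) x = (g : T.E →ₐ[T.L] T.E) x := by
    intro x
    have hx : x ∈ IntermediateField.adjoin T.L {T.α} := by rw [T.adjoin_α]; trivial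
    induction hx using IntermediateField.adjoin_induction with
    | mem x hx =>
      rw [Set.mem_singleton_iff] at hx
      rw [hx]
      exact h
    | algebraMap x => rw [AlgHom.commutes, AlgHom.commutes]
    | add x y _ _ hx hy => rw [map_add, map_add, hx, hy]
    | inv x _ hx => rw [map_inv₀, map_inv₀, hx]
    | mul x y _ _ hx hy => rw [map_mul, map_mul, hx, hy]
  exact AlgEquiv.ext h1

/-- two automorphisms of `M` over `L` which agree on `α` and `β` are equal -/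
lemma ext_M {f g : T.M ≃ₐ[T.L] T.M}
    (h : f (algebraMap T.E T.M T.α) = g (algebraMap T.E T.M T.α)) (h' : f T.β = g T.β) :
    f = g := by
  have h0 : ∀ x : T.E, f (algebraMap T.E T.M x) = g (algebraMap T.E T.M x) := by
    intro x
    have hx : x ∈ IntermediateField.adjoin T.L {T.α} := by rw [T.adjoin_α]; trivial
    induction hx using IntermediateField.adjoin_induction with
    | mem x hx =>
      rw [Set.mem_singleton_iff] at hx
      rw [hx]
      exact h
    | algebraMap x =>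
      rw [← IsScalarTower.algebraMap_apply, AlgEquiv.commutes, AlgEquiv.commutes]
    | add x y _ _ hx hy => rw [map_add, map_add, map_add, hx, hy]
    | inv x _ hx => rw [map_inv₀, map_inv₀, map_inv₀, hx]
    | mul x y _ _ hx hy => rw [map_mul, map_mul, map_mul, hx, hy]
  apply AlgEquiv.ext
  intro x
  have hx : x ∈ IntermediateField.adjoin T.E {T.β} := by rw [T.adjoin_β]; trivial
  induction hx using IntermediateField.adjoin_induction with
  | mem x hx =>
    rw [Set.mem_singleton_iff] at hx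
    rw [hx]
    exact h'
  | algebraMap x => exact h0 x
  | add x y _ _ hx hy => rw [map_add, map_add, hx, hy]
  | inv x _ hx => rw [map_inv₀, map_inv₀, hx]
  | mul x y _ _ hx hy => rw [map_mul, map_mul, hx, hy]

lemma τ_τ (x : T.M) : T.τ (T.τ x) = x := by
  have h : T.τ * T.τ = 1 := T.ext_M
    (by rw [AlgEquiv.mul_apply, T.τ_algebraMap_α, map_neg, T.τ_algebraMap_α, neg_neg]; rfl)
    (by rw [AlgEquiv.mul_apply, T.τ_β, T.τ_β]; rfl)
  exact DFunLike.congr_fun h x

lemma σ_τ (x : T.M) : T.σ (T.τ x) = T.τ (T.σ x) := by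
  have h : T.σ.restrictScalars T.L * T.τ = T.τ * T.σ.restrictScalars T.L := T.ext_M
    (by
      change T.σ (T.τ _) = T.τ (T.σ _)
      rw [T.τ_algebraMap_α, map_neg, AlgEquiv.commutes, T.τ_algebraMap_α])
    (by
      change T.σ (T.τ _) = T.τ (T.σ _)
      rw [T.τ_β, T.σ_β, map_neg, T.τ_β])
  exact DFunLike.congr_fun h x

/-- the core of the tower data -/
def core : Psi.TowerCore T.L T.E T.M where
  σ := T.σ
  τ := T.τ
  c := T.c
  a := T.a
  b := T.b
  α := T.α
  β := T.β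
  d := T.d
  finrank_FE := T.finrank_LE
  finrank_EM := T.finrank_EM
  galois_FE := T.galLE
  galois_EM := T.galEM
  sq_α := T.sq_α
  sq_β := T.sq_β
  c_α := T.c_α
  σ_β := T.σ_β
  τ_β := T.τ_β
  τ_α := T.τ_α
  τ_τ := T.τ_τ
  σ_τ := T.σ_τ
  quat_σ := T.quat _ T.σ'_ne_one
  quat_τ := T.quat _ T.τ_ne_one
  quat_στ := T.quat _ T.στ_ne_one

/-- `N` is good for the tower -/
structure Good (N : ℕ) : Prop where
  ne_zero : N ≠ 0
  two_dvd : 2 ∣ N
  three_dvd : 3 ∣ N
  cl_K : ClTrivial (SN T.K N)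
  cl_L : ClTrivial (SN T.L N)
  cl_E : ClTrivial (SN T.E N)
  cl_M : ClTrivial (SN T.M N)
  c₃_mem : T.c₃ ∈ CFT.Global.E (SN T.K N)
  a_mem : T.a ∈ CFT.Global.E (SN T.L N)
  b_mem : T.b ∈ CFT.Global.E (SN T.L N)
  d_mem : T.d ∈ CFT.Global.E (SN T.M N)

theorem exists_good : ∃ N₁ : ℕ, N₁ ≠ 0 ∧ 6 ∣ N₁ ∧ ∀ N : ℕ, N ≠ 0 → N₁ ∣ N → T.Good N := by
  obtain ⟨k, hk, hk'⟩ := exists_clTrivial_SN T.K
  obtain ⟨l, hl, hl'⟩ := exists_clTrivial_SN T.L
  obtain ⟨e, he, he'⟩ := exists_clTrivial_SN T.E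
  obtain ⟨m, hm, hm'⟩ := exists_clTrivial_SN T.M
  obtain ⟨c, hc, hc'⟩ := exists_mem_E_SN T.c₃
  obtain ⟨a, ha, ha'⟩ := exists_mem_E_SN T.a
  obtain ⟨b, hb, hb'⟩ := exists_mem_E_SN T.b
  obtain ⟨d, hd, hd'⟩ := exists_mem_E_SN T.d
  refine ⟨6 * k * l * e * m * c * a * b * d, by positivity,
    ⟨k * l * e * m * c * a * b * d, by ring⟩, fun N hN h => ?_⟩
  exact {
    ne_zero := hN
    two_dvd := (Dvd.intro (3 * k * l * e * m * c * a * b * d) (by ring)).trans h
    three_dvd := (Dvd.intro (2 * k * l * e * m * c * a * b * d) (by ring)).trans h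
    cl_K := hk' N hN ((Dvd.intro (6 * l * e * m * c * a * b * d) (by ring)).trans h)
    cl_L := hl' N hN ((Dvd.intro (6 * k * e * m * c * a * b * d) (by ring)).trans h)
    cl_E := he' N hN ((Dvd.intro (6 * k * l * m * c * a * b * d) (by ring)).trans h)
    cl_M := hm' N hN ((Dvd.intro (6 * k * l * e * c * a * b * d) (by ring)).trans h)
    c₃_mem := hc' N hN ((Dvd.intro (6 * k * l * e * m * a * b * d) (by ring)).trans h)
    a_mem := ha' N hN ((Dvd.intro (6 * k * l * e * m * c * b * d) (by ring)).trans h)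
    b_mem := hb' N hN ((Dvd.intro (6 * k * l * e * m * c * a * d) (by ring)).trans h)
    d_mem := hd' N hN ((Dvd.intro (6 * k * l * e * m * c * a * b) (by ring)).trans h) }

variable {T}

lemma Good.of_dvd {N N' : ℕ} (h : T.Good N) (hN' : N' ≠ 0) (hd : N ∣ N') : T.Good N' where
  ne_zero := hN'
  two_dvd := h.two_dvd.trans hd
  three_dvd := h.three_dvd.trans hd
  cl_K := h.cl_K.mono (SN_mono hN' hd)
  cl_L := h.cl_L.mono (SN_mono hN' hd)
  cl_E := h.cl_E.mono (SN_mono hN' hd)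
  cl_M := h.cl_M.mono (SN_mono hN' hd)
  c₃_mem := CFT.Global.E_mono (SN_mono hN' hd) h.c₃_mem
  a_mem := CFT.Global.E_mono (SN_mono hN' hd) h.a_mem
  b_mem := CFT.Global.E_mono (SN_mono hN' hd) h.b_mem
  d_mem := CFT.Global.E_mono (SN_mono hN' hd) h.d_mem

/-- the tower data at a good integer -/
noncomputable def Good.data {N : ℕ} (h : T.Good N) : Psi.TowerData T.L T.E T.M (SN T.L N) :=
  T.core.toData (aboveP_SN h.ne_zero h.two_dvd) (mem_E.mp h.a_mem) (mem_E.mp h.b_mem)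
    (by rw [above_SN h.ne_zero]; exact mem_E.mp h.d_mem)
    (by rw [above_SN h.ne_zero]; exact h.cl_E) (by rw [above_SN h.ne_zero]; exact h.cl_M)

section

variable {N : ℕ} (h : T.Good N)

@[simp] lemma Good.data_σ : h.data.σ = T.σ := rfl
@[simp] lemma Good.data_τ : h.data.τ = T.τ := rfl
@[simp] lemma Good.data_c : h.data.c = T.c := rfl
@[simp] lemma Good.data_a : h.data.a = T.a := rfl
@[simp] lemma Good.data_b : h.data.b = T.b := rfl
@[simp] lemma Good.data_d : h.data.d = T.d := rfl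
@[simp] lemma Good.data_α : h.data.α = T.α := rfl
@[simp] lemma Good.data_β : h.data.β = T.β := rfl

end

end TowerFields

end Fermat.Agent.LT.Tower
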