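import Fermat.Agent.LT.Tower.Sys
import Fermat.Agent.Frob.Charpoly

/-!
# Places of `K`, splitting in `L`, and the system of eigenvalues
-/

set_option autoImplicit false

namespace Fermat.Agent.LT.Tower

open NumberField IsDedekindDomain Fermat.Agent.Frob Fermat.Agent.FrobDensity Fr
open Fermat.Agent.CFT.SUnits (ord)
open Fermat.Agent.CFT.Global (locPow)
open Fermat.Agent.CFT.Places
open Psi (kum)
open scoped Pointwise

local notation "Qbar" => AlgebraicClosure ℚ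
local notation "G3" => Matrix.GeneralLinearGroup (Fin 2) (ZMod 3)

namespace Fr

section Conj

variable {K L : Type*} [Field K] [NumberField K] [Field L] [NumberField L] [Algebra K L]
  {i : L →+* Qbar} {A : ValuationSubring Qbar} {w : HeightOneSpectrum (𝓞 L)}

/-- transport of `Over` under an automorphism -/
lemma Over.conj (h : Over i A w) (θ : L ≃ₐ[K] L) {g : GQ} (hg : ∀ x, g (i x) = i (θ x)) :
    Over i (g • A) (conj θ w) := by
  rw [over_iff] at h ⊢
  intro x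
  rw [mem_conj, h]
  have h1 : i x = g (i ((RingOfIntegers.mapRingEquiv (θ : L ≃+* L)).symm x : 𝓞 L)) := by
    rw [hg]
    congr 1
    exact (θ.apply_symm_apply (x : L)).symm
  rw [h1]
  exact mem_nonunits_smul_iff.symm

/-- An automorphism fixes `w` if and only if it is a power of Frobenius. -/
theorem Over.conj_eq_iff {p : ℕ} (hp : p.Prime) (hG : Good L p) (hA : A.LiesOverPrime p)
    (h : Over i A w) {σ : GQ} (hσ : A.IsFrobeniusAt σ p) (θ : L ≃ₐ[K] L) :
    Fermat.Agent.CFT.Places.conj θ w = w ↔ ∃ n : ℕ, ∀ x, (σ ^ n) (i x) = i (θ x) := by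
  have : Fact p.Prime := ⟨hp⟩
  have hch := charP_residue hp hA
  let _ := fieldQuot w
  have key : ∀ x : 𝓞 L, redτ A (i.comp (θ : L →+* L)) x =
      redτ A i (RingOfIntegers.mapRingEquiv (θ : L ≃+* L) x) := fun x => rfl
  constructor
  · intro hc
    have h1 : ∀ a ∈ w.asIdeal, redτ A (i.comp (θ : L →+* L)) a = 0 := by
      intro a ha
      rw [key, ← h.mem_iff, ← hc, mem_conj, RingEquiv.symm_apply_apply]
      exact ha
    let φ' : 𝓞 L ⧸ w.asIdeal →+* IsLocalRing.ResidueField A :=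
      Ideal.Quotient.lift w.asIdeal (redτ A (i.comp (θ : L →+* L))) h1
    obtain ⟨n, hn⟩ := exists_pow_of_finite p h.res φ'
    refine ⟨n, fun x => ?_⟩
    have h2 : (gh (σ ^ n)).comp i = i.comp (θ : L →+* L) := by
      apply hG A hA
      ext x
      rw [redτ_frob_pow hσ]
      exact (hn (Ideal.Quotient.mk w.asIdeal x)).symm
    exact RingHom.congr_fun h2 x
  · rintro ⟨n, hn⟩
    ext x
    rw [mem_conj, h.mem_iff, h.mem_iff]
    set y := (RingOfIntegers.mapRingEquiv (θ : L ≃+* L)).symm x with hy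
    have h1 : x = RingOfIntegers.mapRingEquiv (θ : L ≃+* L) y := by
      rw [hy, RingEquiv.apply_symm_apply]
    have h2 : redτ A i x = redτ A i y ^ p ^ n := by
      rw [h1, ← key, ← redτ_frob_pow hσ]
      congr 2
      exact (RingHom.ext hn).symm
    rw [h2, pow_eq_zero_iff (pow_ne_zero _ hp.ne_zero)]

/-- transitivity of the Galois group on the places above a place -/
theorem exists_conj_eq [IsGalois K L] {w w' : HeightOneSpectrum (𝓞 L)}
    (h : w'.under (𝓞 K) = w.under (𝓞 K)) : ∃ θ : L ≃ₐ[K] L, Fermat.Agent.CFT.Places.conj θ w = w' := by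
  have h1 : (w'.under (𝓞 K)).asIdeal = (w.under (𝓞 K)).asIdeal := by rw [h]
  have h3 : w'.asIdeal.LiesOver (w.under (𝓞 K)).asIdeal := by
    rw [← h1]
    infer_instance
  obtain ⟨τ, hτ⟩ := Ideal.exists_smul_eq_of_isGaloisGroup (w.under (𝓞 K)).asIdeal w.asIdeal
    w'.asIdeal Gal(L/K)
  refine ⟨τ, HeightOneSpectrum.ext ?_⟩
  rw [← hτ]
  ext x
  rw [mem_conj, Ideal.mem_pointwise_smul_iff_inv_smul_mem]
  exact Iff.rfl

end Conj

end Fr

namespace TowerFields

variable {ρ : GQ →* G3} {T : TowerFields ρ} {p f : ℕ} {A : ValuationSubring Qbar} {σ : GQ}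

/-- (S2) invariance of the system under `Gal(L/K)` -/
theorem GoodPrime.xL_conj (hp : T.GoodPrime p) {w : HeightOneSpectrum (𝓞 T.L)}
    (hw : (p : 𝓞 T.L) ∈ w.asIdeal) (θ : T.L ≃ₐ[T.K] T.L) : T.xL (conj θ w) = T.xL w := by
  obtain ⟨q, A, hq, hA', h⟩ := exists_over T.iL w
  have hA : A.LiesOverPrime p := h.natCast_mem_iff.mp hw
  obtain ⟨σ, hσ⟩ := exists_isFrobeniusAt hp.prime hA
  obtain ⟨f, hf0, hf⟩ := exists_absNorm_eq_pow hp.prime hw
  obtain ⟨g, hg⟩ := Fr.exists_extend T.iL (T.iL.comp (θ : T.L →+* T.L))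
  have h2 := h.conj θ (fun x => RingHom.congr_fun hg x)
  have hgA := liesOverPrime_smul (g := g) hA
  have hgσ := isFrobeniusAt_conj (g := g) hσ
  have hf2 : Ideal.absNorm (conj θ w).asIdeal = p ^ f := by
    obtain ⟨f', hf0', hf'⟩ := exists_absNorm_eq_pow hp.prime (h2.natCast_mem_iff.mpr hgA)
    have h3 : ∀ k, f' ∣ k ↔ f ∣ k := by
      intro k
      rw [← h2.frob_pow_comp_iff hp.prime hp.gL hgA hgσ hf', ← h.frob_pow_comp_iff hp.prime hp.gL
        hA hσ hf, gh_comp_iff, gh_comp_iff, conj_pow]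
      have h4 : ∀ x, g⁻¹ (T.iL x) = T.iL (θ.symm x) := by
        intro x
        have h5 : g (T.iL (θ.symm x)) = T.iL x := by
          have := RingHom.congr_fun hg (θ.symm x)
          exact this.trans (congrArg T.iL (θ.apply_symm_apply x))
        rw [← h5]
        exact g.symm_apply_apply _
      constructor
      · intro h5 x
        have h6 := h5 (θ x)
        rw [AlgEquiv.mul_apply, AlgEquiv.mul_apply, h4, AlgEquiv.symm_apply_apply] at h6
        have h7 : g (T.iL x) = T.iL (θ x) := RingHom.congr_fun hg x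
        rw [← h7] at h6
        exact g.injective h6
      · intro h5 x
        rw [AlgEquiv.mul_apply, AlgEquiv.mul_apply, h4, h5, ← h4, ← AlgEquiv.mul_apply,
          mul_inv_cancel, AlgEquiv.one_apply]
    rw [hf', Nat.dvd_antisymm ((h3 f).mpr dvd_rfl) ((h3 f').mp dvd_rfl)]
  rw [hp.xL_eq hgA hgσ h2 hf2, hp.xL_eq hA hσ h hf, conj_pow, map_mul, map_mul, map_inv, tq_conj]

/-- the system is constant on the places above a place of `K` -/
theorem GoodPrime.xL_eq_of_under_eq (hp : T.GoodPrime p) {w w' : HeightOneSpectrum (𝓞 T.L)}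
    (hw : (p : 𝓞 T.L) ∈ w.asIdeal) (h : w'.under (𝓞 T.K) = w.under (𝓞 T.K)) :
    T.xL w' = T.xL w := by
  obtain ⟨θ, rfl⟩ := exists_conj_eq h
  exact hp.xL_conj hw θ

/-- the cube root of unity as an integer -/
noncomputable def ζK (T : TowerFields ρ) : 𝓞 T.K := ⟨T.ζ, T.hζ.isIntegral (by norm_num)⟩

lemma isPrimitiveRoot_ζK (T : TowerFields ρ) : IsPrimitiveRoot T.ζK 3 :=
  IsPrimitiveRoot.of_map_of_injective (f := algebraMap (𝓞 T.K) T.K) T.hζ
    RingOfIntegers.coe_injective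

lemma algebraMap_iL (x : T.K) : T.iL (algebraMap T.K T.L x) = T.iK x := rfl

/-- fixing `L` in terms of the cube root -/
lemma fix_L_iff {φ : GQ} (hφ : ∀ x : T.K, φ (T.iK x) = T.iK x) :
    (∀ x : T.L, φ (T.iL x) = T.iL x) ↔ φ (T.iL T.γ) = T.iL T.γ := by
  constructor
  · intro h
    exact h _
  · intro h
    refine fix_of_adjoin T.iL φ T.adjoin_γ (fun x => ?_) (fun x hx => ?_)
    · rw [algebraMap_iL, hφ]
    · rw [Set.mem_singleton_iff.mp hx]
      exact h

/-- the Frobenius at `v` fixes `L` if and only if `c₃` is a local cube at `v` -/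
theorem GoodPrime.fix_L_iff_cube (hp : T.GoodPrime p) (hA : A.LiesOverPrime p)
    {v : HeightOneSpectrum (𝓞 T.K)} (hv : Over T.iK A v) {φ : GQ}
    (hφ : ∀ x : T.K, φ (T.iK x) = T.iK x) (hF : A.IsFrobeniusAt φ (Ideal.absNorm v.asIdeal)) :
    (∀ x : T.L, φ (T.iL x) = T.iL x) ↔ T.c₃ ∈ locPow 3 v := by
  rw [fix_L_iff hφ]
  refine fix_iff_mem_locPow Nat.prime_three T.isPrimitiveRoot_ζK (hp.three_notMem hA hv)
    (hp.ord_c v (hv.natCast_mem_iff.mpr hA)) ?_ hv hφ hF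
  rw [← map_pow, T.γ_pow, algebraMap_iL]

/-- **splitting in `L`** in terms of residue degrees -/
theorem GoodPrime.absNorm_eq_iff_cube (hp : T.GoodPrime p) {w : HeightOneSpectrum (𝓞 T.L)}
    (hw : (p : 𝓞 T.L) ∈ w.asIdeal) :
    Ideal.absNorm w.asIdeal = Ideal.absNorm (w.under (𝓞 T.K)).asIdeal ↔
      T.c₃ ∈ locPow 3 (w.under (𝓞 T.K)) := by
  obtain ⟨q, A, hq, hA', h⟩ := exists_over T.iL w
  have hA : A.LiesOverPrime p := h.natCast_mem_iff.mp hw
  obtain ⟨σ, hσ⟩ := exists_isFrobeniusAt hp.prime hA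
  have hv : Over T.iK A (w.under (𝓞 T.K)) := h.under
  obtain ⟨f, hf0, hf⟩ := exists_absNorm_eq_pow hp.prime (hv.natCast_mem_iff.mpr hA)
  have hφ := hv.frob_pow_apply hp.prime hp.gK hA hσ hf
  rw [hf, h.absNorm_eq_iff hp.prime hp.gK hp.gL hA hσ hf, gh_comp_iff]
  refine hp.fix_L_iff_cube hA hv hφ ?_
  rw [hf]
  exact isFrobeniusAt_pow hσ f

/-- Two homomorphisms agreeing on the base and the generators. -/
lemma eq_of_adjoin {F F' : Type*} [Field F] [Field F'] [Algebra F F'] (i j : F' →+* Qbar)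
    {s : Set F'} (hs : IntermediateField.adjoin F s = ⊤)
    (h1 : ∀ x : F, i (algebraMap F F' x) = j (algebraMap F F' x))
    (h2 : ∀ x ∈ s, i x = j x) (x : F') : i x = j x := by
  have hx : x ∈ IntermediateField.adjoin F s := by rw [hs]; trivial
  induction hx using IntermediateField.adjoin_induction with
  | mem x hx => exact h2 x hx
  | algebraMap x => exact h1 x
  | add x y _ _ hx hy => rw [map_add, map_add, hx, hy]
  | inv x _ hx => rw [map_inv₀, map_inv₀, hx]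
  | mul x y _ _ hx hy => rw [map_mul, map_mul, hx, hy]

lemma γ_ne_zero (T : TowerFields ρ) : T.γ ≠ 0 := by
  intro h
  have h1 := T.γ_pow
  rw [h, zero_pow (by norm_num)] at h1
  exact T.c₃.ne_zero ((map_eq_zero (algebraMap T.K T.L)).mp h1.symm)

lemma θ_θ_γ (T : TowerFields ρ) : T.θ (T.θ T.γ) = algebraMap T.K T.L (T.ζ ^ 2) * T.γ := by
  rw [T.θ_γ, map_mul, T.θ_γ, AlgEquiv.commutes, map_pow]
  ring

lemma θ_cube (T : TowerFields ρ) (x : T.L) : T.θ (T.θ (T.θ x)) = x := by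
  have h1 : T.θ ^ 3 = 1 := by rw [← T.orderOf_θ, pow_orderOf_eq_one]
  have h2 := AlgEquiv.congr_fun h1 x
  rw [pow_succ, pow_succ, pow_one] at h2
  exact h2

lemma pow_fix {φ : GQ} {y : Qbar} (h : φ y = y) (m : ℕ) : (φ ^ m) y = y := by
  induction m with
  | zero => rw [pow_zero, AlgEquiv.one_apply]
  | succ m ih => rw [pow_succ, AlgEquiv.mul_apply, h, ih]

/-- **splitting in `L`** in terms of the Galois action -/
theorem GoodPrime.conj_ne_iff_cube (hp : T.GoodPrime p) {w : HeightOneSpectrum (𝓞 T.L)}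
    (hw : (p : 𝓞 T.L) ∈ w.asIdeal) :
    conj T.θ w ≠ w ↔ T.c₃ ∈ locPow 3 (w.under (𝓞 T.K)) := by
  obtain ⟨q, A, hq, hA', h⟩ := exists_over T.iL w
  have hA : A.LiesOverPrime p := h.natCast_mem_iff.mp hw
  obtain ⟨σ, hσ⟩ := exists_isFrobeniusAt hp.prime hA
  have hv : Over T.iK A (w.under (𝓞 T.K)) := h.under
  obtain ⟨f, hf0, hf⟩ := exists_absNorm_eq_pow hp.prime (hv.natCast_mem_iff.mpr hA)
  have hφ := hv.frob_pow_apply hp.prime hp.gK hA hσ hf
  have hF : A.IsFrobeniusAt (σ ^ f) (Ideal.absNorm (w.under (𝓞 T.K)).asIdeal) := by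
    rw [hf]
    exact isFrobeniusAt_pow hσ f
  rw [← hp.fix_L_iff_cube hA hv hφ hF, not_iff_comm, h.conj_eq_iff hp.prime hp.gL hA hσ]
  constructor
  · -- the Frobenius moves `L`, so `θ` is a power of it
    intro hne
    have hγ0 : T.iL T.γ ≠ 0 := fun h0 => T.γ_ne_zero (T.iL.injective (by rw [h0, map_zero]))
    have h1 : ((σ ^ f) (T.iL T.γ) / T.iL T.γ) ^ 3 = 1 := by
      rw [div_pow, ← map_pow, ← map_pow, T.γ_pow, algebraMap_iL, hφ, div_self]
      rw [← algebraMap_iL, ← T.γ_pow, map_pow]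
      exact pow_ne_zero _ hγ0
    have hζ : IsPrimitiveRoot (T.iK T.ζ) 3 := T.hζ.map_of_injective T.iK.injective
    obtain ⟨j, hj, hj'⟩ := hζ.eq_pow_of_pow_eq_one h1
    have h2 : (σ ^ f) (T.iL T.γ) = T.iK T.ζ ^ j * T.iL T.γ := ((eq_div_iff hγ0).mp hj').symm
    have hbase : ∀ x : T.K, (gh (σ ^ f)).comp T.iL (algebraMap T.K T.L x) = T.iK x := hφ
    interval_cases j
    · exact absurd ((fix_L_iff hφ).mpr (by rw [h2, pow_zero, one_mul])) hne
    · refine ⟨f, eq_of_adjoin ((gh (σ ^ f)).comp T.iL) (T.iL.comp (T.θ : T.L →+* T.L)) T.adjoin_γ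
        (fun x => ?_) (fun x hx => ?_)⟩
      · rw [hbase]
        exact (congrArg T.iL (T.θ.commutes x)).symm
      · rw [Set.mem_singleton_iff.mp hx]
        refine h2.trans ?_
        have h3 : (T.iL.comp (T.θ : T.L →+* T.L)) T.γ = T.iL (T.θ T.γ) := rfl
        rw [h3, T.θ_γ, map_mul, algebraMap_iL, pow_one]
    · have h3 : ∀ x, (σ ^ f) (T.iL x) = T.iL (T.θ (T.θ x)) := by
        refine eq_of_adjoin ((gh (σ ^ f)).comp T.iL)
          (T.iL.comp ((T.θ : T.L →+* T.L).comp (T.θ : T.L →+* T.L))) T.adjoin_γ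
          (fun x => ?_) (fun x hx => ?_)
        · rw [hbase]
          change T.iK x = T.iL (T.θ (T.θ (algebraMap T.K T.L x)))
          rw [T.θ.commutes, T.θ.commutes, algebraMap_iL]
        · rw [Set.mem_singleton_iff.mp hx]
          refine h2.trans ?_
          change _ = T.iL (T.θ (T.θ T.γ))
          rw [T.θ_θ_γ, map_mul, algebraMap_iL, map_pow]
      refine ⟨f + f, fun x => ?_⟩
      rw [pow_add, AlgEquiv.mul_apply, h3, h3, T.θ_cube]
  · rintro ⟨n, hn⟩ hfix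
    have h1 : f ∣ n := by
      rw [← hv.frob_pow_comp_iff hp.prime hp.gK hA hσ hf, gh_comp_iff]
      intro x
      have h2 := hn (algebraMap T.K T.L x)
      rw [T.θ.commutes] at h2
      exact h2
    obtain ⟨m, rfl⟩ := h1
    have h2 : ∀ x : T.L, (σ ^ (f * m)) (T.iL x) = T.iL x := by
      intro x
      rw [pow_mul]
      exact pow_fix (hfix x) m
    have h3 := hn T.γ
    rw [h2, T.θ_γ, map_mul, algebraMap_iL] at h3
    have hγ0 : T.iL T.γ ≠ 0 := fun h0 => T.γ_ne_zero (T.iL.injective (by rw [h0, map_zero]))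
    have h4 : T.iK T.ζ = 1 := (mul_eq_right₀ hγ0).mp h3.symm
    have h5 : T.ζ = 1 := T.iK.injective (by rw [h4, map_one])
    exact T.hζ.ne_one (by norm_num) h5

/-- The eigenvalue at the places above `v` split in `L` is the trace of the Frobenius at `v`. -/
theorem GoodPrime.xL_eq_K (hp : T.GoodPrime p) (hA : A.LiesOverPrime p)
    (hσ : A.IsFrobeniusAt σ p) {v : HeightOneSpectrum (𝓞 T.K)} (hv : Over T.iK A v)
    (hf : Ideal.absNorm v.asIdeal = p ^ f) (hs : T.c₃ ∈ locPow 3 v)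
    {w : HeightOneSpectrum (𝓞 T.L)} (hw : w.under (𝓞 T.K) = v) : T.xL w = tq (ρ (σ ^ f)) := by
  subst hw
  obtain ⟨q, A', hq, hA'', h⟩ := exists_over T.iL w
  have hv' : Over T.iK A' (w.under (𝓞 T.K)) := h.under
  obtain ⟨g, hg1, rfl⟩ := hv.exists_smul_eq hp.prime hp.gK hA hv'
  have hgA := liesOverPrime_smul (g := g) hA
  have hgσ := isFrobeniusAt_conj (g := g) hσ
  have hwp : (p : 𝓞 T.L) ∈ w.asIdeal := h.natCast_mem_iff.mpr hgA
  have hwf : Ideal.absNorm w.asIdeal = p ^ f := by rw [(hp.absNorm_eq_iff_cube hwp).mpr hs, hf]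
  rw [hp.xL_eq hgA hgσ h hwf, conj_pow, map_mul, map_mul, map_inv, tq_conj]

/-! ### Primes with given Frobenius -/

lemma exists_place (T : TowerFields ρ) (hp : T.GoodPrime p) (hA : A.LiesOverPrime p)
    {v : HeightOneSpectrum (𝓞 T.K)} (hv : (p : 𝓞 T.K) ∈ v.asIdeal) :
    ∃ g : GQ, Over T.iK (g • A) v := by
  obtain ⟨q, A', hq, hA'', h⟩ := exists_over T.iK v
  have hA' : A'.LiesOverPrime p := h.natCast_mem_iff.mp hv
  obtain ⟨g, rfl⟩ := Frob.exists_smul_eq hp.prime hA hA'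
  exact ⟨g, h⟩

/-- If `ρ (Frob_p)` lies in `Q₈`, every place of `K` above `p` has degree one and splits in `L`. -/
theorem GoodPrime.split_of_det_one (hp : T.GoodPrime p) (hA : A.LiesOverPrime p)
    (hσ : A.IsFrobeniusAt σ p) (h1 : (ρ σ).1.det = 1) (h4 : ρ σ ^ 4 = 1)
    {v : HeightOneSpectrum (𝓞 T.K)} (hv : (p : 𝓞 T.K) ∈ v.asIdeal) :
    Ideal.absNorm v.asIdeal = p ∧ T.c₃ ∈ locPow 3 v ∧
      ∀ w : HeightOneSpectrum (𝓞 T.L), w.under (𝓞 T.K) = v → T.xL w = tq (ρ σ) := by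
  obtain ⟨g, hg⟩ := T.exists_place hp hA hv
  have hgA := liesOverPrime_smul (g := g) hA
  have hgσ := isFrobeniusAt_conj (g := g) hσ
  have e : ρ (g * σ * g⁻¹) = ρ g * ρ σ * (ρ g)⁻¹ := by rw [map_mul, map_mul, map_inv]
  have h1' : (ρ (g * σ * g⁻¹)).1.det = 1 := by
    rw [e, Units.val_mul, Units.val_mul, Matrix.det_mul, Matrix.det_mul, h1, mul_one,
      ← Matrix.det_mul, ← Units.val_mul, mul_inv_cancel, Units.val_one, Matrix.det_one]
  have h4' : ρ (g * σ * g⁻¹) ^ 4 = 1 := by rw [e, conj_pow, h4, mul_one, mul_inv_cancel]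
  have hfixK := (T.fix_K (g * σ * g⁻¹)).mpr h1'
  have hfixL := (T.fix_L (g * σ * g⁻¹)).mpr ⟨h1', h4'⟩
  obtain ⟨f, hf0, hf⟩ := exists_absNorm_eq_pow hp.prime hv
  have hf1 : f = 1 := by
    have := (hg.frob_pow_comp_iff hp.prime hp.gK hgA hgσ hf 1).mp (by
      rw [pow_one]; exact (gh_comp_iff _ _).mpr hfixK)
    exact Nat.dvd_one.mp this
  subst hf1
  have hF : (g • A).IsFrobeniusAt (g * σ * g⁻¹) (Ideal.absNorm v.asIdeal) := by
    rw [hf, pow_one]; exact hgσ
  have hs := (hp.fix_L_iff_cube hgA hg hfixK hF).mp hfixL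
  refine ⟨by rw [hf, pow_one], hs, fun w hw => ?_⟩
  rw [hp.xL_eq_K hgA hgσ hg hf hs hw, pow_one, e, tq_conj]

/-! ### The elements of determinant `-1` -/

lemma sq_eq_of_det {M : Matrix (Fin 2) (Fin 2) (ZMod 3)} (h : M.det = -1) :
    M ^ 2 = M.trace • M + 1 := by
  rw [matrix_sq, h, neg_smul, one_smul, sub_neg_eq_add]

lemma pow_eight_of_det {g : G3} (h : g.1.det = -1) : g ^ 8 = 1 := by
  have h3 : (3 : ZMod 3) = 0 := rfl
  have h1 := sq_eq_of_det h
  set t := g.1.trace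
  have ht : t ^ 3 + 2 * t = 0 := by
    generalize t = u
    revert u
    decide
  have ht2 : (t ^ 2 + 1) ^ 2 = 1 := by
    generalize t = u
    revert u
    decide
  have h4 : g.1 ^ 4 = (t ^ 2 + 1) • (1 : Matrix (Fin 2) (Fin 2) (ZMod 3)) := by
    have e : g.1 ^ 4 = (g.1 ^ 2) ^ 2 := by rw [← pow_mul]
    have e2 : (t • g.1 + 1) ^ 2 = t ^ 2 • (g.1 ^ 2) + (2 * t) • g.1 + 1 := by
      rw [pow_two, add_mul, mul_add, mul_one, one_mul, smul_mul_smul_comm, ← pow_two, ← pow_two,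
        two_mul, add_smul]
      abel
    have e3 : t ^ 2 • (t • g.1 + 1) + (2 * t) • g.1 + 1 =
        (t ^ 3 + 2 * t) • g.1 + (t ^ 2 + 1) • (1 : Matrix (Fin 2) (Fin 2) (ZMod 3)) := by
      rw [smul_add, smul_smul, add_smul, add_smul, one_smul, ← pow_succ]
      abel
    rw [e, h1, e2, h1, e3, ht, zero_smul, zero_add]
  apply Units.ext
  rw [Units.val_pow_eq_pow_val, Units.val_one]
  have e : g.1 ^ 8 = (g.1 ^ 4) ^ 2 := by rw [← pow_mul]
  rw [e, h4, smul_pow, one_pow, ht2, one_smul]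

lemma mul_self_ne_neg_one {g : G3} (h : g.1.det = -1) : g * g ≠ -1 := by
  intro h0
  have h1 := sq_eq_of_det h
  have h2 : g.1 ^ 2 = -1 := by
    rw [pow_two, ← Units.val_mul, h0, Units.val_neg, Units.val_one]
  rw [h2] at h1
  have h3 : g.1.trace • g.1 = 1 := by
    have h4 : g.1.trace • g.1 = -1 - 1 := by rw [eq_sub_iff_add_eq]; exact h1.symm
    rw [h4]
    decide
  have h6 := congrArg Matrix.det h3
  rw [Matrix.det_smul, h, Matrix.det_one, Fintype.card_fin] at h6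
  generalize g.1.trace = u at h6
  revert u
  decide

/-- `K` is quadratic: the inert primes. -/
theorem GoodPrime.inert_of_det_neg_one (hp : T.GoodPrime p) (hA : A.LiesOverPrime p)
    (hσ : A.IsFrobeniusAt σ p) (h1 : (ρ σ).1.det = -1) {v : HeightOneSpectrum (𝓞 T.K)}
    (hv : (p : 𝓞 T.K) ∈ v.asIdeal) :
    Ideal.absNorm v.asIdeal = p ^ 2 ∧ T.c₃ ∈ locPow 3 v ∧
      ∀ w : HeightOneSpectrum (𝓞 T.L), w.under (𝓞 T.K) = v → T.xL w = tq (ρ σ * ρ σ) := by
  obtain ⟨g, hg⟩ := T.exists_place hp hA hv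
  have hgA := liesOverPrime_smul (g := g) hA
  have hgσ := isFrobeniusAt_conj (g := g) hσ
  set σ' := g * σ * g⁻¹ with hσ'
  have e : ρ σ' = ρ g * ρ σ * (ρ g)⁻¹ := by rw [hσ', map_mul, map_mul, map_inv]
  have e2 : ρ (σ' ^ 2) = ρ g * (ρ σ * ρ σ) * (ρ g)⁻¹ := by
    rw [map_pow, e, conj_pow, pow_two (ρ σ)]
  have h1' : (ρ σ').1.det = -1 := by
    rw [e, Units.val_mul, Units.val_mul, Matrix.det_mul, Matrix.det_mul, h1]
    have h2 : (ρ g).1.det * ((ρ g)⁻¹).1.det = 1 := by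
      rw [← Matrix.det_mul, ← Units.val_mul, mul_inv_cancel, Units.val_one, Matrix.det_one]
    linear_combination -h2
  have h2 : (ρ (σ' ^ 2)).1.det = 1 := by
    rw [map_pow, Units.val_pow_eq_pow_val, Matrix.det_pow, h1']
    norm_num
  have h4 : ρ (σ' ^ 2) ^ 4 = 1 := by rw [map_pow, ← pow_mul, pow_eight_of_det h1']
  have hfixK := (T.fix_K (σ' ^ 2)).mpr h2
  have hfixL := (T.fix_L (σ' ^ 2)).mpr ⟨h2, h4⟩
  obtain ⟨f, hf0, hf⟩ := exists_absNorm_eq_pow hp.prime hv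
  have hf2 : f ∣ 2 := (hg.frob_pow_comp_iff hp.prime hp.gK hgA hgσ hf 2).mp
    ((gh_comp_iff _ _).mpr hfixK)
  have hf1 : f ≠ 1 := by
    rintro rfl
    have h5 := (gh_comp_iff _ _).mp ((hg.frob_pow_comp_iff hp.prime hp.gK hgA hgσ hf 1).mpr dvd_rfl)
    rw [pow_one] at h5
    have h6 := (T.fix_K σ').mp h5
    rw [h1'] at h6
    exact absurd h6 (by decide)
  have hf' : f = 2 := ((Nat.dvd_prime Nat.prime_two).mp hf2).resolve_left hf1
  subst hf'
  have hF : (g • A).IsFrobeniusAt (σ' ^ 2) (Ideal.absNorm v.asIdeal) := by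
    rw [hf]
    exact isFrobeniusAt_pow hgσ 2
  have hs := (hp.fix_L_iff_cube hgA hg hfixK hF).mp hfixL
  refine ⟨hf, hs, fun w hw => ?_⟩
  rw [hp.xL_eq_K hgA hgσ hg hf hs hw, e2, tq_conj]

/-- an inert prime generates its place -/
lemma asIdeal_eq_span (T : TowerFields ρ) (hp : p.Prime) {v : HeightOneSpectrum (𝓞 T.K)}
    (hv : (p : 𝓞 T.K) ∈ v.asIdeal) (hN : Ideal.absNorm v.asIdeal = p ^ 2) :
    v.asIdeal = Ideal.span {(p : 𝓞 T.K)} := by
  have h1 : Ideal.absNorm (Ideal.span {(p : 𝓞 T.K)}) = p ^ 2 := by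
    rw [Ideal.absNorm_span_natCast, RingOfIntegers.rank, T.finrank_K]
  obtain ⟨J, hJ⟩ := Ideal.dvd_iff_le.mpr ((Ideal.span_singleton_le_iff_mem _).mpr hv)
  have h2 : Ideal.absNorm J = 1 := by
    have h3 := congrArg Ideal.absNorm hJ
    rw [map_mul, h1, hN] at h3
    have h4 : 0 < p ^ 2 := pow_pos hp.pos 2
    nlinarith
  rw [Ideal.absNorm_eq_one_iff] at h2
  rw [hJ, h2, Ideal.mul_top]

end TowerFields

end Fermat.Agent.LT.Tower
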