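import Fermat.Agent.LT.Tower.Fields
import Fermat.Agent.LT.Tower.Kum
import Fermat.Agent.LT.Psi.Trace

/-!
# The system of eigenvalues of the tower

`xL w`, `w` a place of `L`: the value `2`, `-2` or `0`, defined by local squares (helper54's `xw`),
and equal to `tq (ρ (Frob_w))`.
-/

set_option autoImplicit false

namespace Fermat.Agent.LT.Tower

open NumberField IsDedekindDomain Fermat.Agent.Frob Fermat.Agent.FrobDensity Fr
open Fermat.Agent.CFT.SUnits (ord ord_mul ord_inv ord_pow ord_div ord_eq_zero_iff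
  valuation_eq_exp_neg_ord finite_ord_ne_zero)
open Fermat.Agent.CFT.Global (locPow)
open Fermat.Agent.CFT.Places
open Psi (kum kum_eq_zero_iff)
open scoped Pointwise

local notation "Qbar" => AlgebraicClosure ℚ
local notation "G3" => Matrix.GeneralLinearGroup (Fin 2) (ZMod 3)

/-- the trace on the quaternion group -/
def tq (g : G3) : ℤ := if g = 1 then 2 else if g = -1 then -2 else 0

@[simp] lemma tq_one : tq 1 = 2 := rfl

lemma one_ne_neg_one : (1 : G3) ≠ -1 := by decide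

@[simp] lemma tq_neg_one : tq (-1) = -2 := by rw [tq, if_neg one_ne_neg_one.symm, if_pos rfl]

lemma tq_of_ne {g : G3} (h1 : g ≠ 1) (h2 : g ≠ -1) : tq g = 0 := by rw [tq, if_neg h1, if_neg h2]

lemma conj_eq_one_iff' (g h : G3) : h * g * h⁻¹ = 1 ↔ g = 1 := conj_eq_one_iff

lemma conj_eq_neg_one_iff (g h : G3) : h * g * h⁻¹ = -1 ↔ g = -1 := by
  constructor
  · intro h1
    have h2 : g = h⁻¹ * (h * g * h⁻¹) * h := by group
    rw [h2, h1]
    simp
  · rintro rfl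
    simp

lemma tq_conj (g h : G3) : tq (h * g * h⁻¹) = tq g := by
  rw [tq, tq]
  simp only [conj_eq_one_iff', conj_eq_neg_one_iff]

section ords

variable {F : Type*} [Field F] [NumberField F]

/-- an element is a unit at almost all primes -/
lemma exists_ord_eq_zero (x : Fˣ) : ∃ D : ℕ, D ≠ 0 ∧ ∀ p : ℕ, p.Prime → ¬ p ∣ D →
    ∀ v : HeightOneSpectrum (𝓞 F), (p : 𝓞 F) ∈ v.asIdeal → ord v x = 0 := by
  refine ⟨∏ v ∈ (finite_ord_ne_zero (R := 𝓞 F) F x).toFinset, Ideal.absNorm v.asIdeal, ?_, ?_⟩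
  · rw [Finset.prod_ne_zero_iff]
    intro v _
    rw [Ne, Ideal.absNorm_eq_zero_iff]
    exact v.ne_bot
  · intro p hp hpD v hpv
    by_contra h
    apply hpD
    obtain ⟨f, hf0, hf⟩ := exists_absNorm_eq_pow hp hpv
    refine dvd_trans ?_ (Finset.dvd_prod_of_mem _ ((finite_ord_ne_zero (R := 𝓞 F) F x).mem_toFinset.mpr h))
    rw [hf]
    exact dvd_pow_self p hf0.ne'

end ords

namespace TowerFields

variable {ρ : GQ →* G3} (T : TowerFields ρ)

/-- a prime which is good for the tower -/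
structure GoodPrime (p : ℕ) : Prop where
  prime : p.Prime
  gK : Good T.K p
  gL : Good T.L p
  gM : Good T.M p
  ne_two : p ≠ 2
  ne_three : p ≠ 3
  ord_c : ∀ v : HeightOneSpectrum (𝓞 T.K), (p : 𝓞 T.K) ∈ v.asIdeal → ord v T.c₃ = 0
  ord_a : ∀ w : HeightOneSpectrum (𝓞 T.L), (p : 𝓞 T.L) ∈ w.asIdeal → ord w T.a = 0
  ord_b : ∀ w : HeightOneSpectrum (𝓞 T.L), (p : 𝓞 T.L) ∈ w.asIdeal → ord w T.b = 0
  ord_d : ∀ Q : HeightOneSpectrum (𝓞 T.M), (p : 𝓞 T.M) ∈ Q.asIdeal → ord Q T.d = 0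

theorem exists_goodPrime : ∃ D : ℕ, D ≠ 0 ∧ ∀ p : ℕ, p.Prime → ¬ p ∣ D → T.GoodPrime p := by
  obtain ⟨D1, h1, g1⟩ := exists_good T.K
  obtain ⟨D2, h2, g2⟩ := exists_good T.L
  obtain ⟨D3, h3, g3⟩ := exists_good T.M
  obtain ⟨D4, h4, g4⟩ := exists_ord_eq_zero T.c₃
  obtain ⟨D5, h5, g5⟩ := exists_ord_eq_zero T.a
  obtain ⟨D6, h6, g6⟩ := exists_ord_eq_zero T.b
  obtain ⟨D7, h7, g7⟩ := exists_ord_eq_zero T.d
  refine ⟨6 * D1 * D2 * D3 * D4 * D5 * D6 * D7, by positivity, fun p hp hpD => ?_⟩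
  have n7 : ¬ p ∣ D7 := fun h => hpD (h.mul_left _)
  have n6 : ¬ p ∣ D6 := fun h => hpD ((h.mul_left _).mul_right _)
  have n5 : ¬ p ∣ D5 := fun h => hpD (((h.mul_left _).mul_right _).mul_right _)
  have n4 : ¬ p ∣ D4 := fun h => hpD ((((h.mul_left _).mul_right _).mul_right _).mul_right _)
  have n3 : ¬ p ∣ D3 := fun h =>
    hpD (((((h.mul_left _).mul_right _).mul_right _).mul_right _).mul_right _)
  have n2 : ¬ p ∣ D2 := fun h =>
    hpD ((((((h.mul_left _).mul_right _).mul_right _).mul_right _).mul_right _).mul_right _)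
  have n1 : ¬ p ∣ D1 := fun h =>
    hpD (((((((h.mul_left _).mul_right _).mul_right _).mul_right _).mul_right _).mul_right
      _).mul_right _)
  have n0 : ¬ p ∣ 6 := fun h =>
    hpD (((((((h.mul_right _).mul_right _).mul_right _).mul_right _).mul_right _).mul_right
      _).mul_right _)
  exact ⟨hp, g1 p hp n1, g2 p hp n2, g3 p hp n3, fun h => n0 (by rw [h]; norm_num),
    fun h => n0 (by rw [h]; norm_num), g4 p hp n4, g5 p hp n5, g6 p hp n6, g7 p hp n7⟩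

open Classical in
/-- the system of eigenvalues on the places of `L` -/
noncomputable def xL (w : HeightOneSpectrum (𝓞 T.L)) : ℤ :=
  if T.a ∈ locPow 2 w ∧ T.b ∈ locPow 2 w then
    (if ∃ Q : HeightOneSpectrum (𝓞 T.M), Q.under (𝓞 T.L) = w ∧ kum T.d Q = 0 then 2 else -2)
  else 0

lemma iL_apply (x : T.L) : T.iL x = T.i (algebraMap T.L T.M x) := rfl

lemma iK_apply (x : T.K) : T.iK x = T.i (algebraMap T.L T.M (algebraMap T.K T.L x)) := rfl

lemma gh_comp_iff {F : Type*} [Field F] (i : F →+* Qbar) (g : GQ) :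
    (gh g).comp i = i ↔ ∀ x, g (i x) = i x := by
  constructor
  · intro h x
    exact RingHom.congr_fun h x
  · intro h
    exact RingHom.ext h

lemma isPrimitiveRoot_neg_one (F : Type*) [Field F] [NumberField F] :
    IsPrimitiveRoot (-1 : 𝓞 F) 2 := IsPrimitiveRoot.neg_one 0 (by norm_num)

variable {T} {p f : ℕ} {A : ValuationSubring Qbar} {σ : GQ}

lemma GoodPrime.two_notMem (hp : T.GoodPrime p) (hA : A.LiesOverPrime p) {F : Type*} [Field F]
    [NumberField F] {i : F →+* Qbar} {v : HeightOneSpectrum (𝓞 F)} (h : Over i A v) :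
    ((2 : ℕ) : 𝓞 F) ∉ v.asIdeal := fun h2 =>
  hp.ne_two (prime_unique hp.prime Nat.prime_two (h.natCast_mem_iff.mpr hA) h2)

lemma GoodPrime.three_notMem (hp : T.GoodPrime p) (hA : A.LiesOverPrime p) {F : Type*} [Field F]
    [NumberField F] {i : F →+* Qbar} {v : HeightOneSpectrum (𝓞 F)} (h : Over i A v) :
    ((3 : ℕ) : 𝓞 F) ∉ v.asIdeal := fun h2 =>
  hp.ne_three (prime_unique hp.prime Nat.prime_three (h.natCast_mem_iff.mpr hA) h2)

/-- A homomorphism fixing the base and the generators. -/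
lemma fix_of_adjoin {F F' : Type*} [Field F] [Field F'] [Algebra F F'] (i : F' →+* Qbar) (φ : GQ)
    {s : Set F'} (hs : IntermediateField.adjoin F s = ⊤)
    (h1 : ∀ x : F, φ (i (algebraMap F F' x)) = i (algebraMap F F' x))
    (h2 : ∀ x ∈ s, φ (i x) = i x) (x : F') : φ (i x) = i x := by
  have hx : x ∈ IntermediateField.adjoin F s := by rw [hs]; trivial
  induction hx using IntermediateField.adjoin_induction with
  | mem x hx => exact h2 x hx
  | algebraMap x => exact h1 x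
  | add x y _ _ hx hy => rw [map_add, map_add, hx, hy]
  | inv x _ hx => rw [map_inv₀, map_inv₀, hx]
  | mul x y _ _ hx hy => rw [map_mul, map_mul, hx, hy]

/-- fixing `M` in terms of the two square roots -/
lemma fix_M_iff {φ : GQ} (hφ : ∀ x : T.L, φ (T.iL x) = T.iL x) :
    (∀ x : T.M, φ (T.i x) = T.i x) ↔
      φ (T.i (algebraMap T.E T.M T.α)) = T.i (algebraMap T.E T.M T.α) ∧
        φ (T.i T.β) = T.i T.β := by
  constructor
  · intro h
    exact ⟨h _, h _⟩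
  · rintro ⟨h1, h2⟩
    have hE : ∀ x : T.E, φ (T.iE x) = T.iE x := by
      refine fix_of_adjoin T.iE φ T.adjoin_α (fun x => ?_) (fun x hx => ?_)
      · have e : T.iE (algebraMap T.L T.E x) = T.iL x := by
          rw [iE, RingHom.comp_apply, ← IsScalarTower.algebraMap_apply, iL_apply]
        rw [e, hφ]
      · rw [Set.mem_singleton_iff.mp hx]
        exact h1
    refine fix_of_adjoin T.i φ T.adjoin_β hE (fun x hx => ?_)
    rw [Set.mem_singleton_iff.mp hx]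
    exact h2

/-- `φ` acts as the Frobenius at `w` -/
lemma GoodPrime.fix_a_iff (hp : T.GoodPrime p) (hA : A.LiesOverPrime p)
    {w : HeightOneSpectrum (𝓞 T.L)} (hw : Over T.iL A w) {φ : GQ}
    (hφ : ∀ x : T.L, φ (T.iL x) = T.iL x) (hF : A.IsFrobeniusAt φ (Ideal.absNorm w.asIdeal)) :
    φ (T.i (algebraMap T.E T.M T.α)) = T.i (algebraMap T.E T.M T.α) ↔ T.a ∈ locPow 2 w := by
  refine fix_iff_mem_locPow Nat.prime_two (isPrimitiveRoot_neg_one T.L) (hp.two_notMem hA hw)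
    (hp.ord_a w (hw.natCast_mem_iff.mpr hA)) ?_ hw hφ hF
  rw [← map_pow, ← map_pow, T.sq_α, ← IsScalarTower.algebraMap_apply, iL_apply]

lemma GoodPrime.fix_b_iff (hp : T.GoodPrime p) (hA : A.LiesOverPrime p)
    {w : HeightOneSpectrum (𝓞 T.L)} (hw : Over T.iL A w) {φ : GQ}
    (hφ : ∀ x : T.L, φ (T.iL x) = T.iL x) (hF : A.IsFrobeniusAt φ (Ideal.absNorm w.asIdeal)) :
    φ (T.i T.β) = T.i T.β ↔ T.b ∈ locPow 2 w := by
  refine fix_iff_mem_locPow Nat.prime_two (isPrimitiveRoot_neg_one T.L) (hp.two_notMem hA hw)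
    (hp.ord_b w (hw.natCast_mem_iff.mpr hA)) ?_ hw hφ hF
  rw [← map_pow, T.sq_β, iL_apply]

lemma GoodPrime.fix_δ_iff (hp : T.GoodPrime p) (hA : A.LiesOverPrime p)
    {Q : HeightOneSpectrum (𝓞 T.M)} (hQ : Over T.i A Q) {φ : GQ}
    (hφ : ∀ x : T.M, φ (T.i x) = T.i x) (hF : A.IsFrobeniusAt φ (Ideal.absNorm Q.asIdeal)) :
    φ T.δ = T.δ ↔ T.d ∈ locPow 2 Q :=
  fix_iff_mem_locPow Nat.prime_two (isPrimitiveRoot_neg_one T.M) (hp.two_notMem hA hQ)
    (hp.ord_d Q (hQ.natCast_mem_iff.mpr hA)) T.δ_sq hQ hφ hF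

/-- at a place of `M` with central Frobenius -/
lemma GoodPrime.kum_eq_zero_iff (hp : T.GoodPrime p) (hA : A.LiesOverPrime p)
    (hσ : A.IsFrobeniusAt σ p) {Q : HeightOneSpectrum (𝓞 T.M)} (hQ : Over T.i A Q)
    (hf : Ideal.absNorm (Q.under (𝓞 T.L)).asIdeal = p ^ f)
    (h : ρ (σ ^ f) = 1 ∨ ρ (σ ^ f) = -1) : kum T.d Q = 0 ↔ ρ (σ ^ f) = 1 := by
  have hfix := (T.fix_M (σ ^ f)).mpr h
  have hQf : Ideal.absNorm Q.asIdeal = p ^ f :=
    (hQ.absNorm_eq_iff hp.prime hp.gL hp.gM hA hσ hf).mpr ((gh_comp_iff T.i _).mpr hfix)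
  rw [Psi.kum_eq_zero_iff, ← T.fix_δ (σ ^ f) h]
  refine (hp.fix_δ_iff hA hQ hfix ?_).symm
  rw [hQf]
  exact isFrobeniusAt_pow hσ f

/-- **The eigenvalue `xL w` is the trace of Frobenius.** -/
theorem GoodPrime.xL_eq (hp : T.GoodPrime p) (hA : A.LiesOverPrime p)
    (hσ : A.IsFrobeniusAt σ p) {w : HeightOneSpectrum (𝓞 T.L)} (hw : Over T.iL A w)
    (hf : Ideal.absNorm w.asIdeal = p ^ f) : T.xL w = tq (ρ (σ ^ f)) := by
  have hφ : ∀ x, (σ ^ f) (T.iL x) = T.iL x := hw.frob_pow_apply hp.prime hp.gL hA hσ hf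
  have hF : A.IsFrobeniusAt (σ ^ f) (Ideal.absNorm w.asIdeal) := by
    rw [hf]
    exact isFrobeniusAt_pow hσ f
  have key : (T.a ∈ locPow 2 w ∧ T.b ∈ locPow 2 w) ↔ (ρ (σ ^ f) = 1 ∨ ρ (σ ^ f) = -1) := by
    rw [← hp.fix_a_iff hA hw hφ hF, ← hp.fix_b_iff hA hw hφ hF, ← fix_M_iff hφ]
    exact T.fix_M _
  rw [xL]
  by_cases h : ρ (σ ^ f) = 1 ∨ ρ (σ ^ f) = -1
  · rw [if_pos (key.mpr h)]
    have hQ : ∀ Q : HeightOneSpectrum (𝓞 T.M), Q.under (𝓞 T.L) = w →
        (kum T.d Q = 0 ↔ ρ (σ ^ f) = 1) := by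
      intro Q hQw
      obtain ⟨q, A', hq, hA', hQA'⟩ := exists_over T.i Q
      have hwA' : Over T.iL A' w := by rw [← hQw]; exact hQA'.under
      obtain ⟨g, hg1, rfl⟩ := hw.exists_smul_eq hp.prime hp.gL hA hwA'
      have hgA := liesOverPrime_smul (g := g) hA
      have hgσ := isFrobeniusAt_conj (g := g) hσ
      have e : ρ ((g * σ * g⁻¹) ^ f) = ρ g * ρ (σ ^ f) * (ρ g)⁻¹ := by
        rw [conj_pow, map_mul, map_mul, map_inv]
      have h' : ρ ((g * σ * g⁻¹) ^ f) = 1 ∨ ρ ((g * σ * g⁻¹) ^ f) = -1 := by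
        rw [e, conj_eq_one_iff', conj_eq_neg_one_iff]
        exact h
      rw [hp.kum_eq_zero_iff hgA hgσ hQA' (by rw [hQw]; exact hf) h', e, conj_eq_one_iff']
    obtain ⟨Q₀, hQ₀⟩ := exists_below_eq T.M w
    by_cases h1 : ρ (σ ^ f) = 1
    · rw [if_pos ⟨Q₀, hQ₀, (hQ Q₀ hQ₀).mpr h1⟩, h1, tq_one]
    · rw [if_neg, h.resolve_left h1, tq_neg_one]
      rintro ⟨Q, hQw, hQ0⟩
      exact h1 ((hQ Q hQw).mp hQ0)
  · rw [if_neg (fun h' => h (key.mp h'))]
    push Not at h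
    rw [tq_of_ne h.1 h.2]

end TowerFields

end Fermat.Agent.LT.Tower
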