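import Fermat.Agent.LT.Tower.SysK
import Fermat.Agent.LTF.DeepCheb

/-!
# Outputs of the tower: the place `u`, the values, the system over `K`
-/

set_option autoImplicit false

namespace Fermat.Agent.LT.Tower

open NumberField IsDedekindDomain Fermat.Agent.Frob Fermat.Agent.FrobDensity Fr
open Fermat.Agent.CFT.SUnits (ord ord_eq_zero_iff finite_ord_ne_zero)
open Fermat.Agent.CFT.Global (locPow)
open Fermat.Agent.CFT.Places
open Psi (kum)
open scoped Pointwise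

local notation "Qbar" => AlgebraicClosure ℚ
local notation "G3" => Matrix.GeneralLinearGroup (Fin 2) (ZMod 3)

/-- an element of order four in `SL₂(𝔽₃)` -/
def gFour : G3 where
  val := !![0, 1; -1, 0]
  inv := !![0, -1; 1, 0]
  val_inv := by decide
  inv_val := by decide

lemma det_gFour : gFour.1.det = 1 := by decide

lemma gFour_mul_self : gFour * gFour = -1 := by decide

lemma gFour_pow_four : gFour ^ 4 = 1 := by
  have : gFour ^ 4 = (gFour * gFour) * (gFour * gFour) := by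
    rw [← pow_two, ← pow_two, ← pow_mul]
  rw [this, gFour_mul_self]
  decide

lemma tq_gFour : tq gFour = 0 := tq_of_ne (by decide) (by decide)

/-- finitely many places contain a given nonzero integer -/
lemma finite_places (F : Type*) [Field F] [NumberField F] {N : ℕ} (hN : N ≠ 0) :
    {v : HeightOneSpectrum (𝓞 F) | (N : 𝓞 F) ∈ v.asIdeal}.Finite := by
  have h0 : (N : F) ≠ 0 := Nat.cast_ne_zero.mpr hN
  refine (finite_ord_ne_zero (R := 𝓞 F) F (Units.mk0 (N : F) h0)).subset ?_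
  intro v hv
  change ord v (Units.mk0 (N : F) h0) ≠ 0
  rw [Ne, ord_eq_zero_iff, Units.val_mk0]
  intro h
  have h1 : v.valuation F (algebraMap (𝓞 F) F (N : 𝓞 F)) < 1 :=
    (v.valuation_lt_one_iff_mem (K := F) _).mpr hv
  rw [map_natCast, h] at h1
  exact lt_irrefl _ h1

namespace TowerFields

variable {ρ : GQ →* G3} (T : TowerFields ρ)

/-- the values of the system -/
theorem xL_val (w : HeightOneSpectrum (𝓞 T.L)) :
    (T.xL w = 0 ∧ ¬ (T.a ∈ locPow 2 w ∧ T.b ∈ locPow 2 w)) ∨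
      ((T.xL w = 2 ∨ T.xL w = -2) ∧ T.a ∈ locPow 2 w ∧ T.b ∈ locPow 2 w) := by
  rw [xL]
  split_ifs with h h'
  · exact Or.inr ⟨Or.inl rfl, h⟩
  · exact Or.inr ⟨Or.inr rfl, h⟩
  · exact Or.inl ⟨rfl, h⟩

/-- **The place `u`.** -/
theorem exists_u (hρ : Continuous ρ) (hsurj : Function.Surjective ρ)
    {S : Set (HeightOneSpectrum (𝓞 T.L))} (hS : S.Finite) :
    ∃ w, w ∉ S ∧ (Ideal.absNorm w.asIdeal).Prime ∧
      Ideal.absNorm w.asIdeal = Ideal.absNorm (w.under (𝓞 T.K)).asIdeal ∧ T.xL w = 0 := by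
  classical
  obtain ⟨D, hD0, hD⟩ := T.exists_goodPrime
  obtain ⟨σ₀, hσ₀⟩ := hsurj gFour
  obtain ⟨L₁, hL₁, h1⟩ : ∃ L : IntermediateField ℚ (AlgebraicClosure ℚ), FiniteDimensional ℚ L ∧
      ∀ σ : GQ, (∀ x ∈ L, σ x = x) → ρ σ = 1 := by
    have h1 : IsOpen (ρ ⁻¹' {1}) := (isOpen_discrete ({1} : Set G3)).preimage hρ
    have h2 : ρ ⁻¹' {1} ∈ nhds (1 : GQ) := h1.mem_nhds (by simp)
    obtain ⟨E, hE, hE'⟩ := (krullTopology_mem_nhds_one_iff ℚ (AlgebraicClosure ℚ) _).mp h2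
    refine ⟨E, hE, fun σ hσ => hE' ?_⟩
    exact (IntermediateField.mem_fixingSubgroup_iff _ _).mpr hσ
  obtain ⟨q, hq, hqB, A, hA, -, φ, hφ, h3⟩ := LTF.Deep.exists_frob_eq_on L₁ σ₀
    (D.primeFactors ∪ hS.toFinset.biUnion (fun w => (Ideal.absNorm w.asIdeal).primeFactors))
  rw [Finset.mem_union, not_or] at hqB
  have hqD : ¬ q ∣ D := fun h => hqB.1 (Nat.mem_primeFactors.mpr ⟨hq, h, hD0⟩)
  have hg := hD q hq hqD
  have hρφ : ρ φ = gFour := by
    have h4 : ρ (σ₀⁻¹ * φ) = 1 := by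
      apply h1
      intro x hx
      rw [AlgEquiv.mul_apply, h3 x hx, ← AlgEquiv.mul_apply, inv_mul_cancel,
        AlgEquiv.one_apply]
    rw [map_mul, map_inv, inv_mul_eq_one] at h4
    rw [← h4, hσ₀]
  obtain ⟨w, hw⟩ := exists_over_of_liesOver T.iL hq hA
  have hv : Over T.iK A (w.under (𝓞 T.K)) := hw.under
  obtain ⟨hv1, hv2, hv3⟩ := hg.split_of_det_one hA hφ (by rw [hρφ]; exact det_gFour)
    (by rw [hρφ]; exact gFour_pow_four) (hv.natCast_mem_iff.mpr hA)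
  have hwq := hw.natCast_mem_iff.mpr hA
  have hwN := (hg.absNorm_eq_iff_cube hwq).mpr hv2
  refine ⟨w, ?_, ?_, hwN, ?_⟩
  · intro hwS
    apply hqB.2
    rw [Finset.mem_biUnion]
    refine ⟨w, hS.mem_toFinset.mpr hwS, ?_⟩
    rw [hwN, hv1, Nat.mem_primeFactors]
    exact ⟨hq, dvd_rfl, hq.ne_zero⟩
  · rw [hwN, hv1]
    exact hq
  · rw [hv3 w rfl, hρφ, tq_gFour]

/-- **The system over `K`.** A function `lam` on `𝓞 K` with the values of the system at the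
generators of the places which split in `L` has the values prescribed by `ρ`. -/
theorem lam_values {N : ℕ} (hN : ∀ p : ℕ, p.Prime → ¬ p ∣ N → T.GoodPrime p) (lam : 𝓞 T.K → ℝ)
    (hlam : ∀ (ϖ : 𝓞 T.K) (w : HeightOneSpectrum (𝓞 T.L)),
      (w.under (𝓞 T.K)).asIdeal = Ideal.span {ϖ} →
      (N : 𝓞 T.K) ∉ (w.under (𝓞 T.K)).asIdeal →
      Ideal.absNorm w.asIdeal = Ideal.absNorm (w.under (𝓞 T.K)).asIdeal → lam ϖ = T.xL w)
    {p : ℕ} (hp : p.Prime) (hpN : ¬ p ∣ N) {A : ValuationSubring Qbar} (hA : A.LiesOverPrime p)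
    {σ : GQ} (hσ : A.IsFrobeniusAt σ p) :
    ((ρ σ = 1 ∨ ρ σ = -1) → ∀ ϖ : 𝓞 T.K, Prime ϖ → ϖ ∣ (p : 𝓞 T.K) → lam ϖ = tq (ρ σ)) ∧
      ((ρ σ).1.det = -1 → lam (p : 𝓞 T.K) = tq (ρ σ * ρ σ)) := by
  have hg := hN p hp hpN
  have hNv : ∀ v : HeightOneSpectrum (𝓞 T.K), (p : 𝓞 T.K) ∈ v.asIdeal →
      (N : 𝓞 T.K) ∉ v.asIdeal := by
    intro v hv hNv
    have h1 : IsCoprime (p : ℤ) (N : ℤ) :=
      Nat.isCoprime_iff_coprime.mpr ((Nat.Prime.coprime_iff_not_dvd hp).mpr hpN)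
    obtain ⟨a, b, hab⟩ := h1
    apply v.isPrime.ne_top
    rw [Ideal.eq_top_iff_one]
    have h2 : (1 : 𝓞 T.K) = (a : 𝓞 T.K) * (p : 𝓞 T.K) + (b : 𝓞 T.K) * (N : 𝓞 T.K) := by
      exact_mod_cast congrArg (fun z : ℤ => (z : 𝓞 T.K)) hab.symm
    rw [h2]
    exact v.asIdeal.add_mem (v.asIdeal.mul_mem_left _ hv) (v.asIdeal.mul_mem_left _ hNv)
  constructor
  · intro h1 ϖ hϖ hϖp
    let v : HeightOneSpectrum (𝓞 T.K) :=
      ⟨Ideal.span {ϖ}, (Ideal.span_singleton_prime hϖ.ne_zero).mpr hϖ, by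
        rw [Ne, Ideal.span_singleton_eq_bot]; exact hϖ.ne_zero⟩
    have hv : (p : 𝓞 T.K) ∈ v.asIdeal := Ideal.mem_span_singleton.mpr hϖp
    have hd : (ρ σ).1.det = 1 ∧ ρ σ ^ 4 = 1 := by
      rcases h1 with h1 | h1 <;> rw [h1] <;> constructor <;> decide
    obtain ⟨hv1, hv2, hv3⟩ := hg.split_of_det_one hA hσ hd.1 hd.2 hv
    obtain ⟨w, hw⟩ := exists_below_eq T.L v
    have hwp : (p : 𝓞 T.L) ∈ w.asIdeal := by
      have h2 : (p : 𝓞 T.K) ∈ (w.under (𝓞 T.K)).asIdeal := by rw [hw]; exact hv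
      have h3 : algebraMap (𝓞 T.K) (𝓞 T.L) (p : 𝓞 T.K) ∈ w.asIdeal := h2
      rwa [map_natCast] at h3
    rw [← hv3 w hw]
    refine hlam ϖ w (by rw [hw]) (by rw [hw]; exact hNv v hv) ?_
    rw [hg.absNorm_eq_iff_cube hwp, hw]
    exact hv2
  · intro h1
    obtain ⟨v, hv⟩ := exists_over_of_liesOver T.iK hp hA
    have hpv := hv.natCast_mem_iff.mpr hA
    obtain ⟨hv1, hv2, hv3⟩ := hg.inert_of_det_neg_one hA hσ h1 hpv
    obtain ⟨w, hw⟩ := exists_below_eq T.L v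
    have hwp : (p : 𝓞 T.L) ∈ w.asIdeal := by
      have h2 : (p : 𝓞 T.K) ∈ (w.under (𝓞 T.K)).asIdeal := by rw [hw]; exact hpv
      have h3 : algebraMap (𝓞 T.K) (𝓞 T.L) (p : 𝓞 T.K) ∈ w.asIdeal := h2
      rwa [map_natCast] at h3
    rw [← hv3 w hw]
    refine hlam _ w (by rw [hw]; exact T.asIdeal_eq_span hp hpv hv1)
      (by rw [hw]; exact hNv v hpv) ?_
    rw [hg.absNorm_eq_iff_cube hwp, hw]
    exact hv2

end TowerFields

end Fermat.Agent.LT.Tower
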