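import Fermat.Agent.LT.Tower.SysK

/-!
# Good primes are unramified
-/

set_option autoImplicit false

namespace Fermat.Agent.LT.Tower

open NumberField IsDedekindDomain Fermat.Agent.Frob Fermat.Agent.FrobDensity Fr
open Fermat.Agent.CFT.Places
open scoped Pointwise

namespace Fr

/-- A Galois extension is unramified at the good primes. -/
theorem Good.ramificationIdx'_eq_one {K L : Type*} [Field K] [NumberField K] [Field L]
    [NumberField L] [Algebra K L] [IsGalois K L] {p : ℕ} (hG : Good L p)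
    {w : HeightOneSpectrum (𝓞 L)} (hw : (p : 𝓞 L) ∈ w.asIdeal) :
    (w.under (𝓞 K)).asIdeal.ramificationIdx' w.asIdeal = 1 := by
  classical
  obtain ⟨i⟩ : Nonempty (L →+* AlgebraicClosure ℚ) :=
    ⟨((IsAlgClosed.lift : L →ₐ[ℚ] AlgebraicClosure ℚ) : L →+* AlgebraicClosure ℚ)⟩
  obtain ⟨q, A, hq, -, h⟩ := exists_over i w
  have hA : A.LiesOverPrime p := h.natCast_mem_iff.mp hw
  have hin : w.asIdeal.inertia Gal(L/K) = ⊥ := by
    rw [Subgroup.eq_bot_iff_forall]
    intro g hg
    have h1 : i.comp (g : L →+* L) = i := by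
      apply hG A hA
      ext x
      have h2 : g • x - x ∈ w.asIdeal := hg x
      rw [h.mem_iff, map_sub, sub_eq_zero] at h2
      exact h2
    ext x
    exact i.injective (RingHom.congr_fun h1 x)
  have hv0 : (w.under (𝓞 K)).asIdeal ≠ ⊥ := (w.under (𝓞 K)).ne_bot
  rw [Ideal.ramificationIdx'_eq_ramificationIdx (w.under (𝓞 K)).asIdeal w.asIdeal hv0,
    ← Ideal.ramificationIdxIn_eq_ramificationIdx (w.under (𝓞 K)).asIdeal w.asIdeal Gal(L/K),
    ← Ideal.card_inertia_eq_ramificationIdxIn (G := Gal(L/K)) (w.under (𝓞 K)).asIdeal w.asIdeal,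
    hin, Subgroup.card_bot]

end Fr

end Fermat.Agent.LT.Tower
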