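import Fermat.Agent.LT.Steps
import Fermat.Agent.LT.Tower.Out
import Fermat.Agent.LT.Tower.Ram
import Fermat.Agent.LT.Tower.Good
import Fermat.Agent.LT.Tower.Main

/-!
# The contract of the tower: `StepT`
-/

set_option autoImplicit false

namespace Fermat.Agent.LT.Tower

open NumberField IsDedekindDomain Fermat.Agent.Frob Fermat.Agent.FrobDensity Fr
open Fermat.Agent.CFT.Global (locPow ClTrivial above mem_above)
open Fermat.Agent.CFT.Places

local notation "Qbar" => AlgebraicClosure ℚ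
local notation "G3" => Matrix.GeneralLinearGroup (Fin 2) (ZMod 3)

variable {ρ : GQ →* G3}

lemma mem_bad_under {F F' : Type*} [Field F] [NumberField F] [Field F'] [NumberField F']
    [Algebra F F'] {N : ℕ} (w : HeightOneSpectrum (𝓞 F')) :
    w.under (𝓞 F) ∈ bad F N ↔ w ∈ bad F' N := by
  change algebraMap (𝓞 F) (𝓞 F') (N : 𝓞 F) ∈ w.asIdeal ↔ (N : 𝓞 F') ∈ w.asIdeal
  rw [map_natCast]

/-- the prime below a place outside `N` does not divide `N` -/
lemma not_dvd_of_notMem_bad {F : Type*} [Field F] [NumberField F] {N p : ℕ}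
    {w : HeightOneSpectrum (𝓞 F)} (hw : w ∉ bad F N) (hp : (p : 𝓞 F) ∈ w.asIdeal) : ¬ p ∣ N := by
  rintro ⟨k, rfl⟩
  apply hw
  change ((p * k : ℕ) : 𝓞 F) ∈ w.asIdeal
  rw [Nat.cast_mul]
  exact w.asIdeal.mul_mem_right _ hp

/-- The class group part and the tower data of the contract. -/
def Contract1 (T : TowerFields ρ) (N : ℕ) : Prop :=
  (∀ S : Finset (HeightOneSpectrum (𝓞 T.K)), (∀ v, v ∈ S ↔ v ∈ bad T.K N) → ClTrivial S) ∧
  (∀ S : Finset (HeightOneSpectrum (𝓞 T.L)), (∀ v, v ∈ S ↔ v ∈ bad T.L N) → ClTrivial S) ∧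
  (∀ S : Finset (HeightOneSpectrum (𝓞 T.L)), (∀ v, v ∈ S ↔ v ∈ bad T.L N) →
    ∃ D : Psi.TowerData T.L T.E T.M S, D.a = T.a ∧ D.b = T.b ∧ D.d = T.d ∧ D.c = T.c)

theorem tSys_of_good (T : TowerFields ρ) (hρ : Continuous ρ) (hsurj : Function.Surjective ρ)
    {N : ℕ} (hN : N ≠ 0) (h6 : 6 ∣ N)
    (hprimes : ∀ p : ℕ, p.Prime → p ≤ 2 * Module.finrank ℚ T.M → p ∣ N)
    (hdiscr : (NumberField.discr T.M).natAbs ∣ N)
    (hgood : ∀ p : ℕ, p.Prime → ¬ p ∣ N → T.GoodPrime p) (h1 : Contract1 T N) :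
    TSys T N (fun w => (T.xL w : ℝ)) := by
  classical
  obtain ⟨hK, hL, hD⟩ := h1
  have hfin := finite_places T.L hN
  have hmem : ∀ v : HeightOneSpectrum (𝓞 T.L), v ∈ hfin.toFinset ↔ v ∈ bad T.L N :=
    fun v => hfin.mem_toFinset
  refine
    { N_ne := hN
      six_dvd := h6
      primes := hprimes
      discr := hdiscr
      good := hgood
      clK := hK
      clL := hL
      clE := ?_
      clM := ?_
      data := ?_
      unr := ?_
      inv := ?_
      exists_u := ?_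
      val := ?_ }
  · intro S hS
    obtain ⟨D, -⟩ := hD _ hmem
    have e : above T.E hfin.toFinset = S := by
      ext P
      rw [mem_above, hmem, mem_bad_under, hS]
    rw [← e]
    exact D.cl_E
  · intro S hS
    obtain ⟨D, -⟩ := hD _ hmem
    have e : above T.M hfin.toFinset = S := by
      ext P
      rw [mem_above, hmem, mem_bad_under, hS]
    rw [← e]
    exact D.cl_M
  · intro S hS
    obtain ⟨D, hDa, hDb, hDd, hDc⟩ := hD S hS
    refine ⟨D, hDa, hDb, hDd, hDc, fun w _ => ?_⟩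
    rw [Psi.TowerData.xw, TowerFields.xL, hDa, hDb, hDd]
  · intro w hw
    obtain ⟨p, hp, hpw⟩ := exists_prime_mem w
    exact (hgood p hp (not_dvd_of_notMem_bad hw hpw)).gL.ramificationIdx'_eq_one hpw
  · intro w w' hw hww'
    obtain ⟨p, hp, hpw⟩ := exists_prime_mem w
    have h2 := (hgood p hp (not_dvd_of_notMem_bad hw hpw)).xL_eq_of_under_eq hpw hww'
    exact congrArg (fun z : ℤ => (z : ℝ)) h2
  · intro S hS
    obtain ⟨w, hw1, hw2, hw3, hw4⟩ := T.exists_u hρ hsurj hS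
    exact ⟨w, hw1, hw2, hw3, by rw [hw4, Int.cast_zero]⟩
  · intro w _
    rcases T.xL_val w with ⟨h2, h3⟩ | ⟨h2 | h2, h3⟩
    · exact Or.inl ⟨by rw [h2, Int.cast_zero], h3⟩
    · exact Or.inr ⟨Or.inl (by rw [h2]; norm_num), h3⟩
    · exact Or.inr ⟨Or.inr (by rw [h2]; norm_num), h3⟩

/-- The assembly: for all multiples of one integer. -/
theorem exists_tSys (T : TowerFields ρ) (hρ : Continuous ρ) (hsurj : Function.Surjective ρ)
    (h1 : ∃ N₁ : ℕ, N₁ ≠ 0 ∧ ∀ N : ℕ, N ≠ 0 → N₁ ∣ N → Contract1 T N) :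
    ∃ N : ℕ, N ≠ 0 ∧ ∀ N' : ℕ, N ∣ N' → N' ≠ 0 → TSys T N' (fun w => (T.xL w : ℝ)) := by
  obtain ⟨N₁, hN₁, h1⟩ := h1
  obtain ⟨D, hD0, hD⟩ := T.exists_goodPrime
  have hd0 : (NumberField.discr T.M).natAbs ≠ 0 := Int.natAbs_ne_zero.mpr (NumberField.discr_ne_zero T.M)
  refine ⟨6 * N₁ * D * (2 * Module.finrank ℚ T.M).factorial * (NumberField.discr T.M).natAbs,
    by positivity, ?_⟩
  intro N' hN' hN'0
  set P := (2 * Module.finrank ℚ T.M).factorial
  set δ := (NumberField.discr T.M).natAbs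
  have d6 : 6 ∣ N' := (show 6 ∣ 6 * N₁ * D * P * δ from ⟨N₁ * D * P * δ, by ring⟩).trans hN'
  have d1 : N₁ ∣ N' := (show N₁ ∣ 6 * N₁ * D * P * δ from ⟨6 * D * P * δ, by ring⟩).trans hN'
  have dD : D ∣ N' := (show D ∣ 6 * N₁ * D * P * δ from ⟨6 * N₁ * P * δ, by ring⟩).trans hN'
  have dF : P ∣ N' := (show P ∣ 6 * N₁ * D * P * δ from ⟨6 * N₁ * D * δ, by ring⟩).trans hN'
  have dd : δ ∣ N' := (dvd_mul_left _ _).trans hN'
  refine tSys_of_good T hρ hsurj hN'0 d6 ?_ dd ?_ (h1 N' hN'0 d1)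
  · intro p hp hle
    exact (hp.dvd_factorial.mpr hle).trans dF
  · intro p hp hpN
    exact hD p hp fun h => hpN (h.trans dD)

/-- helper23's `Good` gives the class group part and the tower data. -/
theorem contract1_of_good {T : TowerFields ρ} {N : ℕ} (h : T.Good N) : Contract1 T N := by
  refine ⟨fun S hS => ?_, fun S hS => ?_, fun S hS => ?_⟩
  · obtain rfl : S = SN _ N := Finset.ext fun v => (hS v).trans (mem_SN h.ne_zero).symm
    exact h.cl_K
  · obtain rfl : S = SN _ N := Finset.ext fun v => (hS v).trans (mem_SN h.ne_zero).symm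
    exact h.cl_L
  · obtain rfl : S = SN _ N := Finset.ext fun v => (hS v).trans (mem_SN h.ne_zero).symm
    exact ⟨h.data, rfl, rfl, rfl, rfl⟩

/-- **The contract of the tower.** -/
theorem stepT (hρ : Continuous ρ) (hsurj : Function.Surjective ρ)
    (hdet : ∀ σ, Matrix.GeneralLinearGroup.det (ρ σ) = WeierstrassCurve.modThreeCyclotomicChar σ) :
    StepT ρ := by
  obtain ⟨T⟩ := exists_towerFields hρ hsurj hdet
  obtain ⟨N₁, hN₁, -, h⟩ := T.exists_good
  obtain ⟨N, hN, hT⟩ := exists_tSys T hρ hsurj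
    ⟨N₁, hN₁, fun N hN hd => contract1_of_good (h N hN hd)⟩
  exact ⟨T, N, _, hN, hT⟩

end Fermat.Agent.LT.Tower
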