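import Fermat.Agent.LT.Steps
import Fermat.Agent.LT.Tower.Out

/-!
# The dictionary: `StepS`
-/

set_option autoImplicit false

namespace Fermat.Agent.LT.Tower

open NumberField IsDedekindDomain Fermat.Agent.Frob Fermat.Agent.FrobDensity Fr
open Fermat.Agent.CFT.Global (locPow)

local notation "Qbar" => AlgebraicClosure ℚ
local notation "G3" => Matrix.GeneralLinearGroup (Fin 2) (ZMod 3)

variable {ρ : GQ →* G3}

/-- the system of a `TSys` is `xL` outside `N` -/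
theorem x_eq_xL {T : TowerFields ρ} {N : ℕ} {x : HeightOneSpectrum (𝓞 T.L) → ℝ} (hT : TSys T N x)
    {w : HeightOneSpectrum (𝓞 T.L)} (hw : w ∉ bad T.L N) : x w = T.xL w := by
  classical
  have hfin := finite_places T.L hT.N_ne
  obtain ⟨D, hDa, hDb, hDd, -, hD⟩ := hT.data hfin.toFinset (fun v => hfin.mem_toFinset)
  rw [hD w (fun h => hw (hfin.mem_toFinset.mp h)), Psi.TowerData.xw, TowerFields.xL, hDa, hDb, hDd]

theorem hasSystem_of_good {T : TowerFields ρ} {N : ℕ} {x : HeightOneSpectrum (𝓞 T.L) → ℝ}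
    (hT : TSys T N x) (hgood : ∀ p : ℕ, p.Prime → ¬ p ∣ N → T.GoodPrime p)
    {σ : T.K →+* ℂ} {s : 𝓞 T.K} (F : KForm σ s N) {a : HeightOneSpectrum (𝓞 T.K) → ℝ}
    (ha : ∀ w : HeightOneSpectrum (𝓞 T.L), w ∉ bad T.L N → Deg1 (K := T.K) w →
        a (w.under (𝓞 T.K)) = x w)
    (hF : ∀ (ϖ : 𝓞 T.K) (v : HeightOneSpectrum (𝓞 T.K)),
        v.asIdeal = Ideal.span {ϖ} → v ∉ bad T.K N → F.lam ϖ = a v) : HasSystem ρ F := by
  have hlam : ∀ (ϖ : 𝓞 T.K) (w : HeightOneSpectrum (𝓞 T.L)),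
      (w.under (𝓞 T.K)).asIdeal = Ideal.span {ϖ} →
      (N : 𝓞 T.K) ∉ (w.under (𝓞 T.K)).asIdeal →
      Ideal.absNorm w.asIdeal = Ideal.absNorm (w.under (𝓞 T.K)).asIdeal → F.lam ϖ = T.xL w := by
    intro ϖ w hw hN hd
    have hwN : w ∉ bad T.L N := by
      intro h
      apply hN
      change algebraMap (𝓞 T.K) (𝓞 T.L) (N : 𝓞 T.K) ∈ w.asIdeal
      rw [map_natCast]
      exact h
    rw [hF ϖ (w.under (𝓞 T.K)) hw hN, ha w hwN hd, x_eq_xL hT hwN]
  have key := fun {p : ℕ} (hp : p.Prime) (hpN : ¬ p ∣ N) {A : ValuationSubring Qbar}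
    (hA : A.LiesOverPrime p) {σ : GQ} (hσ : A.IsFrobeniusAt σ p) =>
    T.lam_values hgood F.lam hlam hp hpN hA hσ
  refine ⟨T.finrank_K, ?_, ?_, ?_, ?_⟩
  · intro p hp hpN A hA τ hτ h1 ϖ hϖ hϖp
    rw [(key hp hpN hA hτ).1 (Or.inl h1) ϖ hϖ hϖp, h1, tq_one]
    norm_num
  · intro p hp hpN A hA τ hτ h1 ϖ hϖ hϖp
    rw [(key hp hpN hA hτ).1 (Or.inr h1) ϖ hϖ hϖp, h1, tq_neg_one]
    norm_num
  · intro p hp hpN A hA τ hτ h1 h2
    have h3 : (ρ τ).1.det = -1 := by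
      have := congrArg Units.val h1
      simpa using this
    rw [(key hp hpN hA hτ).2 h3, h2, tq_one]
    norm_num
  · intro p hp hpN A hA τ hτ h1 h2
    have h3 : (ρ τ).1.det = -1 := by
      have := congrArg Units.val h1
      simpa using this
    rw [(key hp hpN hA hτ).2 h3, tq_of_ne h2 (TowerFields.mul_self_ne_neg_one h3)]
    norm_num

/-- **The dictionary.** -/
theorem stepS (ρ : GQ →* G3) : StepS ρ :=
  fun _ _ _ hT _ _ F _ ha hF => hasSystem_of_good hT hT.good F ha hF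

end Fermat.Agent.LT.Tower
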