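import Fermat.Agent.Frob.DensityAlgebraic
import Fermat.Agent.Frob.Density

/-!
# Places of number fields inside `ℚ̄` and Frobenius elements

* `Over i A v`: the valuation subring `A` of `ℚ̄` lies over the place `v` of `F` via `i : F → ℚ̄`;
* `Good F p`: distinct embeddings of `F` have distinct reductions at `p` (all but finitely many `p`);
* for `A` over `v`, absolute norm of `v` equal to `p ^ f`, `σ` a Frobenius at `A`: the power `σ ^ k`
  fixes `i F` if and only if `f ∣ k`.
-/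

set_option autoImplicit false

namespace Fermat.Agent.LT.Tower.Fr

open NumberField IsDedekindDomain Fermat.Agent.Frob Fermat.Agent.FrobDensity
open scoped Pointwise

section Finite

/-- An element `y` with `y ^ #k = y` lies in the image of `k`. -/
theorem exists_eq_of_pow_card {k Ω : Type*} [Field k] [Finite k] [Field Ω] (φ : k →+* Ω) {y : Ω}
    (hy : y ^ Nat.card k = y) : ∃ x, φ x = y := by
  classical
  have : Fintype k := Fintype.ofFinite k
  rw [Nat.card_eq_fintype_card] at hy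
  have hq : 1 < Fintype.card k := Fintype.one_lt_card
  have hP : (Polynomial.X ^ Fintype.card k - Polynomial.X : Polynomial Ω) ≠ 0 :=
    FiniteField.X_pow_card_sub_X_ne_zero Ω hq
  have hcard : (Finset.univ.image φ).card = Fintype.card k := by
    rw [Finset.card_image_of_injective _ φ.injective, Finset.card_univ]
  have hsub : Finset.univ.image φ ⊆
      (Polynomial.X ^ Fintype.card k - Polynomial.X : Polynomial Ω).roots.toFinset := by
    intro z hz
    obtain ⟨x, -, rfl⟩ := Finset.mem_image.mp hz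
    rw [Multiset.mem_toFinset, Polynomial.mem_roots hP]
    simp [Polynomial.IsRoot, ← map_pow, FiniteField.pow_card]
  have heq := Finset.eq_of_subset_of_card_le hsub (by
    rw [hcard]
    refine (Multiset.toFinset_card_le _).trans ((Polynomial.card_roots' _).trans ?_)
    rw [FiniteField.X_pow_card_sub_X_natDegree_eq Ω hq])
  have hy : y ∈ Finset.univ.image φ := by
    rw [heq, Multiset.mem_toFinset, Polynomial.mem_roots hP]
    simp [Polynomial.IsRoot, hy]
  obtain ⟨x, -, hx⟩ := Finset.mem_image.mp hy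
  exact ⟨x, hx⟩

/-- Two homomorphisms from a finite field differ by a power of Frobenius. -/
theorem exists_pow_of_finite {k Ω : Type*} [Field k] [Finite k] [Field Ω] (p : ℕ) [Fact p.Prime]
    [CharP Ω p] (φ φ' : k →+* Ω) : ∃ n : ℕ, ∀ x, φ' x = φ x ^ p ^ n := by
  classical
  have : Fintype k := Fintype.ofFinite k
  have hk : CharP k p := (RingHom.charP_iff φ φ.injective p).mpr inferInstance
  let _ : Algebra (ZMod p) k := ZMod.algebra k p
  have hrange : ∀ y : k, ∃ x : k, φ x = φ' y := fun y =>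
    exists_eq_of_pow_card φ (by rw [← map_pow, Nat.card_eq_fintype_card, FiniteField.pow_card])
  choose g hg using hrange
  let ψ : k →+* k :=
    { toFun := g
      map_one' := φ.injective (by rw [hg, map_one, map_one])
      map_mul' := fun x y => φ.injective (by rw [hg, map_mul, map_mul, hg, hg])
      map_zero' := φ.injective (by rw [hg, map_zero, map_zero])
      map_add' := fun x y => φ.injective (by rw [hg, map_add, map_add, hg, hg]) }
  let ψ' : k →ₐ[ZMod p] k :=
    { ψ with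
      commutes' := fun r => RingHom.congr_fun
        (Subsingleton.elim (ψ.comp (algebraMap (ZMod p) k)) (algebraMap (ZMod p) k)) r }
  obtain ⟨n, hn⟩ := (FiniteField.bijective_frobeniusAlgHom_pow (ZMod p) k).2 ψ'
  refine ⟨n.1, fun x => ?_⟩
  have h1 : g x = x ^ p ^ n.1 := by
    have h2 := AlgHom.congr_fun hn x
    have h3 : ∀ m : ℕ, ((FiniteField.frobeniusAlgHom (ZMod p) k) ^ m) x = x ^ p ^ m := by
      intro m
      rw [AlgHom.coe_pow, FiniteField.coe_frobeniusAlgHom, pow_iterate, ZMod.card]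
    exact h2.symm.trans (h3 n.1)
  rw [← hg, h1, map_pow]

end Finite

variable {F : Type*} [Field F] [NumberField F]

/-- `A` lies over the place `v` of `F`, via the embedding `i`. -/
def Over (i : F →+* AlgebraicClosure ℚ) (A : ValuationSubring (AlgebraicClosure ℚ))
    (v : HeightOneSpectrum (𝓞 F)) : Prop :=
  RingHom.ker (redτ A i) = v.asIdeal

/-- Distinct embeddings of `F` have distinct reductions at `p`. -/
def Good (F : Type*) [Field F] [NumberField F] (p : ℕ) : Prop :=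
  ∀ A : ValuationSubring (AlgebraicClosure ℚ), A.LiesOverPrime p →
    ∀ τ τ' : F →+* AlgebraicClosure ℚ, redτ A τ = redτ A τ' → τ = τ'

theorem exists_good (F : Type*) [Field F] [NumberField F] :
    ∃ D : ℕ, D ≠ 0 ∧ ∀ p : ℕ, p.Prime → ¬ p ∣ D → Good F p := by
  obtain ⟨D, hD, h⟩ := exists_disc F
  exact ⟨D.natAbs, Int.natAbs_ne_zero.mpr hD, fun p hp hpD =>
    h p hp (fun h' => hpD (Int.natCast_dvd.mp h'))⟩

variable {i : F →+* AlgebraicClosure ℚ} {A : ValuationSubring (AlgebraicClosure ℚ)}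
  {v : HeightOneSpectrum (𝓞 F)} {p : ℕ}

lemma redτ_eq_zero_iff (x : 𝓞 F) : redτ A i x = 0 ↔ i x ∈ A.nonunits := by
  rw [redτ, RingHom.comp_apply, redA_eq_zero_iff, mem_centre_iff, coe_toZbar]

lemma over_iff : Over i A v ↔ ∀ x : 𝓞 F, x ∈ v.asIdeal ↔ i x ∈ A.nonunits := by
  unfold Over
  rw [SetLike.ext_iff]
  simp only [RingHom.mem_ker, redτ_eq_zero_iff]
  exact forall_congr' fun x => Iff.comm

lemma Over.mem_iff (h : Over i A v) (x : 𝓞 F) : x ∈ v.asIdeal ↔ redτ A i x = 0 := by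
  rw [← h, RingHom.mem_ker]

lemma Over.natCast_mem_iff (h : Over i A v) : (p : 𝓞 F) ∈ v.asIdeal ↔ A.LiesOverPrime p := by
  rw [over_iff.mp h, ValuationSubring.LiesOverPrime]
  simp

lemma Over.unique {v' : HeightOneSpectrum (𝓞 F)} (h : Over i A v) (h' : Over i A v') : v = v' :=
  HeightOneSpectrum.ext (h.symm.trans h')

/-- Every valuation subring above `p` lies over a place of `F`. -/
theorem exists_over_of_liesOver (i : F →+* AlgebraicClosure ℚ) (hp : p.Prime)
    (hA : A.LiesOverPrime p) : ∃ v : HeightOneSpectrum (𝓞 F), Over i A v := by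
  refine ⟨⟨RingHom.ker (redτ A i), RingHom.ker_isPrime _, ?_⟩, rfl⟩
  intro h
  have h1 : (p : 𝓞 F) ∈ RingHom.ker (redτ A i) := by
    rw [RingHom.mem_ker, redτ_eq_zero_iff]
    simpa using (show (p : AlgebraicClosure ℚ) ∈ A.nonunits from hA)
  rw [h, Ideal.mem_bot, Nat.cast_eq_zero] at h1
  exact hp.ne_zero h1

lemma Over.smul (h : Over i A v) (g : GQ) : Over ((gh g).comp i) (g • A) v := by
  rw [over_iff] at h ⊢
  intro x
  rw [h x]
  exact mem_nonunits_smul_iff.symm

lemma Over.of_smul {g : GQ} (h : Over i (g • A) v) : Over ((gh g⁻¹).comp i) A v := by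
  have := h.smul g⁻¹
  rwa [inv_smul_smul] at this

/-- Extension of embeddings. -/
theorem exists_extend (i j : F →+* AlgebraicClosure ℚ) : ∃ g : GQ, (gh g).comp i = j := by
  let _ : Algebra F (AlgebraicClosure ℚ) := i.toAlgebra
  have hsc : IsScalarTower ℚ F (AlgebraicClosure ℚ) :=
    IsScalarTower.of_algebraMap_eq' (Subsingleton.elim _ _)
  have halg : Algebra.IsAlgebraic F (AlgebraicClosure ℚ) :=
    Algebra.IsAlgebraic.tower_top (K := ℚ) F
  obtain ⟨φ, hφ⟩ := IsAlgClosed.surjective_domRestrict_of_isAlgebraic (K := ℚ) (L := F)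
    (E := AlgebraicClosure ℚ) (M := AlgebraicClosure ℚ) j.toRatAlgHom
  refine ⟨AlgEquiv.ofBijective φ (Algebra.IsAlgebraic.algHom_bijective φ), RingHom.ext fun x => ?_⟩
  exact AlgHom.congr_fun hφ x

lemma exists_prime_mem (v : HeightOneSpectrum (𝓞 F)) :
    ∃ q : ℕ, q.Prime ∧ (q : 𝓞 F) ∈ v.asIdeal := by
  have h0 : Ideal.absNorm v.asIdeal ≠ 0 := by
    rw [Ne, Ideal.absNorm_eq_zero_iff]
    exact v.ne_bot
  have key : ∀ n : ℕ, n ≠ 0 → (n : 𝓞 F) ∈ v.asIdeal →
      ∃ q : ℕ, q.Prime ∧ (q : 𝓞 F) ∈ v.asIdeal := by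
    intro n
    induction n using Nat.recOnMul with
    | zero => intro h; exact absurd rfl h
    | one =>
      intro _ h
      exfalso
      apply v.isPrime.ne_top
      rw [Ideal.eq_top_iff_one]
      simpa using h
    | prime p hp => intro _ h; exact ⟨p, hp, h⟩
    | mul a b iha ihb =>
      intro hab h
      rw [Nat.cast_mul] at h
      rcases v.isPrime.mem_or_mem h with h | h
      · exact iha (left_ne_zero_of_mul hab) h
      · exact ihb (right_ne_zero_of_mul hab) h
  exact key _ h0 (Ideal.absNorm_mem _)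

lemma prime_unique {q : ℕ} (hp : p.Prime) (hq : q.Prime) (h : (p : 𝓞 F) ∈ v.asIdeal)
    (h' : (q : 𝓞 F) ∈ v.asIdeal) : p = q := by
  by_contra hne
  have h1 : IsCoprime (p : ℤ) (q : ℤ) :=
    Nat.isCoprime_iff_coprime.mpr ((Nat.coprime_primes hp hq).mpr hne)
  obtain ⟨a, b, hab⟩ := h1
  apply v.isPrime.ne_top
  rw [Ideal.eq_top_iff_one]
  have h2 : (1 : 𝓞 F) = (a : 𝓞 F) * (p : 𝓞 F) + (b : 𝓞 F) * (q : 𝓞 F) := by
    exact_mod_cast congrArg (fun z : ℤ => (z : 𝓞 F)) hab.symm
  rw [h2]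
  exact v.asIdeal.add_mem (v.asIdeal.mul_mem_left _ h) (v.asIdeal.mul_mem_left _ h')

/-- Every place of `F` lies under a valuation subring of `ℚ̄`. -/
theorem exists_over (i : F →+* AlgebraicClosure ℚ) (v : HeightOneSpectrum (𝓞 F)) :
    ∃ (p : ℕ) (A : ValuationSubring (AlgebraicClosure ℚ)), p.Prime ∧ A.LiesOverPrime p ∧
      Over i A v := by
  obtain ⟨p, hp, hpv⟩ := exists_prime_mem v
  obtain ⟨A, hA⟩ := exists_liesOverPrime p hp
  obtain ⟨τ, hτ⟩ := exists_redτ hp hA hpv
  obtain ⟨g, hg⟩ := exists_extend i τ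
  have h1 : Over ((gh g).comp i) A v := by rw [hg]; exact hτ
  have h2 := h1.smul g⁻¹
  refine ⟨p, g⁻¹ • A, hp, liesOverPrime_smul hA, ?_⟩
  have h3 : (gh g⁻¹).comp ((gh g).comp i) = i := by
    ext x
    exact g.symm_apply_apply (i x)
  rwa [h3] at h2

/-! ### Residue fields -/

instance finite_quot (v : HeightOneSpectrum (𝓞 F)) : Finite (𝓞 F ⧸ v.asIdeal) :=
  Ideal.finiteQuotientOfFreeOfNeBot _ v.ne_bot

lemma natCard_quot (v : HeightOneSpectrum (𝓞 F)) :
    Nat.card (𝓞 F ⧸ v.asIdeal) = Ideal.absNorm v.asIdeal := by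
  rw [Ideal.absNorm_apply, Submodule.cardQuot_apply]

/-- the residue field of a place -/
noncomputable abbrev fieldQuot (v : HeightOneSpectrum (𝓞 F)) : Field (𝓞 F ⧸ v.asIdeal) :=
  letI := v.isMaximal
  Ideal.Quotient.field v.asIdeal

lemma pow_absNorm_sub_mem (v : HeightOneSpectrum (𝓞 F)) (x : 𝓞 F) :
    x ^ Ideal.absNorm v.asIdeal - x ∈ v.asIdeal := by
  let _ := fieldQuot v
  have : Fintype (𝓞 F ⧸ v.asIdeal) := Fintype.ofFinite _
  have h2 := FiniteField.pow_card (Ideal.Quotient.mk v.asIdeal x)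
  rw [← Nat.card_eq_fintype_card, natCard_quot, ← map_pow, Ideal.Quotient.eq] at h2
  exact h2

lemma exists_absNorm_eq_pow (hp : p.Prime) (h : (p : 𝓞 F) ∈ v.asIdeal) :
    ∃ f : ℕ, 0 < f ∧ Ideal.absNorm v.asIdeal = p ^ f := by
  let _ := fieldQuot v
  have : Fintype (𝓞 F ⧸ v.asIdeal) := Fintype.ofFinite _
  have hch : CharP (𝓞 F ⧸ v.asIdeal) p := by
    apply charP_of_prime_natCast_eq_zero hp
    rw [← map_natCast (Ideal.Quotient.mk v.asIdeal)]
    exact Ideal.Quotient.eq_zero_iff_mem.mpr h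
  obtain ⟨n, -, hn⟩ := FiniteField.card (𝓞 F ⧸ v.asIdeal) p
  exact ⟨n, n.2, by rw [← natCard_quot, Nat.card_eq_fintype_card, hn]⟩

/-! ### Frobenius elements -/

theorem isFrobeniusAt_pow {σ : GQ} {q : ℕ} (h : A.IsFrobeniusAt σ q) (k : ℕ) :
    A.IsFrobeniusAt (σ ^ k) (q ^ k) := by
  obtain ⟨hσ, h⟩ := h
  refine ⟨pow_mem hσ k, ?_⟩
  have key : ∀ (k : ℕ) (x : IsLocalRing.ResidueField A),
      (⟨σ, hσ⟩ : A.decompositionSubgroup ℚ) ^ k • x = x ^ q ^ k := by
    intro k
    induction k with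
    | zero => intro x; rw [pow_zero, one_smul, pow_zero, pow_one]
    | succ k ih => intro x; rw [pow_succ, mul_smul, h, ih, ← pow_mul, pow_succ, mul_comm]
  exact key k

lemma redτ_frob_pow {σ : GQ} (hσ : A.IsFrobeniusAt σ p) (i : F →+* AlgebraicClosure ℚ) (k : ℕ)
    (x : 𝓞 F) : redτ A ((gh (σ ^ k)).comp i) x = redτ A i x ^ p ^ k :=
  redτ_frob (isFrobeniusAt_pow hσ k) i x

lemma Good.frob_unique (hG : Good F p) (hA : A.LiesOverPrime p) {σ σ' : GQ}
    (hσ : A.IsFrobeniusAt σ p) (hσ' : A.IsFrobeniusAt σ' p) (i : F →+* AlgebraicClosure ℚ) :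
    (gh σ).comp i = (gh σ').comp i :=
  hG A hA _ _ (RingHom.ext fun x => by rw [redτ_frob hσ, redτ_frob hσ'])

/-- **Frobenius and the residue degree**: `σ ^ k` fixes `i F` if and only if `f ∣ k`. -/
theorem Over.frob_pow_comp_iff (hp : p.Prime) (hG : Good F p) (hA : A.LiesOverPrime p)
    (h : Over i A v) {σ : GQ} (hσ : A.IsFrobeniusAt σ p) {f : ℕ}
    (hf : Ideal.absNorm v.asIdeal = p ^ f) (k : ℕ) : (gh (σ ^ k)).comp i = i ↔ f ∣ k := by
  constructor
  · intro hk
    let _ := fieldQuot v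
    have hx : ∀ x : 𝓞 F ⧸ v.asIdeal, x ^ p ^ k = x := by
      intro x
      obtain ⟨x, rfl⟩ := Ideal.Quotient.mk_surjective x
      rw [← map_pow, Ideal.Quotient.eq, h.mem_iff, map_sub, map_pow, sub_eq_zero,
        ← redτ_frob_pow hσ, hk]
    obtain ⟨g, hg⟩ := IsCyclic.exists_ofOrder_eq_natCard (α := (𝓞 F ⧸ v.asIdeal)ˣ)
    have h1 : orderOf g = p ^ f - 1 := by
      rw [hg, Nat.card_units, natCard_quot, hf]
    have h2 : g ^ (p ^ k - 1) = 1 := by
      have h3 : g ^ p ^ k = g := Units.ext (by rw [Units.val_pow_eq_pow_val]; exact hx g)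
      have h4 : g ^ (p ^ k - 1) * g = g := by
        rw [← pow_succ, Nat.sub_add_cancel (Nat.one_le_pow _ _ hp.pos), h3]
      exact mul_eq_right.mp h4
    have h5 : p ^ f - 1 ∣ p ^ k - 1 := by rw [← h1]; exact orderOf_dvd_of_pow_eq_one h2
    have h6 := Nat.pow_sub_one_gcd_pow_sub_one p f k
    rw [Nat.gcd_eq_left h5] at h6
    have h7 : p ^ f = p ^ Nat.gcd f k := by
      have h8 := Nat.one_le_pow f p hp.pos
      have h9 := Nat.one_le_pow (Nat.gcd f k) p hp.pos
      omega
    have h10 : f = Nat.gcd f k := Nat.pow_right_injective hp.two_le h7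
    rw [h10]
    exact Nat.gcd_dvd_right f k
  · rintro ⟨m, rfl⟩
    apply hG A hA
    ext x
    rw [redτ_frob_pow hσ, pow_mul]
    have h1 : redτ A i x ^ p ^ f = redτ A i x := by
      rw [← map_pow, ← sub_eq_zero, ← map_sub, ← h.mem_iff, ← hf]
      exact pow_absNorm_sub_mem v x
    induction m with
    | zero => rw [pow_zero, pow_one]
    | succ m ih => rw [pow_succ, pow_mul, ih, h1]

/-- the Frobenius at `v` fixes `F` -/
theorem Over.frob_pow_apply (hp : p.Prime) (hG : Good F p) (hA : A.LiesOverPrime p)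
    (h : Over i A v) {σ : GQ} (hσ : A.IsFrobeniusAt σ p) {f : ℕ}
    (hf : Ideal.absNorm v.asIdeal = p ^ f) (x : F) : (σ ^ f) (i x) = i x :=
  RingHom.congr_fun ((h.frob_pow_comp_iff hp hG hA hσ hf f).mpr dvd_rfl) x

/-- **Transitivity**: two valuation subrings over the same (good) place are conjugate under the
fixer of `i F`. -/
theorem Over.exists_smul_eq (hp : p.Prime) (hG : Good F p) {A' : ValuationSubring (AlgebraicClosure ℚ)}
    (hA : A.LiesOverPrime p) (h : Over i A v) (h' : Over i A' v) :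
    ∃ g : GQ, (gh g).comp i = i ∧ g • A = A' := by
  have hA' : A'.LiesOverPrime p := h'.natCast_mem_iff.mp (h.natCast_mem_iff.mpr hA)
  obtain ⟨g, hg⟩ := Frob.exists_smul_eq hp hA hA'
  obtain ⟨σ, hσ⟩ := exists_isFrobeniusAt hp hA
  have h1 : Over ((gh g⁻¹).comp i) A v := by
    rw [← hg] at h'
    exact h'.of_smul
  have : Fact p.Prime := ⟨hp⟩
  have hch := charP_residue hp hA
  let _ := fieldQuot v
  let φ : 𝓞 F ⧸ v.asIdeal →+* IsLocalRing.ResidueField A :=
    Ideal.Quotient.lift v.asIdeal (redτ A i) (fun a ha => (h.mem_iff a).mp ha)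
  let φ' : 𝓞 F ⧸ v.asIdeal →+* IsLocalRing.ResidueField A :=
    Ideal.Quotient.lift v.asIdeal (redτ A ((gh g⁻¹).comp i)) (fun a ha => (h1.mem_iff a).mp ha)
  obtain ⟨n, hn⟩ := exists_pow_of_finite p φ φ'
  have h2 : (gh g⁻¹).comp i = (gh (σ ^ n)).comp i := by
    apply hG A hA
    ext x
    rw [redτ_frob_pow hσ]
    exact hn (Ideal.Quotient.mk v.asIdeal x)
  refine ⟨g * σ ^ n, ?_, ?_⟩
  · ext x
    have h3 : (σ ^ n) (i x) = g⁻¹ (i x) := (RingHom.congr_fun h2 x).symm
    change (g * σ ^ n) (i x) = i x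
    rw [AlgEquiv.mul_apply, h3, ← AlgEquiv.mul_apply, mul_inv_cancel, AlgEquiv.one_apply]
  · have h4 : σ ^ n • A = A := mem_decomposition_iff.mp (pow_mem hσ.mem_decompositionSubgroup n)
    rw [mul_smul, h4, hg]

/-! ### The residue embedding -/

/-- the residue field of `v` inside that of `A` -/
noncomputable def Over.res (h : Over i A v) : 𝓞 F ⧸ v.asIdeal →+* IsLocalRing.ResidueField A :=
  Ideal.Quotient.lift v.asIdeal (redτ A i) (fun a ha => (h.mem_iff a).mp ha)

@[simp] lemma Over.res_mk (h : Over i A v) (x : 𝓞 F) :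
    h.res (Ideal.Quotient.mk v.asIdeal x) = redτ A i x := rfl

/-- elements of the residue field of `A` fixed by the Frobenius of `v` -/
lemma Over.exists_redτ_eq (h : Over i A v) {y : IsLocalRing.ResidueField A}
    (hy : y ^ Ideal.absNorm v.asIdeal = y) : ∃ x : 𝓞 F, redτ A i x = y := by
  let _ := fieldQuot v
  obtain ⟨x, hx⟩ := exists_eq_of_pow_card (Ω := IsLocalRing.ResidueField A) h.res (y := y)
    (by rw [natCard_quot]; exact hy)
  obtain ⟨x, rfl⟩ := Ideal.Quotient.mk_surjective x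
  exact ⟨x, hx⟩

lemma Over.redτ_pow_absNorm (h : Over i A v) (x : 𝓞 F) :
    redτ A i x ^ Ideal.absNorm v.asIdeal = redτ A i x := by
  rw [← map_pow, ← sub_eq_zero, ← map_sub, ← h.mem_iff]
  exact pow_absNorm_sub_mem v x

/-! ### Relative statements -/

section Rel

variable {F' : Type*} [Field F'] [NumberField F'] [Algebra F F'] {i' : F' →+* AlgebraicClosure ℚ}
  {w : HeightOneSpectrum (𝓞 F')}

lemma Over.under (h : Over i' A w) : Over (i'.comp (algebraMap F F')) A (w.under (𝓞 F)) := by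
  rw [over_iff] at h ⊢
  intro x
  exact h (algebraMap (𝓞 F) (𝓞 F') x)

/-- The residue degree of `w` over `F` is one if and only if the Frobenius fixes `F'`. -/
theorem Over.absNorm_eq_iff (hp : p.Prime) (hG : Good F p) (hG' : Good F' p)
    (hA : A.LiesOverPrime p) (h : Over i' A w) {σ : GQ} (hσ : A.IsFrobeniusAt σ p) {f : ℕ}
    (hf : Ideal.absNorm (w.under (𝓞 F)).asIdeal = p ^ f) :
    Ideal.absNorm w.asIdeal = p ^ f ↔ (gh (σ ^ f)).comp i' = i' := by
  obtain ⟨f', hf'0, hf'⟩ := exists_absNorm_eq_pow hp (h.natCast_mem_iff.mpr hA)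
  rw [h.frob_pow_comp_iff hp hG' hA hσ hf', hf']
  have h1 : f ∣ f' := by
    rw [← h.under.frob_pow_comp_iff hp hG hA hσ hf, ← RingHom.comp_assoc,
      (h.frob_pow_comp_iff hp hG' hA hσ hf' f').mpr dvd_rfl]
  constructor
  · intro h2
    rw [Nat.pow_right_injective hp.two_le h2]
  · intro h2
    rw [Nat.dvd_antisymm h2 h1]

end Rel

end Fermat.Agent.LT.Tower.Fr
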