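import Fermat.Agent.LT.Tower.Exists

/-!
# Generators of the tower of fields attached to `ρ`
-/

set_option autoImplicit false

namespace Fermat.Agent.LT.Tower

open NumberField Fermat.Agent.Frob Grp
open scoped Pointwise IntermediateField

local notation "Qbar" => AlgebraicClosure ℚ
local notation "G3" => Matrix.GeneralLinearGroup (Fin 2) (ZMod 3)

variable {ρ : GQ →* G3}

/-- the generators of the tower, inside `ℚ̄` -/
structure Gens (ρ : GQ →* G3) (ω : Qbar) where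
  st : GQ
  si : GQ
  sj : GQ
  sm : GQ
  hst : ρ st = gt
  hsi : ρ si = gi
  hsj : ρ sj = gj
  hsm : ρ sm = -1
  x : Qbar
  y : Qbar
  z : Qbar
  t : Qbar
  x_ne : x ≠ 0
  y_ne : y ≠ 0
  z_ne : z ≠ 0
  t_ne : t ≠ 0
  int_x : IsIntegral ℤ x
  int_y : IsIntegral ℤ y
  int_z : IsIntegral ℤ z
  int_t : IsIntegral ℤ t
  st_x : st x = ω * x
  sj_y : sj y = -1 * y
  si_z : si z = -1 * z
  sm_t : sm t = -1 * t
  fix_x : ∀ g : GQ, ρ g ∈ QQ → g x = x
  fix_y : ∀ g : GQ, ρ g ∈ CI → g y = y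
  fix_z : ∀ g : GQ, ρ g ∈ CJ → g z = z
  fix_t : ∀ g : GQ, ρ g ∈ (⊥ : Subgroup G3) → g t = t

lemma gi_sq_mem {H : Subgroup G3} (h : (-1 : G3) ∈ H) : gi ^ 2 ∈ H := by rw [gi_sq]; exact h
lemma gj_sq_mem {H : Subgroup G3} (h : (-1 : G3) ∈ H) : gj ^ 2 ∈ H := by rw [gj_sq]; exact h

theorem exists_gens (hρ : Continuous ρ) (hsurj : Function.Surjective ρ)
    (hdet : ∀ σ : GQ, Matrix.GeneralLinearGroup.det (ρ σ) =
      WeierstrassCurve.modThreeCyclotomicChar σ) {ω : Qbar} (hω : IsPrimitiveRoot ω 3) :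
    Nonempty (Gens ρ ω) := by
  obtain ⟨st, hst⟩ := hsurj gt
  obtain ⟨si, hsi⟩ := hsurj gi
  obtain ⟨sj, hsj⟩ := hsurj gj
  obtain ⟨sm, hsm⟩ := hsurj (-1)
  have hneg : IsPrimitiveRoot (-1 : Qbar) 2 := IsPrimitiveRoot.neg_one 0 (by norm_num)
  have hfixω := fix_omega_iff hdet hω
  obtain ⟨x, hx0, hxi, hx1, hx2⟩ := exists_gen hρ QQ Nat.prime_three (s := st)
    (by rw [hst]; exact gt_not_mem) (by rw [hst, gt_cube]; exact one_mem _)
    (fun g hg => by rw [hst]; exact conj_QQ hg) hω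
    ((hfixω st).mpr (by rw [hst]; exact det_gt)) (fun g hg => (hfixω g).mpr (det_of_mem_QQ hg))
  obtain ⟨y, hy0, hyi, hy1, hy2⟩ := exists_gen hρ CI Nat.prime_two (s := sj)
    (by rw [hsj]; exact gj_not_mem) (by rw [hsj]; exact gj_sq_mem neg_one_mem_CI)
    (fun g hg => by rw [hsj]; exact conj_CI hg) hneg (by rw [map_neg, map_one])
    (fun g _ => by rw [map_neg, map_one])
  obtain ⟨z, hz0, hzi, hz1, hz2⟩ := exists_gen hρ CJ Nat.prime_two (s := si)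
    (by rw [hsi]; exact gi_not_mem) (by rw [hsi]; exact gi_sq_mem neg_one_mem_CJ)
    (fun g hg => by rw [hsi]; exact conj_CJ hg) hneg (by rw [map_neg, map_one])
    (fun g _ => by rw [map_neg, map_one])
  obtain ⟨t, ht0, hti, ht1, ht2⟩ := exists_gen hρ (⊥ : Subgroup G3) Nat.prime_two (s := sm)
    (by rw [hsm, Subgroup.mem_bot]; decide) (by rw [hsm, Subgroup.mem_bot]; decide)
    (fun g hg => by rw [Subgroup.mem_bot] at hg ⊢; rw [hg]; group) hneg (by rw [map_neg, map_one])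
    (fun g _ => by rw [map_neg, map_one])
  exact ⟨⟨st, si, sj, sm, hst, hsi, hsj, hsm, x, y, z, t, hx0, hy0, hz0, ht0, hxi, hyi, hzi, hti,
    hx1, hy1, hz1, ht1, hx2, hy2, hz2, ht2⟩⟩

namespace Gens

variable {ω : Qbar} (G : Gens ρ ω)


lemma act_x (hω : IsPrimitiveRoot ω 3) (hfω : ∀ g : GQ, (ρ g).1.det = 1 → g ω = ω) {g : GQ}
    (hg : (ρ g).1.det = 1) : (g G.x = G.x ↔ ρ g ∈ QQ) ∧
    (g G.x = G.x ∨ g G.x = ω * G.x ∨ g G.x = ω * (ω * G.x)) := by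
  have hst1 : G.st ω = ω := hfω _ (by rw [G.hst]; exact det_gt)
  have hω1 : ω ≠ 1 := hω.ne_one (by norm_num)
  have hω2 : ω * ω ≠ 1 := by
    rw [← sq]
    exact hω.pow_ne_one_of_pos_of_lt (by norm_num) (by norm_num)
  have hdist : ∀ h : GQ, ρ (G.st⁻¹ * h) ∈ QQ → h G.x = ω * G.x := by
    intro h hh
    have h1 := G.fix_x _ hh
    have h2 : h = G.st * (G.st⁻¹ * h) := by group
    rw [h2]
    change G.st ((G.st⁻¹ * h) G.x) = _
    rw [h1, G.st_x]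
  rcases cover_QQ hg with h | h | h
  · exact ⟨⟨fun _ => h, fun _ => G.fix_x g h⟩, Or.inl (G.fix_x g h)⟩
  · have h1 : g G.x = ω * G.x := hdist g (by rw [map_mul, map_inv, G.hst]; exact h)
    refine ⟨⟨fun h2 => ?_, fun h2 => G.fix_x g h2⟩, Or.inr (Or.inl h1)⟩
    exfalso
    rw [h1] at h2
    exact hω1 (mul_right_cancel₀ G.x_ne (by rw [h2, one_mul]))
  · have h1 : (G.st⁻¹ * g) G.x = ω * G.x := hdist _ (by
      rw [map_mul, map_mul, map_inv, G.hst]; exact h)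
    have h2 : g G.x = ω * (ω * G.x) := by
      have h2 : g = G.st * (G.st⁻¹ * g) := by group
      rw [h2]
      change G.st ((G.st⁻¹ * g) G.x) = _
      rw [h1, map_mul, hst1, G.st_x]
    refine ⟨⟨fun h3 => ?_, fun h3 => G.fix_x g h3⟩, Or.inr (Or.inr h2)⟩
    exfalso
    rw [h2, ← mul_assoc] at h3
    exact hω2 (mul_right_cancel₀ G.x_ne (by rw [h3, one_mul]))

lemma act_y {g : GQ} (hg : ρ g ∈ QQ) :
    (g G.y = G.y ↔ ρ g ∈ CI) ∧ (g G.y = G.y ∨ g G.y = -G.y) :=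
  quad_step G.y_ne G.sj_y G.fix_y (by rw [G.hsj]; exact cover_CI hg)

lemma act_z {g : GQ} (hg : ρ g ∈ QQ) :
    (g G.z = G.z ↔ ρ g ∈ CJ) ∧ (g G.z = G.z ∨ g G.z = -G.z) :=
  quad_step G.z_ne G.si_z G.fix_z (by rw [G.hsi]; exact cover_CJ hg)

lemma act_t {g : GQ} (hg : ρ g = 1 ∨ ρ g = -1) :
    (g G.t = G.t ↔ ρ g = 1) ∧ (g G.t = G.t ∨ g G.t = -G.t) := by
  have h := quad_step (g := g) G.t_ne G.sm_t G.fix_t (by
    rw [G.hsm, Subgroup.mem_bot, Subgroup.mem_bot]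
    rcases hg with h | h
    · exact Or.inl h
    · right
      rw [h]
      decide)
  rwa [Subgroup.mem_bot] at h

end Gens

end Fermat.Agent.LT.Tower
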